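import Fermat.Agent.LL.Defs
import Fermat.Agent.R59.Defs
import Fermat.Agent.TWGal.Diamond
import Fermat.Agent.Galois.Cyclotomic
import Fermat.Prelude.Def_CuspForm_HeckeAlgebra
import Fermat.Prelude.Def_FreyPackage_IsConductorLevel
import Fermat.Prelude.Def_FLTPrelim_ModularRep
import Fermat.Prelude.Def_FLTPrelim_Ramification

/-!
# Level lowering at a minimal level: setting and named pieces

* `Setting`: the residual data at a minimal level `M`. Away from `p` the primes of `M` are the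
  ramified primes `ram`, the hard primes `hard` (`ρbar` unramified, Frobenius a sign, `r ≡ 1`
  modulo `p`) and the harmless primes `aux` (no level raising). At `p` the local condition is flat
  (`p ∤ M`) or strict ordinary and not flat (`p ∣ M`).
* `StmtSetting`: the setting exists for a minimal level of a Frey package with such a prime.
* `StmtPrimes`: auxiliary primes with the presentation over the local variables.
* `StmtPair`: the two congruent modules over the deformation rings.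
-/

set_option autoImplicit false

noncomputable section

open IsLocalRing Polynomial
open WeierstrassCurve WeierstrassCurve.Affine WeierstrassCurve.Affine.Point

namespace Fermat.Agent.LL

local notation "Γℚ" => (AlgebraicClosure ℚ ≃ₐ[ℚ] AlgebraicClosure ℚ)

/-- `τ` generates the images of inertia at `P` of `p`-power order, and the Frobenius `φ` acts on it
by the `r`-th power. -/
structure IsTameGen (p r : ℕ) (P : ValuationSubring (AlgebraicClosure ℚ)) (φ τ : Γℚ) : Prop where
  mem : τ ∈ P.inertiaSubgroupIn ℚ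
  gen : ∀ (H : Type) [Group H] (f : P.decompositionSubgroup ℚ →* H)
    (F : IntermediateField ℚ (AlgebraicClosure ℚ)), FiniteDimensional ℚ F →
    (∀ σ : P.decompositionSubgroup ℚ, (∀ x ∈ F, σ.1 x = x) → f σ = 1) →
    (∀ σ : P.decompositionSubgroup ℚ, σ.1 ∈ P.inertiaSubgroupIn ℚ → ∃ k : ℕ, f σ ^ p ^ k = 1) →
    ∀ (τ' φ' : P.decompositionSubgroup ℚ), τ'.1 = τ → φ'.1 = φ →
      (∀ σ : P.decompositionSubgroup ℚ, σ.1 ∈ P.inertiaSubgroupIn ℚ →
        f σ ∈ Subgroup.zpowers (f τ')) ∧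
      f φ' * f τ' = f τ' ^ r * f φ'

/-- The residual data at a minimal level. -/
structure Setting : Type 1 where
  p : ℕ
  [instPrime : Fact p.Prime]
  two_lt : 2 < p
  O : Type
  [instCommRing : CommRing O]
  [instIsDomain : IsDomain O]
  [instDVR : IsDiscreteValuationRing O]
  [instComplete : IsAdicComplete (maximalIdeal O) O]
  [instFinite : Finite (ResidueField O)]
  [instCharZero : CharZero O]
  [instTorsionFree : IsAddTorsionFree O]
  p_mem : (p : O) ∈ maximalIdeal O
  ρbar : ResidualGaloisRep (ResidueField O)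
  absIrr : ρbar.IsAbsolutelyIrreducible
  detCyc : (GaloisRepAdic.ofResidualGaloisRep ρbar).DetIsCyclotomic p
  split : ∀ σ : Γℚ, ∃ a b : ResidueField O,
    LinearMap.charpoly (ρbar.ρ σ) = (X - C a) * (X - C b)
  tw : ∀ (K : Type) [Field K] [Algebra (ResidueField O) K] (G : Subgroup Γℚ), G.index = 2 →
    ∀ V : Submodule K (ρbar.baseChange K).V,
      (∀ σ ∈ G, ∀ x ∈ V, (ρbar.baseChange K).ρ σ x ∈ V) → V = ⊥ ∨ V = ⊤
  /-- The primes other than `p` where `ρbar` is ramified. -/
  ram : Finset ℕ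
  ramified_iff : ∀ l : ℕ, l.Prime → l ≠ p → (l ∈ ram ↔ ¬ ρbar.IsUnramifiedAt l)
  unipotent : ∀ l ∈ ram, (GaloisRepAdic.ofResidualGaloisRep ρbar).IsUnipotentOnInertiaAt l
  /-- The hard primes. -/
  hard : Finset ℕ
  /-- The harmless primes. -/
  aux : Finset ℕ
  /-- The kind of local condition at `p`. -/
  kind : R59.Kind
  /-- The minimal level. -/
  M : ℕ
  [instNeZero : NeZero M]
  squarefree : Squarefree M
  primeFactors_eq : M.primeFactors.erase p = ram ∪ hard ∪ aux
  disjoint_ram_hard : Disjoint ram hard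
  disjoint_aux : Disjoint (ram ∪ hard) aux
  atP : (kind = .flat ∧ ¬ p ∣ M ∧ (GaloisRepAdic.ofResidualGaloisRep ρbar).IsFlatAt p) ∨
    (kind = .strict ∧ p ∣ M ∧ (GaloisRepAdic.ofResidualGaloisRep ρbar).IsStrictOrdinaryAt p ∧
      ¬ (GaloisRepAdic.ofResidualGaloisRep ρbar).IsFlatAt p)
  /-- No level raising at the harmless primes. -/
  aux_spec : ∀ q ∈ aux, ¬ q ≡ 1 [MOD p] ∧ ∀ A : ValuationSubring (AlgebraicClosure ℚ),
    A.LiesOverPrime q → ∀ σ : Γℚ, A.IsFrobeniusAt σ q →
      LinearMap.trace (ResidueField O) ρbar.V (ρbar.ρ σ) ^ 2 ≠ ((q : ResidueField O) + 1) ^ 2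
  /-- For `p = 3` there are no elliptic elements of order three. -/
  three : p = 3 → ∃ q : ℕ, q.Prime ∧ q ∣ M ∧ q % 3 = 2
  hard_nonempty : hard.Nonempty
  one_mod : ∀ r ∈ hard, r ≡ 1 [MOD p]
  /-- `ρbar` occurs at level `M`. -/
  θ : CuspForm.heckeAlgebra M 2 (↑(insert p M.primeFactors) : Set ℕ) →+* ResidueField O
  θ_charpoly : ∀ (l : ℕ) (hl : l.Prime) (hlM : ¬ l ∣ M)
    (hlS : l ∉ (↑(insert p M.primeFactors) : Set ℕ)),
    ∀ A : ValuationSubring (AlgebraicClosure ℚ), A.LiesOverPrime l →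
      ∀ σ : Γℚ, A.IsFrobeniusAt σ l → LinearMap.charpoly (ρbar.ρ σ) =
        X ^ 2 - C (θ (CuspForm.heckeAlgebra.T hl hlM hlS)) * X + C ((l : ResidueField O))
  /-- `ρbar` does not occur at a level `M'` with `M' r = M`. -/
  minimal : ∀ (r M' : ℕ) [NeZero M'], r ∈ hard → M' * r = M →
    ∀ θ' : CuspForm.heckeAlgebra M' 2 (↑(insert p M.primeFactors) : Set ℕ) →+* ResidueField O,
      ∃ (l : ℕ) (hl : l.Prime) (hlM' : ¬ l ∣ M') (hlM : ¬ l ∣ M)
        (hlS : l ∉ (↑(insert p M.primeFactors) : Set ℕ)),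
        θ' (CuspForm.heckeAlgebra.T hl hlM' hlS) ≠ θ (CuspForm.heckeAlgebra.T hl hlM hlS)
  /-- Roots of unity of all `p`-power orders dividing some `r - 1`. -/
  zeta : ∀ r ∈ hard, ∃ ζ : O, IsPrimitiveRoot ζ (p ^ padicValNat p (r - 1))
  /-- A place over each hard prime. -/
  place : {r // r ∈ hard} → ValuationSubring (AlgebraicClosure ℚ)
  frob : {r // r ∈ hard} → Γℚ
  tame : {r // r ∈ hard} → Γℚ
  sign : {r // r ∈ hard} → ℤˣ
  place_liesOver : ∀ i, (place i).LiesOverPrime i.1
  frob_spec : ∀ i, (place i).IsFrobeniusAt (frob i) i.1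
  tame_spec : ∀ i, IsTameGen p i.1 (place i) (frob i) (tame i)
  scalar : ∀ (r : {r // r ∈ hard}) (A : ValuationSubring (AlgebraicClosure ℚ)),
    A.LiesOverPrime r.1 → ∀ σ : Γℚ, A.IsFrobeniusAt σ r.1 →
      ρbar.ρ σ = ((sign r : ℤ) : ResidueField O) • (1 : Module.End (ResidueField O) ρbar.V)

attribute [instance] Setting.instPrime Setting.instCommRing Setting.instIsDomain Setting.instDVR
  Setting.instComplete Setting.instFinite Setting.instCharZero Setting.instTorsionFree
  Setting.instNeZero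

namespace Setting

variable (U : Setting)

/-- The hard primes. -/
abbrev Idx : Type := {r // r ∈ U.hard}

/-- Number of parameters for a given number of global variables. -/
def nPar (g : ℕ) : ℕ := 3 * Fintype.card U.Idx + g

/-- `p`, the primes of the level and the auxiliary primes. -/
def auxSet {R : ℕ} (qv : Fin R → ℕ) : Finset ℕ :=
  insert U.p U.M.primeFactors ∪ Finset.univ.image qv

/-- The ramification set of the deformation problem: the harmless primes are left out. -/
def defSet {R : ℕ} (qv : Fin R → ℕ) : Finset ℕ :=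
  insert U.p (U.ram ∪ U.hard) ∪ Finset.univ.image qv

/-- The deformation problem: of kind `kind` at `p`, unipotent at the ramified primes, arbitrary at
the hard and auxiliary primes. -/
def defCond {R : ℕ} (qv : Fin R → ℕ) :
    ∀ ⦃A : Type⦄ [CommRing A] [IsLocalRing A] [Algebra U.O A], GaloisRepAdic A → Prop :=
  R59.cond U.kind U.O U.p (U.defSet qv) (insert U.p U.ram)

theorem mem_defSet_or_aux {R : ℕ} {qv : Fin R → ℕ} {q : ℕ} (h : q ∈ U.auxSet qv) :
    q ∈ U.defSet qv ∨ q ∈ U.aux := by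
  rcases Finset.mem_union.mp h with h | h
  · by_cases hp : q = U.p
    · exact Or.inl (Finset.mem_union_left _ (hp ▸ Finset.mem_insert_self _ _))
    · have h' : q ∈ U.ram ∪ U.hard ∪ U.aux := U.primeFactors_eq ▸
        Finset.mem_erase.mpr ⟨hp, (Finset.mem_insert.mp h).resolve_left hp⟩
      exact (Finset.mem_union.mp h').imp_left fun h'' =>
        Finset.mem_union_left _ (Finset.mem_insert_of_mem h'')
  · exact Or.inl (Finset.mem_union_right _ h)

theorem two_ne_p : U.p ≠ 2 := (Nat.ne_of_lt U.two_lt).symm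

theorem mem_primeFactors {q : ℕ} (h : q ∈ U.ram ∪ U.hard ∪ U.aux) :
    q ≠ U.p ∧ q ∈ U.M.primeFactors := Finset.mem_erase.mp (U.primeFactors_eq ▸ h)

theorem prime_of_ram {q : ℕ} (h : q ∈ U.ram) : q.Prime :=
  Nat.prime_of_mem_primeFactors (U.mem_primeFactors
    (Finset.mem_union_left _ (Finset.mem_union_left _ h))).2

theorem hard_prime (i : U.Idx) : i.1.Prime :=
  Nat.prime_of_mem_primeFactors (U.mem_primeFactors
    (Finset.mem_union_left _ (Finset.mem_union_right _ i.2))).2

theorem hard_ne_p (i : U.Idx) : i.1 ≠ U.p :=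
  (U.mem_primeFactors (Finset.mem_union_left _ (Finset.mem_union_right _ i.2))).1

theorem hard_dvd (i : U.Idx) : i.1 ∣ U.M :=
  Nat.dvd_of_mem_primeFactors (U.mem_primeFactors
    (Finset.mem_union_left _ (Finset.mem_union_right _ i.2))).2

theorem hard_notMem_ram (i : U.Idx) : i.1 ∉ U.ram :=
  Finset.disjoint_right.mp U.disjoint_ram_hard i.2

theorem hard_isUnramifiedAt (i : U.Idx) : U.ρbar.IsUnramifiedAt i.1 :=
  not_not.mp (mt (U.ramified_iff i.1 (U.hard_prime i) (U.hard_ne_p i)).mpr (U.hard_notMem_ram i))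

theorem isUnramifiedAt_of_notMem {q : ℕ} (hq : q.Prime) (h : q ∉ insert U.p U.ram) :
    U.ρbar.IsUnramifiedAt q :=
  not_not.mp (mt (U.ramified_iff q hq fun e => h (e ▸ Finset.mem_insert_self _ _)).mpr
    fun hm => h (Finset.mem_insert_of_mem hm))

theorem unipotent_of_mem {q : ℕ} (h : q ∈ insert U.p U.ram) (hqp : q ≠ U.p) :
    (GaloisRepAdic.ofResidualGaloisRep U.ρbar).IsUnipotentOnInertiaAt q :=
  U.unipotent q ((Finset.mem_insert.mp h).resolve_left hqp)

theorem kind_eq : U.kind = .flat ∨ U.kind = .strict := U.atP.imp And.left And.left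

theorem dvd_iff_strict : U.p ∣ U.M ↔ U.kind = .strict := by
  rcases U.atP with ⟨h, h', -⟩ | ⟨h, h', -⟩ <;> simp [h, h']

/-- The residual representation has the base type of every set containing the ramified primes. -/
theorem baseCond_residual {S : Finset ℕ} (hS : insert U.p U.ram ⊆ S) :
    R59.baseCond U.kind U.O U.p S (GaloisRepAdic.ofResidualGaloisRep U.ρbar) := by
  have hur : ∀ q : ℕ, q.Prime → q ∉ S →
      (GaloisRepAdic.ofResidualGaloisRep U.ρbar).IsUnramifiedAt q :=
    fun q hq hqS => U.isUnramifiedAt_of_notMem hq fun h => hqS (hS h)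
  rcases U.atP with ⟨h, -, hf⟩ | ⟨h, -, hs, -⟩ <;> rw [h]
  · exact ⟨U.detCyc, hf, hur⟩
  · exact ⟨U.detCyc, hs, hur⟩

/-- Admissible auxiliary primes at level `n`. -/
structure IsAux (n : ℕ) {R : ℕ} (qv : Fin R → ℕ) : Prop where
  injective : Function.Injective qv
  prime : ∀ i, (qv i).Prime
  not_mem : ∀ i, qv i ∉ insert U.p U.M.primeFactors
  dvd : ∀ i, U.p ^ (n + 1) ∣ qv i - 1
  distinct : ∀ i, ∀ P : ValuationSubring (AlgebraicClosure ℚ), P.LiesOverPrime (qv i) →
    ∀ φ : Γℚ, P.IsFrobeniusAt φ (qv i) → ∃ α β : ResidueField U.O, α ≠ β ∧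
      LinearMap.charpoly (U.ρbar.ρ φ) = (X - C α) * (X - C β)

/-- A surjection from the local variables which sends the universal matrices to the signed
Frobenius and to the inertia generator. -/
def HasPresentation (g : ℕ) {R : ℕ} {qv : Fin R → ℕ}
    (D : GaloisRep.DeformationRingData U.O U.ρbar (U.defCond qv)) : Prop :=
  ∃ γ : MvPowerSeries (LocVar U.Idx (Fin g)) U.O →ₐ[U.O] D.R, Function.Surjective γ ∧
    ∀ i : U.Idx, ∃ b : Module.Basis (Fin 2) D.R D.ρ.V,
      (univPhi U.O i).map γ = ((U.sign i : ℤ) : D.R) • LinearMap.toMatrix b b (D.ρ.ρ (U.frob i)) ∧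
      (univSig U.O i).map γ = LinearMap.toMatrix b b (D.ρ.ρ (U.tame i))

end Setting

/-- The trace of a deformation. -/
def trAt {A : Type} [CommRing A] [IsLocalRing A] (ρ : GaloisRepAdic A) (σ : Γℚ) : A :=
  LinearMap.trace A ρ.V (ρ.ρ σ)

/-- `M` is free of rank `d` over `O⟦X⟧ / ((1 + Xᵢ) ^ pⁿ - 1)`, the variables acting as `u`. -/
def IsFreeLevel {O B : Type} [CommRing O] [CommRing B] [Algebra O B] {R : ℕ} (p n d : ℕ)
    (u : Fin R → B) (M : Type) [AddCommGroup M] [Module B M] : Prop :=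
  ∃ b : Fin d → M, ∀ α : MvPowerSeries (Fin R) O →ₐ[O] B, (∀ i, α (MvPowerSeries.X i) = u i) →
    (∀ m : M, ∃ f : Fin d → MvPowerSeries (Fin R) O, m = ∑ j, α (f j) • b j) ∧
    ∀ f : Fin d → MvPowerSeries (Fin R) O, (∑ j, α (f j) • b j = 0 ↔
      ∀ j, f j ∈ Ideal.span (Set.range fun i : Fin R =>
        (1 + MvPowerSeries.X i : MvPowerSeries (Fin R) O) ^ p ^ n - 1))

/-- The two congruent modules over a deformation ring, with their level zero properties. -/
structure Pair (U : Setting) (i₀ : U.Idx) (d e k n : ℕ) {R : ℕ} {qv : Fin R → ℕ}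
    (D : GaloisRep.DeformationRingData U.O U.ρbar (U.defCond qv)) : Type 1 where
  M₀ : Type
  M₁ : Type
  [instAddCommGroup₀ : AddCommGroup M₀]
  [instAddCommGroup₁ : AddCommGroup M₁]
  [instModule₀ : Module D.R M₀]
  [instModule₁ : Module D.R M₁]
  /-- Inertia at the auxiliary primes, minus one. -/
  u : Fin R → D.R
  u_mem : ∀ i, u i ∈ maximalIdeal D.R
  free₀ : IsFreeLevel (O := U.O) U.p n d u M₀
  free₁ : IsFreeLevel (O := U.O) U.p n d u M₁
  congr : ∃ f : M₀ →ₗ[D.R] M₁ ⧸ ((maximalIdeal U.O).map (algebraMap U.O D.R) •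
      (⊤ : Submodule D.R M₁)), Function.Surjective f ∧
    LinearMap.ker f = (maximalIdeal U.O).map (algebraMap U.O D.R) • ⊤
  /-- At level zero inertia at the hard primes is unipotent on the first module. -/
  trace₀ : ∀ (i : U.Idx) (m : M₀),
    (trAt D.ρ (U.tame i) - 2) ^ e • m ∈ Ideal.span (Set.range u) • (⊤ : Submodule D.R M₀)
  /-- At level zero inertia at `i₀` is nowhere trivial on the first module. -/
  nontriv : ∀ m : M₀, algebraMap U.O D.R ((U.p : U.O)) ^ k • m ∈
    (Ideal.span (Set.range fun σ : Γℚ => trAt D.ρ (U.tame i₀ * σ) - trAt D.ρ σ) ⊔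
      Ideal.span (Set.range u)) • (⊤ : Submodule D.R M₀)
  trace₁ : ∀ (i : U.Idx), i ≠ i₀ → ∀ m : M₁,
    (trAt D.ρ (U.tame i) - 2) ^ e • m ∈ Ideal.span (Set.range u) • (⊤ : Submodule D.R M₁)
  /-- At level zero inertia at `i₀` has finite exact order on the second module. -/
  finiteOrder₁ : ∀ m : M₁,
    (∏ᶠ ζ ∈ {ζ : U.O | ζ ^ U.p ^ padicValNat U.p (i₀.1 - 1) = 1 ∧ ζ ≠ 1},
      (trAt D.ρ (U.tame i₀) - algebraMap U.O D.R (ζ + ζ ^ (U.p ^ padicValNat U.p (i₀.1 - 1) - 1))))
      ^ e • m ∈ Ideal.span (Set.range u) • (⊤ : Submodule D.R M₁)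

attribute [instance] Pair.instAddCommGroup₀ Pair.instAddCommGroup₁ Pair.instModule₀
  Pair.instModule₁

/-- A minimal level with an odd prime gives a setting. -/
def StmtSetting : Prop :=
  ∀ (P : FreyPackage) (M : ℕ), P.IsConductorLevel M → ¬ P.p ∣ M →
    GaloisRepIsIrreducible (K := AlgebraicClosure ℚ) ℚ P.freyCurve P.p →
    P.ModularRepOfLevel M → (∀ M' : ℕ, M' ∣ M → M' < M → ¬ P.ModularRepOfLevel M') →
    (∃ q : ℕ, q.Prime ∧ q ≠ 2 ∧ q ∣ M) → Nonempty Setting

/-- Auxiliary primes with presentations over the local variables. -/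
def StmtPrimes : Prop :=
  ∀ U : Setting, ∃ g : ℕ, ∀ n : ℕ, ∃ qv : Fin (U.nPar g) → ℕ, U.IsAux n qv ∧
    ∀ D : GaloisRep.DeformationRingData U.O U.ρbar (U.defCond qv), U.HasPresentation g D

/-- The congruent modules, with bounds independent of the auxiliary primes. -/
def StmtPair : Prop :=
  ∀ (U : Setting) (i₀ : U.Idx), ∃ d e k : ℕ, 0 < d ∧ ∀ (n R : ℕ) (qv : Fin R → ℕ), U.IsAux n qv →
    ∀ D : GaloisRep.DeformationRingData U.O U.ρbar (U.defCond qv), Nonempty (Pair U i₀ d e k n D)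

end Fermat.Agent.LL
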