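import Fermat.Agent.LL.NoHardLevel
import Fermat.Agent.LL.Pair.Main
import Fermat.Agent.LL.Pair.InputsProof

/-!
# The type of S38
-/

set_option autoImplicit false

noncomputable section

namespace Fermat.Agent.LL

/-- The congruent modules exist. -/
theorem stmtPair : StmtPair := Pair.stmtPair_of Pair.inputs

/-- Residual level lowering at an unramified prime of a squarefree level. -/
theorem stmt38 : R59.Stmt38 := stmt38_of_pair stmtPair

end Fermat.Agent.LL
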