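import Fermat.Agent.LL.Mazur.Lower
import Fermat.Agent.LL.Residual.ModularTrace
import Fermat.Agent.R59.Assembly
import Fermat.Prelude.Def_FreyPackage_IsConductorLevel

/-!
# Level lowering for a Frey package from the curve form
-/

set_option autoImplicit false

noncomputable section

open WeierstrassCurve WeierstrassCurve.Affine WeierstrassCurve.Affine.Point
open FreyPackage

namespace Fermat.Agent.LL

/-- The type of S43 from the type of S38. -/
theorem frey_level_lowering_of_stmt38 (h38 : R59.Stmt38) (P : FreyPackage) {N q : ℕ}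
    (hcond : P.IsConductorLevel N) (hq : q.Prime) (hqp : q ≠ P.p) (hqN : q ∣ N)
    (hirr : GaloisRepIsIrreducible (K := AlgebraicClosure ℚ) ℚ P.freyCurve P.p)
    (hmod : P.ModularRepOfLevel N) (hunr : P.GaloisRepUnramifiedAt q) :
    ∃ M : ℕ, M ∣ N ∧ ¬ q ∣ M ∧ P.ModularRepOfLevel M := by
  have : Fact P.p.Prime := ⟨P.pp⟩
  have hΔ := ECLocal.freyCurveInt_Δ_ne_zero P
  have hp5 := P.hp5
  have hirrW : P.freyCurveInt.ModRepIsIrreducible P.p := by
    unfold WeierstrassCurve.ModRepIsIrreducible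
    rw [ECLocal.freyCurveInt_map]
    exact hirr
  have hq2 : ¬ q ^ 2 ∣ N := fun h =>
    Nat.squarefree_iff_prime_squarefree.mp hcond.squarefree q hq (sq q ▸ h)
  have hur : R59.ModUnramified P.freyCurveInt P.p q := by
    intro A hA σ hσ
    refine LinearMap.ext fun x => ?_
    have h := hunr A hA σ hσ
    rw [← ECLocal.freyCurveInt_map] at h
    exact h x
  obtain ⟨f, 𝔪, hf, h𝔪, hp𝔪, hc⟩ := h38 P.p (by omega) P.freyCurveInt hΔ
    (ECLocal.isSemistableModel_freyCurveInt P)
    (ECTorsion.natCard_torsionBy_qbar_of_int P.freyCurveInt hΔ P.pp.ne_zero)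
    (CondLevel.rhoTors_finiteLevel P.freyCurveInt hΔ P.pp.ne_zero) hirrW N q hq hqp hqN hq2
    hcond.squarefree hur
    (isResiduallyModularOfLevel_of_frey Mazur.residualAttachment P hcond.pos.ne' hmod)
  exact ⟨N / q, Nat.div_dvd_of_dvd hqN,
    fun h => hq2 (by
      rw [sq]
      exact (Nat.dvd_div_iff_mul_dvd hqN).mp h),
    f, P.freyCurveInt, 𝔪, hf, freyCurveInt_isIntegralModelOf P, h𝔪, hp𝔪, hc⟩

end Fermat.Agent.LL
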