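import Mathlib.RingTheory.Ideal.HasGoingUp
import Mathlib.RingTheory.Ideal.GoingUp
import Mathlib.RingTheory.Ideal.KrullsHeightTheorem
import Mathlib.RingTheory.KrullDimension.NonZeroDivisors
import Mathlib.RingTheory.IntegralClosure.Algebra.Basic

/-!
# Two finite maps from one Noetherian local domain to another domain
-/

set_option autoImplicit false

namespace Fermat.Agent.LL

lemma ringKrullDim_le_of_finite {R B : Type*} [CommRing R] [CommRing B] (f : R →+* B)
    (hf : f.Finite) : ringKrullDim B ≤ ringKrullDim R := by
  algebraize [f]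
  have : Algebra.IsIntegral R B := Algebra.IsIntegral.of_finite R B
  refine Order.krullDim_le_of_strictMono (PrimeSpectrum.comap (algebraMap R B)) fun P Q h => ?_
  exact Ideal.IsIntegral.comap_lt_comap (R := R) (A := B) (I := P.asIdeal) (J := Q.asIdeal) h

lemma ringKrullDim_le_of_finite_injective {R B : Type*} [CommRing R] [IsDomain R] [CommRing B]
    [IsDomain B] (f : R →+* B) (hf : f.Finite) (hinj : Function.Injective f) :
    ringKrullDim R ≤ ringKrullDim B := by
  algebraize [f]
  have : Algebra.IsIntegral R B := Algebra.IsIntegral.of_finite R B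
  have : Algebra.HasGoingUp R B := Algebra.HasGoingUp.of_isIntegral
  unfold ringKrullDim Order.krullDim
  refine iSup_le fun l => ?_
  obtain ⟨P, -, hP, hPl⟩ := Ideal.exists_ideal_over_prime_of_isIntegral (S := B) l.head.asIdeal ⊥
    (by
      intro x hx
      rw [Ideal.mem_comap, Ideal.mem_bot] at hx
      rw [(map_eq_zero_iff (algebraMap R B) hinj).mp hx]
      exact Ideal.zero_mem _)
  have : P.LiesOver l.head.asIdeal := ⟨hPl.symm⟩
  obtain ⟨L, hlen, -, -⟩ := Ideal.exists_ltSeries_of_hasGoingUp l P
  exact le_iSup_of_le L (le_of_eq (by rw [hlen]))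

/-- If a domain `B` is finite over `N` in two ways, one of them injective, so is the other. -/
theorem injective_of_finite_of_finite {N B : Type*} [CommRing N] [IsDomain N] [IsNoetherianRing N]
    [IsLocalRing N] [CommRing B] [IsDomain B] (ψ φ : N →+* B) (hψ : ψ.Finite)
    (hψi : Function.Injective ψ) (hφ : φ.Finite) : Function.Injective φ := by
  rw [injective_iff_map_eq_zero]
  intro r hr
  by_contra hr0
  have h1 : ringKrullDim N ≤ ringKrullDim B := ringKrullDim_le_of_finite_injective ψ hψ hψi
  have h2 : ringKrullDim B ≤ ringKrullDim φ.range := by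
    refine ringKrullDim_le_of_finite φ.range.subtype (RingHom.Finite.of_comp_finite (f :=
      φ.rangeRestrict) ?_)
    exact hφ
  have h3 : ringKrullDim φ.range + 1 ≤ ringKrullDim N :=
    ringKrullDim_succ_le_of_surjective φ.rangeRestrict φ.rangeRestrict_surjective
      (mem_nonZeroDivisors_of_ne_zero hr0) (Subtype.ext hr)
  have hfin : FiniteRingKrullDim N := inferInstance
  have hN := h1.trans h2
  have h4 : ringKrullDim N + 1 ≤ ringKrullDim N :=
    le_trans (add_le_add hN le_rfl) h3
  have hb : ringKrullDim N ≠ ⊥ := ringKrullDim_ne_bot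
  have ht : ringKrullDim N ≠ ⊤ := ringKrullDim_ne_top
  revert h4 hb ht
  generalize ringKrullDim N = d
  intro h4 hb ht
  induction d using WithBot.recBotCoe with
  | bot => exact hb rfl
  | coe d =>
    induction d using ENat.recTopCoe with
    | top => exact ht rfl
    | coe n => norm_cast at h4; exact absurd h4 (by omega)

end Fermat.Agent.LL
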