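import Mathlib.FieldTheory.Minpoly.IsIntegrallyClosed
import Mathlib.RingTheory.IntegralClosure.Algebra.Basic
import Mathlib.RingTheory.IntegralClosure.IntegrallyClosed
import Mathlib.RingTheory.Polynomial.ScaleRoots
import Mathlib.RingTheory.MvPowerSeries.Substitution
import Mathlib.RingTheory.PowerSeries.Inverse
import Mathlib.RingTheory.Ideal.Operations
import Mathlib.Tactic.LinearCombination

/-!
# The sextic of the level lowering argument

Let `p₀, p₁, p₂` reduce to independent variables modulo `π`.  A root `α` of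
`p₀² (α-δ)²(α-2δ)² + p₁² α²(α-2δ)² - p₂² α²(α-δ)² = α²(α-δ)²(α-2δ)²`
cannot be nilpotent modulo `π`.
-/

set_option autoImplicit false

namespace Fermat.Agent.LL

open Polynomial

/-- The three quartics `∏_{j ≠ i} (w - j)²`, `i, j ∈ {0, 1, 2}`. -/
noncomputable def hexicQuartic (R : Type*) [CommRing R] : Fin 3 → R[X] :=
  ![((X - 1) * (X - 2)) ^ 2, (X * (X - 2)) ^ 2, (X * (X - 1)) ^ 2]

lemma hexicQuartic_map {R S : Type*} [CommRing R] [CommRing S] (f : R →+* S) (i : Fin 3) :
    (hexicQuartic R i).map f = hexicQuartic S i := by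
  fin_cases i <;> simp [hexicQuartic, Polynomial.map_pow, Polynomial.map_mul, Polynomial.map_sub]

/-- The three quartics have no common nonconstant factor away from characteristic two. -/
lemma isUnit_of_dvd_hexicQuartic {k : Type*} [Field k] (h2 : (2 : k) ≠ 0) {D : k[X]}
    (h : ∀ i, D ∣ hexicQuartic k i) : IsUnit D := by
  by_contra hu
  have hne : D ≠ 0 := by
    rintro rfl
    have := congrArg (Polynomial.eval 0) (zero_dvd_iff.mp (h 0))
    simp [hexicQuartic, h2] at this
  obtain ⟨P, hP, hPD⟩ := WfDvdMonoid.exists_irreducible_factor hu hne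
  have key : ∀ i, P ∣ hexicQuartic k i := fun i => hPD.trans (h i)
  have hroot : ∀ a : k, P ∣ X - C a → ∀ i, (hexicQuartic k i).eval a = 0 := by
    intro a ha i
    have hass : Associated P (X - C a) :=
      hP.associated_of_dvd (irreducible_X_sub_C a) ha
    exact dvd_iff_isRoot.mp (hass.symm.dvd.trans (key i))
  have h1 : P ∣ X - C (1 : k) ∨ P ∣ X - C (2 : k) := by
    have := key 0
    simp only [hexicQuartic, Matrix.cons_val_zero] at this
    rcases hP.prime.dvd_or_dvd (hP.prime.dvd_of_dvd_pow this) with h | h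
    · exact Or.inl (by rwa [C_1])
    · exact Or.inr (by simpa [map_ofNat] using h)
  rcases h1 with h1 | h1
  · have := hroot 1 h1 1
    norm_num [hexicQuartic] at this
  · have := hroot 2 h1 2
    simp [hexicQuartic, h2, show (2 : k) - 1 = 1 by norm_num] at this

/-- A nonconstant monic factor of `p₀² g₀ + p₁² g₁ - p₂² g₂` over power series cannot exist. -/
lemma natDegree_eq_zero_of_dvd_conic {k σ : Type*} [Field k] [Finite σ] (h2 : (2 : k) ≠ 0)
    (e : Fin 3 → σ) (he : Function.Injective e) (G : (MvPowerSeries σ k)[X]) (hG : G.Monic)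
    (hdvd : G ∣ C ((MvPowerSeries.X (e 0)) ^ 2) * hexicQuartic _ 0 +
      C ((MvPowerSeries.X (e 1)) ^ 2) * hexicQuartic _ 1 -
      C ((MvPowerSeries.X (e 2)) ^ 2) * hexicQuartic _ 2) :
    G.natDegree = 0 := by
  classical
  have hG0 : (G.map MvPowerSeries.constantCoeff).Monic := hG.map _
  have hu : IsUnit (G.map MvPowerSeries.constantCoeff) := by
    refine isUnit_of_dvd_hexicQuartic h2 fun i => ?_
    -- restrict to the `e i` axis
    have hsub : MvPowerSeries.HasSubst
        (fun j => if j = e i then (PowerSeries.X : PowerSeries k) else 0) := by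
      refine MvPowerSeries.hasSubst_of_constantCoeff_zero fun j => ?_
      split_ifs <;> simp [PowerSeries.X]
    let ψ : MvPowerSeries σ k →ₐ[k] PowerSeries k := MvPowerSeries.substAlgHom hsub
    have hψX : ∀ j, ψ (MvPowerSeries.X j) = if j = e i then PowerSeries.X else 0 :=
      fun j => MvPowerSeries.substAlgHom_X hsub j
    have hcc : (PowerSeries.constantCoeff).comp ψ.toRingHom =
        (MvPowerSeries.constantCoeff (σ := σ) (R := k)) := by
      ext f
      simp only [AlgHom.toRingHom_eq_coe, RingHom.coe_comp, RingHom.coe_coe, Function.comp_apply]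
      rw [show ψ f = MvPowerSeries.subst _ f from MvPowerSeries.substAlgHom_apply hsub f]
      have hz : ∀ g : MvPowerSeries σ k, g.constantCoeff = 0 →
          PowerSeries.constantCoeff (ψ g) = 0 := by
        intro g hg
        rw [show ψ g = MvPowerSeries.subst _ g from MvPowerSeries.substAlgHom_apply hsub g]
        refine MvPowerSeries.constantCoeff_subst_eq_zero hsub (fun j => ?_) hg
        split_ifs <;> simp [PowerSeries.X]
      have hsplit : f = algebraMap k _ f.constantCoeff +
          (f - algebraMap k _ f.constantCoeff) := by ring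
      conv_lhs => rw [← MvPowerSeries.substAlgHom_apply hsub f, hsplit]
      change PowerSeries.constantCoeff (ψ _) = _
      rw [map_add ψ, map_add, AlgHom.commutes, hz _ (by simp [MvPowerSeries.algebraMap_apply]),
        add_zero]
      simp [PowerSeries.algebraMap_apply]
    obtain ⟨H, hH⟩ := Polynomial.map_dvd ψ.toRingHom hdvd
    have hmap : ∀ j, (C ((MvPowerSeries.X (e j) : MvPowerSeries σ k) ^ 2) *
        hexicQuartic _ j).map ψ.toRingHom =
        if j = i then C (PowerSeries.X ^ 2) * hexicQuartic _ i else 0 := by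
      intro j
      rw [Polynomial.map_mul, Polynomial.map_C, hexicQuartic_map]
      simp only [AlgHom.toRingHom_eq_coe, RingHom.coe_coe, map_pow, hψX, he.eq_iff]
      split_ifs with hji <;> simp [hji]
    rw [Polynomial.map_sub, Polynomial.map_add, hmap, hmap, hmap] at hH
    have hH' : C ((PowerSeries.X : PowerSeries k) ^ 2) * hexicQuartic _ i =
        G.map ψ.toRingHom * H ∨
        -(C ((PowerSeries.X : PowerSeries k) ^ 2) * hexicQuartic _ i) =
        G.map ψ.toRingHom * H := by
      fin_cases i <;> simp at hH ⊢ <;> simp [hH]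
    have hXp : Prime (C (PowerSeries.X : PowerSeries k)) :=
      Polynomial.prime_C_iff.mpr PowerSeries.X_prime
    have hnd : ¬ C (PowerSeries.X : PowerSeries k) ∣ G.map ψ.toRingHom := by
      intro h
      have h1 := (Polynomial.C_dvd_iff_dvd_coeff _ _).mp h (G.map ψ.toRingHom).natDegree
      rw [(hG.map ψ.toRingHom).coeff_natDegree] at h1
      exact PowerSeries.X_prime.not_dvd_one h1
    have hd : C ((PowerSeries.X : PowerSeries k) ^ 2) ∣ G.map ψ.toRingHom * H := by
      rcases hH' with h | h <;> rw [← h]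
      · exact dvd_mul_right _ _
      · exact (dvd_mul_right _ _).neg_right
    rw [map_pow] at hd
    obtain ⟨H', rfl⟩ := hXp.pow_dvd_of_dvd_mul_left 2 hnd hd
    have hne : (C (PowerSeries.X : PowerSeries k)) ^ 2 ≠ 0 := pow_ne_zero _ hXp.ne_zero
    have hdv : G.map ψ.toRingHom ∣ hexicQuartic (PowerSeries k) i := by
      rw [map_pow, mul_left_comm] at hH'
      rcases hH' with h | h
      · exact ⟨H', mul_left_cancel₀ hne h⟩
      · refine dvd_neg.mp ⟨H', mul_left_cancel₀ hne ?_⟩
        rw [mul_neg]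
        exact h
    have := Polynomial.map_dvd (PowerSeries.constantCoeff (R := k)) hdv
    rwa [Polynomial.map_map, hcc, hexicQuartic_map] at this
  have := Polynomial.natDegree_eq_zero_of_isUnit hu
  rwa [hG.natDegree_map] at this

variable {N L : Type*} [CommRing N] [IsDomain N] [IsIntegrallyClosed N] [Field L] [Algebra N L]
  [FaithfulSMul N L]

omit [IsDomain N] [IsIntegrallyClosed N] [FaithfulSMul N L] in
lemma exists_norm_multiple {π a : N} {z : L} (hz : IsIntegral N z) :
    ∃ (b : N) (m : ℕ) (u : L), π ∣ b - a ^ m ∧ IsIntegral N u ∧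
      algebraMap N L b = u * (algebraMap N L a - algebraMap N L π * z) := by
  obtain ⟨P, hP, hPz⟩ := hz
  -- homogenise `P` at `(a, π)`
  let Q := P.scaleRoots π
  have hQ : Q.Monic := (monic_scaleRoots_iff π).mpr hP
  have hzI : IsIntegral N z := ⟨P, hP, hPz⟩
  have hQz : aeval (algebraMap N L π * z) Q = 0 := by
    rw [aeval_def]
    exact scaleRoots_eval₂_eq_zero (algebraMap N L) hPz
  obtain ⟨D, hD⟩ : (X - C (algebraMap N L π * z)) ∣
      (Q.map (algebraMap N L)) := by
    rw [dvd_iff_isRoot, IsRoot, eval_map, ← aeval_def]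
    exact hQz
  refine ⟨Q.eval a, P.natDegree, D.eval (algebraMap N L a), ?_, ?_, ?_⟩
  · rw [eval_eq_sum_range, natDegree_scaleRoots, Finset.sum_range_succ]
    have : Q.coeff P.natDegree = 1 := by
      rw [coeff_scaleRoots_natDegree, hP.leadingCoeff]
    rw [this, one_mul, add_sub_cancel_right]
    refine Finset.dvd_sum fun i hi => Dvd.dvd.mul_right ?_ _
    rw [coeff_scaleRoots]
    refine Dvd.dvd.mul_left (dvd_pow_self π ?_) _
    rw [Finset.mem_range] at hi
    omega
  · -- `D` has integral coefficients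
    have hD' : ∀ i, IsIntegral N (D.coeff i) := by
      have hDeq : D = (Q.map (algebraMap N L)) /ₘ (X - C (algebraMap N L π * z)) := by
        rw [hD, mul_divByMonic_cancel_left _ (monic_X_sub_C _)]
      let S := integralClosure N L
      let zS : S := ⟨algebraMap N L π * z, isIntegral_algebraMap.mul hzI⟩
      have : D = ((Q.map (algebraMap N S)) /ₘ (X - C zS)).map (algebraMap S L) := by
        rw [Polynomial.map_divByMonic _ (monic_X_sub_C _), Polynomial.map_map,
          Polynomial.map_sub, map_X, map_C, hDeq]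
        rfl
      intro i
      rw [this, coeff_map]
      exact (_ : S).2
    rw [eval_eq_sum_range]
    exact IsIntegral.sum _ fun i _ => (hD' i).mul (isIntegral_algebraMap.pow _)
  · have h := congrArg (Polynomial.eval (algebraMap N L a)) hD
    rw [eval_map, eval_mul, eval_sub, eval_X, eval_C, eval₂_at_apply] at h
    rw [h, mul_comm]

/-- A root of the sextic is not nilpotent modulo `π`. -/
theorem not_dvd_pow_of_sextic {k σ : Type*} [Field k] [Finite σ] (h2 : (2 : k) ≠ 0)
    (red : N →+* MvPowerSeries σ k) (π : N) (hker : ∀ x, red x = 0 ↔ π ∣ x)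
    (e : Fin 3 → σ) (he : Function.Injective e) (p : Fin 3 → N)
    (hp : ∀ i, red (p i) = MvPowerSeries.X (e i))
    (δ : N) (hδ0 : δ ≠ 0) (hδπ : π ∣ δ)
    (hδ : ∀ x b : N, red b ≠ 0 → δ ∣ b * x → δ ∣ x) (α : L)
    (hroot : algebraMap N L (p 0) ^ 2 *
        ((α - algebraMap N L δ) * (α - 2 * algebraMap N L δ)) ^ 2 +
      algebraMap N L (p 1) ^ 2 * (α * (α - 2 * algebraMap N L δ)) ^ 2 -
      algebraMap N L (p 2) ^ 2 * (α * (α - algebraMap N L δ)) ^ 2 =
      (α * (α - algebraMap N L δ) * (α - 2 * algebraMap N L δ)) ^ 2)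
    {K : ℕ} (y : L) (hy : IsIntegral N y) (hK : α ^ K = algebraMap N L π * y) : False := by
  classical
  have hinj : Function.Injective (algebraMap N L) := FaithfulSMul.algebraMap_injective N L
  set ι := algebraMap N L with hι
  have hd0 : ι δ ≠ 0 := (map_ne_zero_iff _ hinj).mpr hδ0
  -- `α` is integral
  have hK0 : K ≠ 0 := by
    rintro rfl
    rw [pow_zero] at hK
    have : red π = 0 := (hker π).mpr dvd_rfl
    by_cases hπ : π = 0
    · rw [hπ, map_zero, zero_mul] at hK
      exact one_ne_zero hK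
    · -- `y = π⁻¹` would be integral over `N`
      obtain ⟨P, hP, hPy⟩ := hy
      have h1 : aeval (1 : L) (P.scaleRoots π) = 0 := by
        have := scaleRoots_eval₂_eq_zero (s := π) (algebraMap N L) hPy
        rwa [← hι, ← hK] at this
      have h2' : (P.scaleRoots π).eval 1 = 0 := hinj (by
        rw [map_zero, ← h1, aeval_def, ← hι, ← eval₂_at_apply, map_one])
      have h3 := congrArg red h2'
      rw [eval_eq_sum_range, map_sum, natDegree_scaleRoots, Finset.sum_range_succ,
        Finset.sum_eq_zero] at h3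
      · simp [coeff_scaleRoots, hP.leadingCoeff, hP.coeff_natDegree] at h3
      · intro i hi
        rw [Finset.mem_range] at hi
        rw [map_mul, coeff_scaleRoots, map_mul, map_pow, this,
          zero_pow (by omega), mul_zero, zero_mul]
  have hαint : IsIntegral N α :=
    IsIntegral.of_pow (Nat.pos_of_ne_zero hK0) (hK ▸ isIntegral_algebraMap.mul hy)
  let R0 := integralClosure N L
  let αR : R0 := ⟨α, hαint⟩
  let πR : R0 := algebraMap N R0 π
  let δR : R0 := algebraMap N R0 δ
  have hαrad : αR ∈ (Ideal.span {πR}).radical :=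
    ⟨K, Ideal.mem_span_singleton'.mpr ⟨⟨y, hy⟩, Subtype.ext (by
      show y * ι π = α ^ K
      rw [hK, mul_comm])⟩⟩
  have hδrad : δR ∈ (Ideal.span {πR}).radical :=
    Ideal.le_radical (Ideal.mem_span_singleton.mpr (map_dvd _ hδπ))
  set η : R0 := αR ^ 2 - 6 * δR * αR + 13 * δR ^ 2 with hη
  have hηrad : η ∈ (Ideal.span {πR}).radical := by
    refine add_mem (sub_mem ?_ ?_) ?_
    · exact Ideal.pow_mem_of_mem _ hαrad 2 two_pos
    · exact Ideal.mul_mem_left _ _ hαrad
    · exact Ideal.mul_mem_left _ _ (Ideal.pow_mem_of_mem _ hδrad 2 two_pos)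
  obtain ⟨M, hM⟩ := hηrad
  obtain ⟨z, hz⟩ := Ideal.mem_span_singleton'.mp hM
  set w : L := α / ι δ with hw
  have hαw : α = ι δ * w := by rw [hw, mul_div_cancel₀ _ hd0]
  set Qp : N := p 0 ^ 2 + p 1 ^ 2 - p 2 ^ 2 with hQp
  set E : L := ι Qp - (η : L) with hE
  -- the quartic equation for `w`
  have hquart : E * w ^ 4 +
      ι (-6 * p 0 ^ 2 - 4 * p 1 ^ 2 + 2 * p 2 ^ 2 + 12 * δ ^ 2) * w ^ 3 +
      ι (13 * p 0 ^ 2 + 4 * p 1 ^ 2 - p 2 ^ 2 - 4 * δ ^ 2) * w ^ 2 +
      ι (-12 * p 0 ^ 2) * w + ι (4 * p 0 ^ 2) = 0 := by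
    have hηL : (η : L) = α ^ 2 - 6 * ι δ * α + 13 * ι δ ^ 2 := by
      rw [hη, Subalgebra.coe_add, Subalgebra.coe_sub, Subalgebra.coe_mul, Subalgebra.coe_mul,
        Subalgebra.coe_mul, Subalgebra.coe_pow, Subalgebra.coe_pow, Subalgebra.coe_algebraMap,
        ← hι, show ((6 : R0) : L) = 6 from map_ofNat R0.val 6,
        show ((13 : R0) : L) = 13 from map_ofNat R0.val 13]
    have h4 : ι δ ^ 4 ≠ 0 := pow_ne_zero _ hd0
    refine mul_left_cancel₀ h4 ?_
    rw [mul_zero, hE, hηL]
    simp only [map_sub, map_add, map_mul, map_pow, map_neg, map_ofNat, hQp]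
    rw [hαw] at hroot ⊢
    linear_combination hroot
  have hEw : IsIntegral N (E * w) := by
    have hEi : IsIntegral N E := isIntegral_algebraMap.sub η.2
    set c3 := -6 * p 0 ^ 2 - 4 * p 1 ^ 2 + 2 * p 2 ^ 2 + 12 * δ ^ 2
    set c2 := 13 * p 0 ^ 2 + 4 * p 1 ^ 2 - p 2 ^ 2 - 4 * δ ^ 2
    set c1 := -12 * p 0 ^ 2
    set c0 := 4 * p 0 ^ 2
    let E' : R0 := ⟨E, hEi⟩
    let P : R0[X] := X ^ 4 + (C (algebraMap N R0 c3) * X ^ 3 +
      C (algebraMap N R0 c2 * E') * X ^ 2 + C (algebraMap N R0 c1 * E' ^ 2) * X +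
      C (algebraMap N R0 c0 * E' ^ 3))
    have hPm : P.Monic := monic_X_pow_add (by compute_degree!)
    have hP : aeval (E * w) P = 0 := by
      simp [P, E', hι] at hquart ⊢
      linear_combination E ^ 3 * hquart
    exact isIntegral_trans (A := R0) _ ⟨P, hPm, hP⟩
  -- a multiple of `w` by an element prime to `π` is integral
  obtain ⟨b, hb, hbw⟩ : ∃ b : N, red b ≠ 0 ∧ IsIntegral N (ι b * w) := by
    obtain ⟨b, m, u, hdb, hu, hbu⟩ := exists_norm_multiple (π := π) (a := Qp ^ M) (L := L) z.2
    refine ⟨b, ?_, ?_⟩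
    · have : red b = (red Qp ^ M) ^ m := by
        rw [← map_pow, ← map_pow, ← sub_eq_zero, ← map_sub, hker]
        exact hdb
      rw [this]
      refine pow_ne_zero _ (pow_ne_zero _ ?_)
      rw [hQp, map_sub, map_add, map_pow, map_pow, map_pow, hp, hp, hp]
      intro h
      have := congrArg (MvPowerSeries.coeff (Finsupp.single (e 0) 2)) h
      simp [MvPowerSeries.X_pow_eq, MvPowerSeries.coeff_monomial,
        Finsupp.single_left_inj, he.eq_iff] at this
    · have hηM : (η : L) ^ M = ι π * (z : L) := by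
        have := congrArg (Subtype.val) hz
        simp only [MulMemClass.coe_mul, SubmonoidClass.coe_pow, πR] at this
        rw [← this, mul_comm]
        rfl
      rw [hbu, map_pow, ← hηM, ← geom_sum₂_mul (ι Qp) (η : L) M, ← hE, mul_assoc, mul_assoc]
      refine hu.mul (IsIntegral.mul (IsIntegral.sum _ fun i _ => ?_) hEw)
      exact (isIntegral_algebraMap.pow _).mul (η.2.pow _)
  -- minimal polynomials
  set G := minpoly N α with hG
  have hGm : G.Monic := minpoly.monic hαint
  set Y := minpoly N (ι b * w) with hY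
  have hYm : Y.Monic := minpoly.monic hbw
  have hmin : ∀ Q : N[X], aeval α Q = 0 → Q.degree < G.degree → Q = 0 := by
    intro Q hQ hdeg
    by_contra hne
    exact absurd (minpoly.IsIntegrallyClosed.degree_le_of_ne_zero hne hQ) (not_le.mpr hdeg)
  have hb0 : b ≠ 0 := by rintro rfl; exact hb (map_zero _)
  have hscale : G.scaleRoots b = Y.scaleRoots δ := by
    rw [hG, hY, ← IsIntegrallyClosed.minpoly_smul hb0 hαint,
      ← IsIntegrallyClosed.minpoly_smul hδ0 hbw]
    congr 1
    rw [Algebra.smul_def, Algebra.smul_def, ← hι, hαw]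
    ring
  have hdeg : G.natDegree = Y.natDegree := by
    have := congrArg natDegree hscale
    rwa [natDegree_scaleRoots, natDegree_scaleRoots] at this
  have hδk : ∀ i, δ ^ (G.natDegree - i) ∣ G.coeff i := by
    intro i
    have h := congrArg (fun Q : N[X] => Q.coeff i) hscale
    simp only [coeff_scaleRoots, ← hdeg] at h
    have hdiv : δ ^ (G.natDegree - i) ∣ b ^ (G.natDegree - i) * G.coeff i :=
      ⟨Y.coeff i, by rw [mul_comm, h, mul_comm]⟩
    have hcancel : ∀ (n : ℕ) (x c : N), red c ≠ 0 → δ ^ n ∣ c * x → δ ^ n ∣ x := by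
      intro n
      induction n with
      | zero => simp
      | succ n ih =>
        intro x c hc h
        obtain ⟨x', rfl⟩ := hδ x c hc (dvd_trans (dvd_pow_self δ n.succ_ne_zero) h)
        rw [mul_left_comm, pow_succ'] at h
        rw [pow_succ']
        exact mul_dvd_mul_left δ (ih x' c hc ((mul_dvd_mul_iff_left hδ0).mp h))
    exact hcancel _ _ _ (by rw [map_pow]; exact pow_ne_zero _ hb) hdiv
  -- descale
  choose g hg using hδk
  let G' : N[X] := ∑ i ∈ Finset.range (G.natDegree + 1), C (g i) * X ^ i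
  have hG'c : ∀ i, i ≤ G.natDegree → G'.coeff i = g i := fun i hi => by
    simp [G', finsetSum_coeff, Nat.lt_succ_iff, hi]
  have hgn : g G.natDegree = 1 := by simpa [hGm.coeff_natDegree] using (hg G.natDegree).symm
  have hG'd : G'.natDegree = G.natDegree := by
    refine le_antisymm ?_ (le_natDegree_of_ne_zero (by rw [hG'c _ le_rfl, hgn]; exact one_ne_zero))
    refine natDegree_sum_le_of_forall_le _ _ fun i hi => (natDegree_C_mul_X_pow_le _ _).trans ?_
    rw [Finset.mem_range] at hi
    omega
  have hG'm : G'.Monic := by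
    rw [Monic, leadingCoeff, hG'd, hG'c _ le_rfl, hgn]
  have hGG' : G = G'.scaleRoots δ := by
    ext i
    rw [coeff_scaleRoots, hG'd]
    rcases le_or_gt i G.natDegree with hi | hi
    · rw [hG'c i hi, hg i, mul_comm]
    · rw [coeff_eq_zero_of_natDegree_lt hi,
        coeff_eq_zero_of_natDegree_lt (hG'd.symm ▸ hi), zero_mul]
  have hG'w : aeval w G' = 0 := by
    have h := minpoly.aeval N α
    rw [← hG, hGG', hαw, aeval_def, scaleRoots_eval₂_mul, ← hι] at h
    exact (mul_eq_zero.mp h).resolve_left (pow_ne_zero _ hd0)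
  -- the quartic
  let Φ : N[X] := C (p 0 ^ 2) * hexicQuartic N 0 + C (p 1 ^ 2) * hexicQuartic N 1 -
    C (p 2 ^ 2) * hexicQuartic N 2 - C (δ ^ 2) * (X * (X - 1) * (X - 2)) ^ 2
  have hΦw : aeval w Φ = 0 := by
    have h4 : ι δ ^ 4 ≠ 0 := pow_ne_zero _ hd0
    refine mul_left_cancel₀ h4 ?_
    rw [hαw] at hroot
    simp only [Φ, hexicQuartic, map_sub, map_add, map_mul, map_pow, aeval_C, aeval_X,
      Matrix.cons_val, map_one, map_ofNat, mul_zero, ← hι] at hroot ⊢
    linear_combination hroot
  have hdvd : G' ∣ Φ := by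
    rw [← modByMonic_eq_zero_iff_dvd hG'm]
    set Rm := Φ %ₘ G' with hRm
    have hRw : aeval w Rm = 0 := by
      rw [hRm, aeval_modByMonic_eq_self_of_root hG'w, hΦw]
    by_contra hne
    have hlt : Rm.degree < G'.degree := degree_modByMonic_lt _ hG'm
    have h0 := hmin (Rm.scaleRoots δ)
      (by rw [hαw]; exact scaleRoots_aeval_eq_zero hRw)
      (by
        rw [degree_scaleRoots, hGG', degree_scaleRoots]
        exact hlt)
    exact (scaleRoots_ne_zero hne δ) h0
  have hred : G'.map red ∣ C ((MvPowerSeries.X (e 0)) ^ 2) * hexicQuartic _ 0 +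
      C ((MvPowerSeries.X (e 1)) ^ 2) * hexicQuartic _ 1 -
      C ((MvPowerSeries.X (e 2)) ^ 2) * hexicQuartic _ 2 := by
    have := Polynomial.map_dvd red hdvd
    simpa [Φ, Polynomial.map_mul, Polynomial.map_pow, hexicQuartic_map, hp,
      (hker δ).mpr hδπ] using this
  have := natDegree_eq_zero_of_dvd_conic h2 e he _ (hG'm.map red) hred
  rw [hG'm.natDegree_map, hG'd] at this
  exact (minpoly.natDegree_pos hαint).ne' this

end Fermat.Agent.LL
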