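import Mathlib.RingTheory.MvPowerSeries.Equiv
import Mathlib.RingTheory.MvPowerSeries.NoZeroDivisors
import Mathlib.RingTheory.PowerSeries.Inverse
import Mathlib.RingTheory.IntegralClosure.IntegrallyClosed
import Mathlib.RingTheory.Localization.FractionRing
import Mathlib.RingTheory.Polynomial.RationalRoot

/-!
# Power series over a Noetherian integrally closed domain are integrally closed
-/

set_option autoImplicit false

namespace Fermat.Agent.LL

variable {R : Type*} [CommRing R] [IsDomain R] [IsNoetherianRing R] [IsIntegrallyClosed R]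

/-- `g` has bounded denominators in all its powers. -/
def AlmostIntegralSeries (g : PowerSeries (FractionRing R)) : Prop :=
  ∃ c : PowerSeries R, c ≠ 0 ∧ ∀ n : ℕ, ∃ d : PowerSeries R,
    PowerSeries.map (algebraMap R (FractionRing R)) c * g ^ n =
      PowerSeries.map (algebraMap R (FractionRing R)) d

/-- Elements with bounded denominators in all their powers are integral. -/
lemma exists_eq_algebraMap_of_forall_mul_pow {c : R} (hc : c ≠ 0) {x : FractionRing R}
    (h : ∀ n : ℕ, ∃ d : R, algebraMap R _ c * x ^ n = algebraMap R _ d) :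
    ∃ r : R, algebraMap R (FractionRing R) r = x := by
  refine IsIntegrallyClosed.isIntegral_iff.mp ?_
  let u : FractionRing R := (algebraMap R _ c)⁻¹
  have hu : algebraMap R (FractionRing R) c ≠ 0 := by simpa using hc
  have hmem : ∀ y ∈ Algebra.adjoin R {x}, y ∈ Submodule.span R {u} := by
    intro y hy
    rw [Algebra.adjoin_singleton_eq_range_aeval] at hy
    obtain ⟨f, rfl⟩ := hy
    induction f using Polynomial.induction_on' with
    | add f g hf hg => simpa using add_mem hf hg
    | monomial n a =>
      obtain ⟨d, hd⟩ := h n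
      refine Submodule.mem_span_singleton.mpr ⟨a * d, ?_⟩
      simp only [Polynomial.aeval_monomial, AlgHom.toRingHom_eq_coe, RingHom.coe_coe,
        Algebra.smul_def, map_mul, u]
      rw [← hd]
      field_simp
  have hfg : (Algebra.adjoin R {x}).toSubmodule.FG := by
    have : IsNoetherian R (Submodule.span R {u}) :=
      isNoetherian_of_fg_of_noetherian _ (Submodule.fg_span_singleton u)
    exact isNoetherian_submodule.mp this _ hmem
  exact IsIntegral.of_mem_of_fg _ hfg x (Algebra.self_mem_adjoin_singleton R x)

lemma AlmostIntegralSeries.constantCoeff_mem {g : PowerSeries (FractionRing R)}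
    (h : AlmostIntegralSeries g) :
    ∃ r : R, algebraMap R (FractionRing R) r = PowerSeries.constantCoeff g := by
  classical
  obtain ⟨c, hc, hd⟩ := h
  have hex : ∃ i, PowerSeries.coeff i c ≠ 0 := by
    by_contra hcon
    push Not at hcon
    exact hc (PowerSeries.ext fun i => by simpa using hcon i)
  obtain ⟨e, he, hemin⟩ : ∃ e, PowerSeries.coeff e c ≠ 0 ∧
      ∀ i < e, PowerSeries.coeff i c = 0 :=
    ⟨Nat.find hex, Nat.find_spec hex, fun i hi => not_not.mp (Nat.find_min hex hi)⟩
  refine exists_eq_algebraMap_of_forall_mul_pow he fun n => ?_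
  obtain ⟨d, hd⟩ := hd n
  refine ⟨PowerSeries.coeff e d, ?_⟩
  have := congrArg (PowerSeries.coeff e) hd
  rw [PowerSeries.coeff_map, PowerSeries.coeff_mul,
    Finset.sum_eq_single (e, 0)] at this
  · simpa using this
  · rintro ⟨i, j⟩ hij hne
    rw [Finset.HasAntidiagonal.mem_antidiagonal] at hij
    have hi : i < e := by
      rcases Nat.eq_zero_or_pos j with hj | hj
      · exact absurd (Prod.ext (by omega) hj) hne
      · omega
    simp [hemin i hi]
  · simp

lemma AlmostIntegralSeries.shift {g : PowerSeries (FractionRing R)}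
    (h : AlmostIntegralSeries g) :
    AlmostIntegralSeries (PowerSeries.mk fun i => PowerSeries.coeff (i + 1) g) := by
  obtain ⟨r, hr⟩ := h.constantCoeff_mem
  obtain ⟨c, hc, hd⟩ := h
  set g' := PowerSeries.mk fun i => PowerSeries.coeff (i + 1) g
  let φ := PowerSeries.map (algebraMap R (FractionRing R))
  have hg : PowerSeries.X * g' = g + φ (PowerSeries.C (-r)) := by
    rw [PowerSeries.map_C, map_neg, hr, map_neg, ← sub_eq_add_neg, eq_sub_iff_add_eq]
    exact (PowerSeries.eq_X_mul_shift_add_const g).symm
  refine ⟨c, hc, fun n => ?_⟩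
  have hmem : φ c * (PowerSeries.X * g') ^ n ∈ φ.range := by
    rw [hg, add_pow, Finset.mul_sum]
    refine Subring.sum_mem _ fun i _ => ?_
    rw [← mul_assoc, ← mul_assoc]
    obtain ⟨d, hd⟩ := hd i
    refine Subring.mul_mem _ (Subring.mul_mem _ (RingHom.mem_range.mpr ⟨d, hd.symm⟩) ?_) ?_
    · exact Subring.pow_mem _ (RingHom.mem_range.mpr ⟨_, rfl⟩) _
    · exact natCast_mem _ _
  obtain ⟨e, he⟩ := hmem
  refine ⟨PowerSeries.mk fun i => PowerSeries.coeff (i + n) e, ?_⟩
  ext i
  have := congrArg (PowerSeries.coeff (i + n)) he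
  rw [mul_pow, mul_left_comm, PowerSeries.coeff_X_pow_mul] at this
  simpa [φ] using this.symm

lemma AlmostIntegralSeries.mem_range {g : PowerSeries (FractionRing R)}
    (h : AlmostIntegralSeries g) :
    ∃ f : PowerSeries R, PowerSeries.map (algebraMap R (FractionRing R)) f = g := by
  have key : ∀ (k : ℕ) (g : PowerSeries (FractionRing R)), AlmostIntegralSeries g →
      ∃ r : R, algebraMap R (FractionRing R) r = PowerSeries.coeff k g := by
    intro k
    induction k with
    | zero =>
      intro g hg
      obtain ⟨r, hr⟩ := hg.constantCoeff_mem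
      exact ⟨r, by simpa using hr⟩
    | succ k ih =>
      intro g hg
      obtain ⟨r, hr⟩ := ih _ hg.shift
      exact ⟨r, by simpa using hr⟩
  choose f hf using fun k => key k g h
  exact ⟨PowerSeries.mk f, by ext k; simp [hf]⟩

lemma isIntegrallyClosed_powerSeries : IsIntegrallyClosed (PowerSeries R) := by
  refine (isIntegrallyClosed_iff (FractionRing (PowerSeries R))).mpr fun {x} hx => ?_
  obtain ⟨a, b, hb, rfl⟩ := IsFractionRing.div_surjective (A := PowerSeries R) x
  let φ := PowerSeries.map (algebraMap R (FractionRing R))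
  have hφ : Function.Injective φ :=
    PowerSeries.map_injective _ (IsFractionRing.injective R (FractionRing R))
  have hφ' : Function.Injective ((algebraMap (PowerSeries (FractionRing R))
      (FractionRing (PowerSeries (FractionRing R)))).comp φ) := by
    rw [RingHom.coe_comp]
    exact (IsFractionRing.injective _ _).comp hφ
  obtain ⟨ι, hι⟩ : ∃ ι : FractionRing (PowerSeries R) →+* FractionRing (PowerSeries (FractionRing R)),
      ι.comp (algebraMap (PowerSeries R) (FractionRing (PowerSeries R))) =
        (algebraMap (PowerSeries (FractionRing R))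
          (FractionRing (PowerSeries (FractionRing R)))).comp φ :=
    ⟨IsFractionRing.lift (K := FractionRing (PowerSeries R)) hφ',
      RingHom.ext fun y => IsFractionRing.lift_algebraMap (K := FractionRing (PowerSeries R)) hφ' y⟩
  obtain ⟨p, hp, hp0⟩ := hx
  have hy : IsIntegral (PowerSeries (FractionRing R))
      (ι (algebraMap _ _ a / algebraMap _ _ b)) := by
    refine ⟨p.map φ, hp.map φ, ?_⟩
    rw [Polynomial.eval₂_map, ← hι, ← Polynomial.hom_eval₂, hp0, map_zero]
  obtain ⟨g, hg⟩ := IsIntegrallyClosed.isIntegral_iff.mp hy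
  have hb0 : b ≠ 0 := nonZeroDivisors.ne_zero hb
  have hint : IsIntegral (PowerSeries R) (algebraMap (PowerSeries R)
      (FractionRing (PowerSeries R)) a / algebraMap _ _ b) := ⟨p, hp, hp0⟩
  -- powers of the quotient have bounded denominators
  have hbd : ∀ n : ℕ, (algebraMap (PowerSeries R) (FractionRing (PowerSeries R)) a /
      algebraMap _ _ b) ^ n * algebraMap _ _ (b ^ p.natDegree) ∈
        (algebraMap (PowerSeries R) (FractionRing (PowerSeries R))).range := by
    set z := algebraMap (PowerSeries R) (FractionRing (PowerSeries R)) a / algebraMap _ _ b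
    intro n
    induction n using Nat.strong_induction_on with
    | _ n ih =>
      rcases le_or_gt n p.natDegree with hn | hn
      · refine ⟨a ^ n * b ^ (p.natDegree - n), ?_⟩
        have : algebraMap (PowerSeries R) (FractionRing (PowerSeries R)) b ≠ 0 := by
          simpa using hb0
        rw [map_mul, map_pow, map_pow, map_pow, div_pow,
          div_mul_eq_mul_div, eq_div_iff (pow_ne_zero _ this), mul_assoc, ← pow_add]
        congr 2
        omega
      · have hz : z ^ p.natDegree = -∑ i ∈ Finset.range p.natDegree,
            algebraMap _ _ (p.coeff i) * z ^ i := by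
          rw [eq_neg_iff_add_eq_zero, add_comm]
          have := hp0
          rw [Polynomial.eval₂_eq_sum_range, Finset.sum_range_succ, hp.coeff_natDegree,
            map_one, one_mul] at this
          exact this
        obtain ⟨e, rfl⟩ := Nat.exists_eq_add_of_le hn.le
        rw [pow_add, hz, neg_mul, neg_mul, Finset.sum_mul, Finset.sum_mul]
        refine Subring.neg_mem _ (Subring.sum_mem _ fun i hi => ?_)
        rw [mul_assoc (algebraMap _ _ (p.coeff i)), ← pow_add, mul_assoc]
        refine Subring.mul_mem _ ⟨_, rfl⟩ (ih _ ?_)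
        rw [Finset.mem_range] at hi
        omega
  have hAI : AlmostIntegralSeries g := by
    refine ⟨b ^ p.natDegree, pow_ne_zero _ hb0, fun n => ?_⟩
    obtain ⟨d, hd⟩ := hbd n
    refine ⟨d, IsFractionRing.injective (PowerSeries (FractionRing R))
      (FractionRing (PowerSeries (FractionRing R))) ?_⟩
    rw [map_mul, map_pow, map_pow (algebraMap _ _) g, hg, mul_comm]
    have := congrArg ι hd
    rw [map_mul, map_pow] at this
    simpa only [← RingHom.comp_apply, hι, map_pow, φ] using this.symm
  obtain ⟨f, rfl⟩ := hAI.mem_range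
  refine ⟨f, ι.injective ?_⟩
  rw [← hg, ← RingHom.comp_apply, hι]
  rfl

lemma isIntegrallyClosed_mvPowerSeries_fin (n : ℕ) :
    IsIntegrallyClosed (MvPowerSeries (Fin n) R) := by
  induction n with
  | zero => exact IsIntegrallyClosed.of_equiv (MvPowerSeries.isEmptyEquiv (Fin 0) R).symm.toRingEquiv
  | succ n ih =>
    have : IsDomain (MvPowerSeries (Fin n) R) := NoZeroDivisors.to_isDomain _
    have := isIntegrallyClosed_powerSeries (R := MvPowerSeries (Fin n) R)
    exact IsIntegrallyClosed.of_equiv (MvPowerSeries.finSuccEquiv R n).symm.toRingEquiv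

end Fermat.Agent.LL
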