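import Fermat.Agent.LL.LocFinite
import Fermat.Agent.LL.Hexic
import Fermat.Agent.LL.Dim
import Fermat.Agent.LL.PowerSeriesNormal
import Mathlib.RingTheory.DiscreteValuationRing.Basic

/-!
# No component on which the trace of Frobenius is `1 + q` modulo `π`

A prime `P` of the local ring cut out by the relations with inertia eigenvalues `ζ, ζ⁻¹` at `i₀`
whose quotient is finite and torsion free over a power series ring of the right size cannot have
`tr Φ - (1 + q)` nilpotent modulo `π`.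
-/

set_option autoImplicit false

noncomputable section

namespace Fermat.Agent.LL

open IsLocalRing MvPowerSeries Matrix

/-- Powers of a matrix with eigenvalues `ζ, ζ'`. -/
lemma pow_eq_of_eigen {B : Type*} [CommRing B] {S : Matrix (Fin 2) (Fin 2) B} {ζ ζ' : B}
    (hdet : S.det = ζ * ζ') (htr : S.trace = ζ + ζ') (n : ℕ) :
    (ζ - ζ') • S ^ n = (ζ ^ n - ζ' ^ n) • S - (ζ ^ n * ζ' - ζ' ^ n * ζ) • 1 := by
  have hCH : S * S = (ζ + ζ') • S - (ζ * ζ') • 1 := by
    rw [← hdet, ← htr]
    ext a b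
    fin_cases a <;> fin_cases b <;>
      simp [Matrix.mul_apply, det_fin_two, trace_fin_two] <;> ring
  induction n with
  | zero => simp [← neg_smul]
  | succ n ih =>
    rw [pow_succ, ← smul_mul_assoc, ih, sub_mul, smul_mul_assoc, smul_mul_assoc, one_mul, hCH]
    match_scalars <;> ring

/-- The identities behind the sextic. -/
lemma sextic_of_coords {F : Type*} [Field F] {δ α : F} (hδ : δ ≠ 0) (x z p : Fin 3 → F)
    (hQz : z 0 ^ 2 + z 1 ^ 2 - z 2 ^ 2 = δ ^ 2)
    (hcomm : ∀ a b, x a * z b = x b * z a)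
    (hp0 : p 0 = x 0) (hp1 : p 1 = x 1 - z 1) (hp2 : p 2 = x 2 - 2 * z 2)
    (hα : δ * α = x 0 * z 0 + x 1 * z 1 - x 2 * z 2) :
    p 0 ^ 2 * ((α - δ) * (α - 2 * δ)) ^ 2 + p 1 ^ 2 * (α * (α - 2 * δ)) ^ 2 -
      p 2 ^ 2 * (α * (α - δ)) ^ 2 = (α * (α - δ) * (α - 2 * δ)) ^ 2 ∧
    α ^ 2 = x 0 ^ 2 + x 1 ^ 2 - x 2 ^ 2 := by
  have key : ∀ j, α * z j = δ * x j := by
    intro j
    refine mul_left_cancel₀ hδ ?_
    linear_combination (z j) * hα + (x j) * hQz +
      (z 0) * hcomm 0 j + (z 1) * hcomm 1 j - (z 2) * hcomm 2 j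
  refine ⟨mul_left_cancel₀ (pow_ne_zero 2 hδ) ?_, mul_left_cancel₀ (pow_ne_zero 2 hδ) ?_⟩
  · have e0 : δ * p 0 = α * z 0 := by rw [hp0, key]
    have e1 : δ * p 1 = (α - δ) * z 1 := by rw [hp1, sub_mul, key]; ring
    have e2 : δ * p 2 = (α - 2 * δ) * z 2 := by rw [hp2, sub_mul, key]; ring
    have s0 := congrArg (· ^ 2) e0
    have s1 := congrArg (· ^ 2) e1
    have s2 := congrArg (· ^ 2) e2
    linear_combination ((α - δ) * (α - 2 * δ)) ^ 2 * s0 + (α * (α - 2 * δ)) ^ 2 * s1 -
      (α * (α - δ)) ^ 2 * s2 + (α * (α - δ) * (α - 2 * δ)) ^ 2 * hQz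
  · linear_combination (α * z 0 + δ * x 0) * key 0 + (α * z 1 + δ * x 1) * key 1 -
      (α * z 2 + δ * x 2) * key 2 - α ^ 2 * hQz

variable {O : Type} [CommRing O] [IsDomain O] [IsDiscreteValuationRing O]
  [IsAdicComplete (maximalIdeal O) O] {ι G : Type} [Finite ι] [Finite G]

omit [IsAdicComplete (maximalIdeal O) O] in
lemma dvd_of_map_residue_eq_zero {σ : Type} {π : O} (hπ : Irreducible π) (f : MvPowerSeries σ O) :
    MvPowerSeries.map (IsLocalRing.residue O) f = 0 ↔ MvPowerSeries.C π ∣ f := by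
  constructor
  · intro h
    have hc : ∀ d, π ∣ coeff d f := fun d => by
      have := congrArg (coeff d) h
      rw [coeff_map, map_zero, IsLocalRing.residue_eq_zero_iff, hπ.maximalIdeal_eq,
        Ideal.mem_span_singleton] at this
      exact this
    choose g hg using hc
    obtain ⟨g', hg'⟩ : ∃ g' : MvPowerSeries σ O, ∀ d, coeff d g' = g d := ⟨g, fun _ => rfl⟩
    exact ⟨g', MvPowerSeries.ext fun d => by rw [coeff_C_mul, hg d, hg']⟩
  · rintro ⟨g, rfl⟩
    rw [map_mul, map_C, IsLocalRing.residue_eq_zero_iff _ |>.mpr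
      (hπ.maximalIdeal_eq.symm ▸ Ideal.mem_span_singleton_self π), map_zero, zero_mul]

/-- A nonzero constant divides `x` once it divides a `π`-primitive multiple of `x`. -/
lemma C_dvd_of_dvd_mul {σ : Type} [Finite σ] {d : O} (hd : d ≠ 0) (x b : MvPowerSeries σ O)
    (hb : MvPowerSeries.map (IsLocalRing.residue O) b ≠ 0)
    (h : MvPowerSeries.C d ∣ b * x) : MvPowerSeries.C d ∣ x := by
  obtain ⟨π, hπ⟩ := IsDiscreteValuationRing.exists_irreducible O
  have hpr : Prime (MvPowerSeries.C π : MvPowerSeries σ O) := by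
    refine ⟨fun h => hπ.ne_zero ?_, fun h => hπ.not_isUnit ?_, fun a c hac => ?_⟩
    · simpa using congrArg MvPowerSeries.constantCoeff h
    · simpa using (MvPowerSeries.isUnit_iff_constantCoeff.mp h)
    · rw [← dvd_of_map_residue_eq_zero hπ, ← dvd_of_map_residue_eq_zero hπ]
      have := (dvd_of_map_residue_eq_zero hπ _).mpr hac
      rwa [map_mul, mul_eq_zero] at this
  obtain ⟨n, u, rfl⟩ := IsDiscreteValuationRing.eq_unit_mul_pow_irreducible hd hπ
  rw [map_mul, IsUnit.mul_left_dvd (u.isUnit.map _), map_pow] at h ⊢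
  exact hpr.pow_dvd_of_dvd_mul_left n (fun hb' => hb ((dvd_of_map_residue_eq_zero hπ b).mpr hb')) h

theorem false_of_component (half : O) (hhalf : 2 * half = 1) (q : ι → ℕ)
    (hq : ∀ i, (q i : O) - 1 ∈ maximalIdeal O) (i₀ : ι)
    (P : Ideal (MvPowerSeries (LocVar ι G) O)) [P.IsPrime] (hrel : ∀ i, LocRel (q i) i P)
    (ψ : MvPowerSeries (ParVar ι G) O →+* MvPowerSeries (LocVar ι G) O ⧸ P)
    (hψ : ψ.Finite) (hψi : Function.Injective ψ)
    (ζ ζ' : O) (hmul : ζ * ζ' = 1) (hne : ζ ≠ ζ') (hmem : ζ - ζ' ∈ maximalIdeal O)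
    (hpow : ζ ^ q i₀ = ζ)
    (htr : (univSig O i₀).trace - algebraMap O _ (ζ + ζ') ∈ P)
    {K : ℕ} (hτ : ((univPhi O i₀).trace - (1 + (q i₀ : MvPowerSeries (LocVar ι G) O))) ^ K ∈
      P ⊔ (maximalIdeal O).map (algebraMap O _)) : False := by
  obtain ⟨π, hπ⟩ := IsDiscreteValuationRing.exists_irreducible O
  have := isIntegrallyClosed_mvPowerSeries_fin (R := O)
  have hNdom : IsDomain (MvPowerSeries (ParVar ι G) O) := NoZeroDivisors.to_isDomain _
  have hNic : IsIntegrallyClosed (MvPowerSeries (ParVar ι G) O) := by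
    obtain ⟨n, ⟨e⟩⟩ := Finite.exists_equiv_fin (ParVar ι G)
    exact IsIntegrallyClosed.of_equiv (MvPowerSeries.renameEquiv (R := O) e.symm).toRingEquiv
  -- the Noether normalisation is injective
  let φ : MvPowerSeries (ParVar ι G) O →+* MvPowerSeries (LocVar ι G) O ⧸ P :=
    (Ideal.Quotient.mk P).comp (paramHom O half).toRingHom
  have hφ : φ.Finite := finite_paramHom half hhalf q hq P ‹P.IsPrime›.ne_top hrel
  have hφi : Function.Injective φ := injective_of_finite_of_finite ψ φ hψ hψi hφ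
  let B := MvPowerSeries (LocVar ι G) O ⧸ P
  let L := FractionRing B
  let _ : Algebra (MvPowerSeries (ParVar ι G) O) L := ((algebraMap B L).comp φ).toAlgebra
  have hι : ∀ y, algebraMap (MvPowerSeries (ParVar ι G) O) L y = algebraMap B L (φ y) :=
    fun _ => rfl
  have hfaith : FaithfulSMul (MvPowerSeries (ParVar ι G) O) L :=
    (faithfulSMul_iff_algebraMap_injective _ _).mpr ((IsFractionRing.injective B L).comp hφi)
  have hint : ∀ b : B, IsIntegral (MvPowerSeries (ParVar ι G) O) (algebraMap B L b) := by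
    intro b
    obtain ⟨f, hf, hf0⟩ := hφ.to_isIntegral b
    refine ⟨f, hf, ?_⟩
    show Polynomial.eval₂ ((algebraMap B L).comp φ) (algebraMap B L b) f = 0
    rw [← Polynomial.hom_eval₂, hf0, map_zero]
  let cA : O →+* MvPowerSeries (LocVar ι G) O := algebraMap O _
  let mk := Ideal.Quotient.mk P
  have hcN : ∀ c : O, φ (MvPowerSeries.C c) = mk (cA c) := by
    intro c
    show mk (paramHom O half (MvPowerSeries.C c)) = _
    rw [MvPowerSeries.c_eq_algebraMap, AlgHom.commutes]
  let cL : O →+* L := (algebraMap B L).comp (mk.comp cA)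
  have hcL : Function.Injective cL := by
    have : cL = (algebraMap (MvPowerSeries (ParVar ι G) O) L).comp MvPowerSeries.C := by
      ext c
      simp [cL, hι, hcN]
    rw [this, RingHom.coe_comp]
    exact (FaithfulSMul.algebraMap_injective _ _).comp
      (fun a b h => by simpa using congrArg MvPowerSeries.constantCoeff h)
  have hzero : ∀ y ∈ P, algebraMap B L (mk y) = 0 := fun y hy => by
    rw [show mk y = 0 from Ideal.Quotient.eq_zero_iff_mem.mpr hy, map_zero]
  set toL : MvPowerSeries (LocVar ι G) O →+* L := (algebraMap B L).comp mk with htoL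
  have htoLc : ∀ c, toL (cA c) = cL c := fun _ => rfl
  set h : L := cL half with hh
  have hhL : 2 * h = 1 := by rw [hh, ← map_ofNat cL 2, ← map_mul, hhalf, map_one]
  set Φ := (univPhi O i₀).map toL with hΦ
  set S := (univSig O i₀).map toL with hS
  have hdetΦ : Φ.det = q i₀ := by
    have := hzero _ (hrel i₀).det_phi
    rw [← RingHom.comp_apply, ← htoL, map_sub, map_natCast, sub_eq_zero, RingHom.map_det] at this
    exact this
  have hdetS : S.det = cL ζ * cL ζ' := by
    have := hzero _ (hrel i₀).det_sig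
    rw [← RingHom.comp_apply, ← htoL, map_sub, map_one, sub_eq_zero, RingHom.map_det] at this
    rw [← map_mul, hmul, map_one]
    exact this
  have htrS : S.trace = cL ζ + cL ζ' := by
    have := hzero _ htr
    rw [← RingHom.comp_apply, ← htoL, map_sub, sub_eq_zero, trace_fin_two, map_add toL] at this
    rw [hS, trace_fin_two, Matrix.map_apply, Matrix.map_apply, this, ← map_add cL]
    rfl
  have hcomm : Φ * S = S * Φ := by
    have hSq : S ^ q i₀ = S := by
      have h1 := pow_eq_of_eigen hdetS htrS (q i₀)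
      have hz' : ζ' ^ q i₀ = ζ' := by
        have h2 : ζ' ^ q i₀ * ζ = 1 := by
          calc ζ' ^ q i₀ * ζ = ζ' ^ q i₀ * ζ ^ q i₀ := by rw [hpow]
            _ = 1 := by rw [← mul_pow, mul_comm ζ', hmul, one_pow]
        calc ζ' ^ q i₀ = ζ' ^ q i₀ * ζ * ζ' := by rw [mul_assoc, hmul, mul_one]
          _ = ζ' := by rw [h2, one_mul]
      rw [← map_pow, ← map_pow, hpow, hz', mul_comm (cL ζ') (cL ζ), sub_self, zero_smul,
        sub_zero] at h1
      exact smul_right_injective _ (sub_ne_zero.mpr fun e => hne (hcL e)) h1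
    ext a b
    have := hzero _ ((hrel i₀).tame a b)
    rw [← RingHom.comp_apply, ← htoL, Matrix.sub_apply, map_sub, sub_eq_zero] at this
    have h2 : (univPhi O i₀ * univSig O i₀).map toL = Φ * S := Matrix.map_mul
    have h3 : (univSig O i₀ ^ q i₀ * univPhi O i₀).map toL = S * Φ := by
      rw [Matrix.map_mul, Matrix.map_pow, ← hS, hSq]
    rw [← h2, ← h3, Matrix.map_apply, Matrix.map_apply]
    exact this
  -- coordinates
  set x := sl2Coord h Φ with hx
  set z := sl2Coord h S with hz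
  set δ : O := half * (ζ - ζ') with hδ
  have hδ0 : δ ≠ 0 := mul_ne_zero (left_ne_zero_of_mul_eq_one (b := (2 : O))
    (by rw [mul_comm, hhalf])) (sub_ne_zero.mpr hne)
  have hδL : cL δ ≠ 0 := (map_ne_zero_iff _ hcL).mpr hδ0
  have hQz : z 0 ^ 2 + z 1 ^ 2 - z 2 ^ 2 = cL δ ^ 2 := by
    rw [det_fin_two] at hdetS
    rw [trace_fin_two] at htrS
    simp only [hz, sl2Coord, Matrix.cons_val, hδ, map_mul, map_sub, ← hh]
    linear_combination h ^ 2 * (S 0 0 + S 1 1 + cL ζ + cL ζ') * htrS - 4 * h ^ 2 * hdetS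
  have hcomm' : ∀ a b, x a * z b = x b * z a := by
    have e00 := congrFun (congrFun hcomm 0) 0
    have e01 := congrFun (congrFun hcomm 0) 1
    have e10 := congrFun (congrFun hcomm 1) 0
    simp only [Matrix.mul_apply, Fin.sum_univ_two] at e00 e01 e10
    intro a b
    fin_cases a <;> fin_cases b <;> simp [hx, hz, sl2Coord]
    · linear_combination h ^ 2 * e01 - h ^ 2 * e10
    · linear_combination h ^ 2 * e01 + h ^ 2 * e10
    · linear_combination -(h ^ 2 * e01 - h ^ 2 * e10)
    · linear_combination -2 * h ^ 2 * e00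
    · linear_combination -(h ^ 2 * e01 + h ^ 2 * e10)
    · linear_combination 2 * h ^ 2 * e00
  have hmapΦ : ∀ j, toL (sl2Coord (cA half) (univPhi O i₀) j) = x j := fun j => by
    rw [sl2Coord_map, htoLc]
  have hmapS : ∀ j, toL (sl2Coord (cA half) (univSig O i₀) j) = z j := fun j => by
    rw [sl2Coord_map, htoLc]
  let p : Fin 3 → MvPowerSeries (ParVar ι G) O := fun j => X (Sum.inl (i₀, j))
  have hpL : ∀ j, algebraMap (MvPowerSeries (ParVar ι G) O) L (p j) = x j - (j.val : L) * z j := by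
    intro j
    show toL (paramHom O half (p j)) = _
    rw [paramHom_X]
    simp only [paramVal, paramElt, map_sub, map_mul, map_natCast]
    rw [hmapΦ, hmapS]
  set α : L := (x 0 * z 0 + x 1 * z 1 - x 2 * z 2) / cL δ with hα
  obtain ⟨hsext, hα2⟩ := sextic_of_coords hδL x z
    (fun j => algebraMap (MvPowerSeries (ParVar ι G) O) L (p j)) hQz hcomm'
    (by simpa using hpL 0) (by simpa using hpL 1) (by simpa using hpL 2)
    (mul_div_cancel₀ _ hδL)
  rw [← hα] at hsext hα2
  -- `α²` is nilpotent modulo `π`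
  let Qx : MvPowerSeries (LocVar ι G) O := sl2Coord (cA half) (univPhi O i₀) 0 ^ 2 +
    sl2Coord (cA half) (univPhi O i₀) 1 ^ 2 - sl2Coord (cA half) (univPhi O i₀) 2 ^ 2
  set I := P ⊔ (maximalIdeal O).map cA
  have hqI : (1 : MvPowerSeries (LocVar ι G) O) - q i₀ ∈ I := by
    have := Ideal.mem_map_of_mem cA (hq i₀)
    rw [map_sub, map_natCast, map_one] at this
    simpa using Ideal.mem_sup_right (neg_mem this)
  have hQx : Qx ∈ I.radical := by
    have hQ : Qx = cA half ^ 2 * ((univPhi O i₀).trace ^ 2 - 4 * (univPhi O i₀).det) := by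
      simp [Qx, sl2Coord, det_fin_two, trace_fin_two]
      ring
    rw [hQ]
    refine Ideal.mul_mem_left _ _ ?_
    set τ := (univPhi O i₀).trace - (1 + (q i₀ : MvPowerSeries (LocVar ι G) O))
    have e : (univPhi O i₀).trace ^ 2 - 4 * (univPhi O i₀).det =
        τ * (τ + 2 * (1 + (q i₀ : MvPowerSeries (LocVar ι G) O))) +
          (1 - (q i₀ : MvPowerSeries (LocVar ι G) O)) ^ 2 -
        4 * ((univPhi O i₀).det - (q i₀ : MvPowerSeries (LocVar ι G) O)) := by
      simp only [τ]; ring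
    rw [e]
    refine sub_mem (add_mem (Ideal.mul_mem_right _ _ ⟨K, hτ⟩) ?_)
      (Ideal.le_radical (Ideal.mem_sup_left (Ideal.mul_mem_left _ _ (hrel i₀).det_phi)))
    exact Ideal.pow_mem_of_mem _ (Ideal.le_radical hqI) 2 two_pos
  obtain ⟨M, hM⟩ := hQx
  obtain ⟨a, ha, b, hb, hab⟩ := Submodule.mem_sup.mp hM
  rw [hπ.maximalIdeal_eq, Ideal.map_span, Set.image_singleton, Ideal.mem_span_singleton'] at hb
  obtain ⟨c, rfl⟩ := hb
  have hαK : α ^ (2 * M) = algebraMap (MvPowerSeries (ParVar ι G) O) L (MvPowerSeries.C π) *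
      toL c := by
    have hQxL : toL Qx = α ^ 2 := by
      simp only [Qx, map_add, map_sub, map_pow, hmapΦ, hα2]
    rw [pow_mul, ← hQxL, ← map_pow, ← hab, map_add, hι, hcN,
      show toL a = 0 from hzero a ha, zero_add, map_mul, mul_comm]
    rfl
  have hd2 : MvPowerSeries.map (IsLocalRing.residue O)
      (MvPowerSeries.C δ : MvPowerSeries (ParVar ι G) O) = 0 := by
    rw [map_C, IsLocalRing.residue_eq_zero_iff _ |>.mpr (Ideal.mul_mem_left _ _ hmem), map_zero]
  have hδmap : algebraMap (MvPowerSeries (ParVar ι G) O) L (MvPowerSeries.C δ) = cL δ := by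
    rw [hι, hcN]; rfl
  refine not_dvd_pow_of_sextic (k := IsLocalRing.ResidueField O) ?_
    (MvPowerSeries.map (IsLocalRing.residue O)) (MvPowerSeries.C π)
    (dvd_of_map_residue_eq_zero hπ) (fun j => Sum.inl (i₀, j)) ?_ p (fun j => map_X _ _)
    (MvPowerSeries.C δ) ?_ ((dvd_of_map_residue_eq_zero hπ _).mp hd2)
    (fun x b hb h => C_dvd_of_dvd_mul hδ0 x b hb h) α ?_ (toL c) (hint _) hαK
  · intro h2
    have := congrArg (IsLocalRing.residue O) hhalf
    rw [map_mul, map_ofNat, h2, zero_mul, map_one] at this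
    exact zero_ne_one this
  · intro a b hab'
    simpa using hab'
  · intro h0
    exact hδ0 (by simpa using congrArg MvPowerSeries.constantCoeff h0)
  · rw [hδmap]
    exact hsext

end Fermat.Agent.LL
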