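import Fermat.Agent.LL.Component
import Mathlib.LinearAlgebra.Matrix.Charpoly.LinearMap
import Mathlib.LinearAlgebra.FreeModule.Basic
import Mathlib.FieldTheory.IsAlgClosed.AlgebraicClosure
import Mathlib.RingTheory.Ideal.MinimalPrime.Noetherian

/-!
# Ihara avoidance, abstract form

Two patched modules over the local ring, free over the parameter ring and congruent modulo `π`,
cannot have unipotent ramified inertia at `i₀` at level zero for one and inertia of exact finite
order for the other.
-/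

set_option autoImplicit false

noncomputable section

namespace Fermat.Agent.LL

open IsLocalRing MvPowerSeries Matrix

/-- Tame inertia with Frobenius relation has algebraic integer trace. -/
lemma isIntegral_trace_of_rel {B : Type*} [Field B] [IsAlgClosed B] {q : ℕ} (hq : 2 ≤ q)
    {Φ S : Matrix (Fin 2) (Fin 2) B} (hΦ : Φ.det ≠ 0) (hS : S.det = 1) (h : Φ * S = S ^ q * Φ) :
    IsIntegral ℤ S.trace := by
  obtain ⟨l, hl⟩ := IsAlgClosed.exists_eval₂_eq_zero (RingHom.id B) S.charpoly
    (by rw [Matrix.charpoly_degree_eq_dim]; simp)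
  rw [Matrix.charpoly_fin_two, hS] at hl
  simp at hl
  have hl0 : l ≠ 0 := by rintro rfl; simp at hl
  have hdet : (S - l • 1).det = 0 := by
    rw [det_fin_two] at hS ⊢
    rw [trace_fin_two] at hl
    simp
    linear_combination hl + hS
  have hdiv : (S ^ q - l ^ q • 1).det = 0 := by
    have hc : Commute S (l • 1 : Matrix (Fin 2) (Fin 2) B) := (Commute.one_right S).smul_right l
    have e := hc.geom_sum₂_mul q
    have h1 : ((l • 1 : Matrix (Fin 2) (Fin 2) B)) ^ q = l ^ q • 1 := by
      rw [smul_pow, one_pow]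
    rw [← h1, ← e, Matrix.det_mul, hdet, mul_zero]
  have hμ : (S - l ^ q • 1).det = 0 := by
    have e : (S ^ q - l ^ q • 1) * Φ = Φ * (S - l ^ q • 1) := by
      rw [sub_mul, mul_sub, h, smul_mul_assoc, one_mul, mul_smul_comm, mul_one]
    have := congrArg Matrix.det e
    rw [Matrix.det_mul, Matrix.det_mul, hdiv, zero_mul] at this
    exact (mul_eq_zero.mp this.symm).resolve_left hΦ
  have hroot : (l ^ q - l) * (l ^ q * l - 1) = 0 := by
    rw [det_fin_two] at hμ hS
    rw [trace_fin_two] at hl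
    simp at hμ
    linear_combination l * hμ - l ^ q * hl - l * hS
  have hint : IsIntegral ℤ l ∧ IsIntegral ℤ l⁻¹ := by
    rcases mul_eq_zero.mp hroot with h1 | h1
    · have h2 : l ^ (q - 1) = 1 := mul_right_cancel₀ hl0 (by
        rw [← pow_succ, show q - 1 + 1 = q by omega, one_mul, sub_eq_zero.mp h1])
      exact ⟨IsIntegral.of_pow (n := q - 1) (by omega) (h2 ▸ isIntegral_one),
        IsIntegral.of_pow (n := q - 1) (by omega) (by rw [inv_pow, h2, inv_one]; exact isIntegral_one)⟩
    · have h2 : l ^ (q + 1) = 1 := by rw [pow_succ]; exact sub_eq_zero.mp h1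
      exact ⟨IsIntegral.of_pow (n := q + 1) (by omega) (h2 ▸ isIntegral_one),
        IsIntegral.of_pow (n := q + 1) (by omega) (by rw [inv_pow, h2, inv_one]; exact isIntegral_one)⟩
  have : S.trace = l + l⁻¹ := by
    rw [trace_fin_two] at hl ⊢
    field_simp
    linear_combination -hl
  rw [this]
  exact hint.1.add hint.2

variable {O : Type} [CommRing O] [IsDomain O] [IsDiscreteValuationRing O]
  [IsAdicComplete (maximalIdeal O) O] {ι G : Type} [Finite ι] [Finite G]

/-- The level zero ideal of a module with respect to the parameters. -/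
def levelZeroIdeal (ψ : MvPowerSeries (ParVar ι G) O →ₐ[O] MvPowerSeries (LocVar ι G) O) :
    Ideal (MvPowerSeries (LocVar ι G) O) :=
  Ideal.span (Set.range fun t => ψ (X t))

/-- Relations valid on a whole module. -/
structure ModRel (q : ℕ) (i : ι) (M : Type) [AddCommGroup M]
    [Module (MvPowerSeries (LocVar ι G) O) M] : Prop where
  det_phi : ∀ m : M, ((univPhi O i).det - (q : MvPowerSeries (LocVar ι G) O)) • m = 0
  det_sig : ∀ m : M, ((univSig (G := G) O i).det - 1) • m = 0
  tame : ∀ (a b : Fin 2) (m : M), ((univPhi O i * univSig O i - univSig O i ^ q * univPhi O i :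
    Matrix (Fin 2) (Fin 2) (MvPowerSeries (LocVar ι G) O)) a b) • m = 0

variable (ψ : MvPowerSeries (ParVar ι G) O →ₐ[O] MvPowerSeries (LocVar ι G) O)

/-- A point of a module at level zero. -/
structure IsLevelZeroPoint (M : Type) [AddCommGroup M]
    [Module (MvPowerSeries (LocVar ι G) O) M] (Q : Ideal (MvPowerSeries (LocVar ι G) O)) :
    Prop where
  prime : Q.IsPrime
  base : ∀ c : O, algebraMap O _ c ∈ Q → c = 0
  zero : levelZeroIdeal ψ ≤ Q
  support : ∀ a, (∀ m : M, a • m ∈ levelZeroIdeal ψ • (⊤ : Submodule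
    (MvPowerSeries (LocVar ι G) O) M)) → a ∈ Q

section Module

variable (M : Type) [AddCommGroup M] [Module (MvPowerSeries (LocVar ι G) O) M]
  [Module (MvPowerSeries (ParVar ι G) O) M]
  [Module.Free (MvPowerSeries (ParVar ι G) O) M] [Module.Finite (MvPowerSeries (ParVar ι G) O) M]
  [Nontrivial M] (hsmul : ∀ (s : MvPowerSeries (ParVar ι G) O) (m : M), s • m = ψ s • m)

include hsmul

lemma finite_module : Module.Finite (MvPowerSeries (LocVar ι G) O) M := by
  obtain ⟨S, hS⟩ := (Module.Finite.fg_top : (⊤ : Submodule (MvPowerSeries (ParVar ι G) O) M).FG)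
  refine ⟨⟨S, top_le_iff.mp fun x hxt => ?_⟩⟩
  clear hxt
  have hx : x ∈ Submodule.span (MvPowerSeries (ParVar ι G) O) (S : Set M) := hS ▸ trivial
  induction hx using Submodule.span_induction with
  | mem y hy => exact Submodule.subset_span hy
  | zero => exact zero_mem _
  | add y z _ _ hy hz => exact add_mem hy hz
  | smul s y _ hy => rw [hsmul]; exact Submodule.smul_mem _ _ hy

/-- Minimal primes of the support are finite and torsion free over the parameters. -/
lemma finite_injective_of_minimalPrime (P : Ideal (MvPowerSeries (LocVar ι G) O))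
    (hP : P ∈ (Module.annihilator (MvPowerSeries (LocVar ι G) O) M).minimalPrimes) :
    ((Ideal.Quotient.mk P).comp ψ.toRingHom).Finite ∧
      Function.Injective ((Ideal.Quotient.mk P).comp ψ.toRingHom) := by
  set N := MvPowerSeries (ParVar ι G) O
  set J := Module.annihilator (MvPowerSeries (LocVar ι G) O) M
  have hJP : J ≤ P := hP.1.2
  have : SMulCommClass (MvPowerSeries (LocVar ι G) O) N M :=
    ⟨fun a s m => by rw [hsmul, hsmul, smul_comm]⟩
  constructor
  · let g : N →+* MvPowerSeries (LocVar ι G) O ⧸ J := (Ideal.Quotient.mk J).comp ψ.toRingHom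
    have hg : g.Finite := by
      algebraize [g]
      let Λ : (MvPowerSeries (LocVar ι G) O ⧸ J) →ₗ[N] Module.End N M :=
        { toFun := Ideal.Quotient.lift J (Module.toModuleEnd N M) fun a ha =>
            LinearMap.ext fun m => Module.mem_annihilator.mp ha m
          map_add' := map_add _
          map_smul' := fun s y => by
            obtain ⟨a, rfl⟩ := Ideal.Quotient.mk_surjective y
            rw [Algebra.smul_def, RingHom.algebraMap_toAlgebra, RingHom.comp_apply, ← map_mul,
              Ideal.Quotient.lift_mk, RingHom.id_apply, Ideal.Quotient.lift_mk]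
            ext m
            show (ψ s * a) • m = s • a • m
            rw [hsmul, mul_smul] }
      refine Module.Finite.of_injective Λ ((injective_iff_map_eq_zero _).mpr fun y hy => ?_)
      obtain ⟨a, rfl⟩ := Ideal.Quotient.mk_surjective y
      refine Ideal.Quotient.eq_zero_iff_mem.mpr (Module.mem_annihilator.mpr fun m => ?_)
      exact LinearMap.congr_fun hy m
    have hcomp : (Ideal.Quotient.mk P).comp ψ.toRingHom = (Ideal.Quotient.factor hJP).comp g := by
      ext x; simp [g]
    rw [hcomp]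
    exact RingHom.Finite.comp
      (RingHom.Finite.of_surjective _ (Ideal.Quotient.factor_surjective hJP)) hg
  · rw [injective_iff_map_eq_zero]
    intro s hs
    by_contra hs0
    have hsP : ψ s ∈ P := Ideal.Quotient.eq_zero_iff_mem.mp hs
    have hmin : P.map (Ideal.Quotient.mk J) ∈
        minimalPrimes (MvPowerSeries (LocVar ι G) O ⧸ J) := by
      have : Ideal.comap (Ideal.Quotient.mk J) (P.map (Ideal.Quotient.mk J)) = P := by
        rw [Ideal.comap_map_of_surjective _ Ideal.Quotient.mk_surjective, ← RingHom.ker_eq_comap_bot,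
          Ideal.mk_ker, sup_eq_left.mpr hJP]
      have hmem : P ∈ Ideal.comap (Ideal.Quotient.mk J) '' minimalPrimes _ := by
        rw [← Ideal.minimalPrimes_eq_comap]; exact hP
      obtain ⟨P', hP', hP'eq⟩ := hmem
      rw [show P.map (Ideal.Quotient.mk J) = P' by
        rw [← hP'eq, Ideal.map_comap_of_surjective _ Ideal.Quotient.mk_surjective]]
      exact hP'
    refine Set.disjoint_left.mp
      (Ideal.disjoint_nonZeroDivisors_of_mem_minimalPrimes hmin)
      (Ideal.mem_map_of_mem (Ideal.Quotient.mk J) hsP) ?_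
    rw [SetLike.mem_coe, mem_nonZeroDivisors_iff_right]
    intro y hy
    obtain ⟨a, rfl⟩ := Ideal.Quotient.mk_surjective y
    rw [← map_mul, Ideal.Quotient.eq_zero_iff_mem, Module.mem_annihilator] at hy
    refine Ideal.Quotient.eq_zero_iff_mem.mpr (Module.mem_annihilator.mpr fun m => ?_)
    have h := hy m
    rw [mul_comm, mul_smul, ← hsmul] at h
    exact (smul_eq_zero.mp h).resolve_left hs0

/-- `a ^ n ∈ ann M + I` when `a M ⊆ I M`. -/
lemma pow_mem_annihilator_sup {I : Ideal (MvPowerSeries (LocVar ι G) O)}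
    {a : MvPowerSeries (LocVar ι G) O}
    (ha : ∀ m : M, a • m ∈ I • (⊤ : Submodule (MvPowerSeries (LocVar ι G) O) M)) :
    ∃ n, a ^ n ∈ Module.annihilator (MvPowerSeries (LocVar ι G) O) M ⊔ I := by
  have := finite_module ψ M hsmul
  obtain ⟨p, hp, -, hcoef, hev⟩ :=
    LinearMap.exists_monic_and_natDegree_eq_and_coeff_mem_pow_and_aeval_eq_zero
      (R := MvPowerSeries (LocVar ι G) O) (algebraMap _ (Module.End _ M) a) I
      (by rintro _ ⟨m, rfl⟩; exact ha m)
  refine ⟨p.natDegree, ?_⟩
  have hann : Polynomial.eval a p ∈ Module.annihilator (MvPowerSeries (LocVar ι G) O) M :=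
    Module.mem_annihilator.mpr fun m => by
      have := LinearMap.congr_fun hev m
      rw [Polynomial.aeval_algebraMap_apply, Polynomial.aeval_def, Algebra.algebraMap_self] at this
      simpa using this
  rw [Polynomial.eval_eq_sum_range, Finset.sum_range_succ, hp.coeff_natDegree, one_mul] at hann
  have hrest : ∑ i ∈ Finset.range p.natDegree, p.coeff i * a ^ i ∈ I := by
    refine Ideal.sum_mem _ fun i hi => Ideal.mul_mem_right _ _ ?_
    rw [Finset.mem_range] at hi
    exact Ideal.pow_le_self (by omega) (hcoef i)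
  simpa using sub_mem (Ideal.mem_sup_left hann) (Ideal.mem_sup_right hrest)

/-- Every minimal prime of the support specialises to a level zero point. -/
lemma exists_levelZeroPoint (P : Ideal (MvPowerSeries (LocVar ι G) O))
    (hP : P ∈ (Module.annihilator (MvPowerSeries (LocVar ι G) O) M).minimalPrimes) :
    ∃ Q, P ≤ Q ∧ IsLevelZeroPoint ψ M Q := by
  obtain ⟨hfin, hinj⟩ := finite_injective_of_minimalPrime ψ M hsmul P hP
  have := hP.1.1
  set g := (Ideal.Quotient.mk P).comp ψ.toRingHom
  algebraize [g]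
  have : Algebra.IsIntegral (MvPowerSeries (ParVar ι G) O)
    (MvPowerSeries (LocVar ι G) O ⧸ P) := Algebra.IsIntegral.of_finite _ _
  let y0 : Ideal (MvPowerSeries (ParVar ι G) O) := RingHom.ker MvPowerSeries.constantCoeff
  have : y0.IsPrime := RingHom.ker_isPrime _
  obtain ⟨Q', -, hQ', hover⟩ := Ideal.exists_ideal_over_prime_of_isIntegral
    (S := MvPowerSeries (LocVar ι G) O ⧸ P) y0 ⊥ (by
      intro x hx
      rw [Ideal.mem_comap, Ideal.mem_bot] at hx
      rw [(map_eq_zero_iff g hinj).mp hx]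
      exact zero_mem _)
  set Q := Q'.comap (Ideal.Quotient.mk P)
  have hPQ : P ≤ Q := fun x hx => by
    show Ideal.Quotient.mk P x ∈ Q'
    rw [Ideal.Quotient.eq_zero_iff_mem.mpr hx]
    exact zero_mem _
  have hmemQ : ∀ s, ψ s ∈ Q ↔ MvPowerSeries.constantCoeff s = 0 := fun s =>
    (SetLike.ext_iff.mp hover s)
  have hzero : levelZeroIdeal ψ ≤ Q := Ideal.span_le.mpr (by
    rintro _ ⟨t, rfl⟩
    exact (hmemQ _).mpr (MvPowerSeries.constantCoeff_X _))
  refine ⟨Q, hPQ, hQ'.comap _, fun c hc => ?_, hzero, fun a ha => ?_⟩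
  · rw [← AlgHom.commutes ψ, hmemQ, MvPowerSeries.algebraMap_apply] at hc
    simpa using hc
  · obtain ⟨n, hn⟩ := pow_mem_annihilator_sup ψ M hsmul ha
    exact (hQ'.comap _).mem_of_pow_mem n (sup_le (hP.1.2.trans hPQ) hzero hn)

/-- The trace of inertia is constant on components. -/
lemma trace_sub_mem {q : ℕ} (hq : 2 ≤ q) (hq0 : (q : O) ≠ 0) {i : ι} (hrel : ModRel (O := O) (G := G) q i M)
    (P : Ideal (MvPowerSeries (LocVar ι G) O))
    (hP : P ∈ (Module.annihilator (MvPowerSeries (LocVar ι G) O) M).minimalPrimes) (e : O)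
    {Q : Ideal (MvPowerSeries (LocVar ι G) O)} (hPQ : P ≤ Q) (hQ : IsLevelZeroPoint ψ M Q)
    (he : (univSig O i).trace - algebraMap O _ e ∈ Q) :
    (univSig O i).trace - algebraMap O _ e ∈ P := by
  have := hP.1.1
  have hann : ∀ a, (∀ m : M, a • m = 0) → a ∈ P :=
    fun a ha => hP.1.2 (Module.mem_annihilator.mpr ha)
  let B := MvPowerSeries (LocVar ι G) O ⧸ P
  let L := AlgebraicClosure (FractionRing B)
  let toL : MvPowerSeries (LocVar ι G) O →+* L :=
    ((algebraMap (FractionRing B) L).comp (algebraMap B (FractionRing B))).comp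
      (Ideal.Quotient.mk P)
  have hker : ∀ x, toL x = 0 ↔ x ∈ P := by
    intro x
    show algebraMap (FractionRing B) L (algebraMap B _ (Ideal.Quotient.mk P x)) = 0 ↔ _
    rw [map_eq_zero_iff _ (algebraMap (FractionRing B) L).injective,
      map_eq_zero_iff _ (IsFractionRing.injective B (FractionRing B)),
      Ideal.Quotient.eq_zero_iff_mem]
  have hdetΦ : ((univPhi O i).map toL).det = q := by
    have := (hker _).mpr (hann _ hrel.det_phi)
    rw [map_sub, map_natCast, sub_eq_zero, RingHom.map_det] at this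
    exact this
  have hdetS : ((univSig O i).map toL).det = 1 := by
    have := (hker _).mpr (hann _ hrel.det_sig)
    rw [map_sub, map_one, sub_eq_zero, RingHom.map_det] at this
    exact this
  have htame : (univPhi O i).map toL * (univSig O i).map toL =
      ((univSig O i).map toL) ^ q * (univPhi O i).map toL := by
    rw [← RingHom.mapMatrix_apply, ← RingHom.mapMatrix_apply, ← map_mul, ← map_pow, ← map_mul,
      ← sub_eq_zero, ← map_sub]
    ext a b
    exact (hker _).mpr (hann _ (hrel.tame a b))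
  have hqL : (q : L) ≠ 0 := by
    intro h0
    have : (q : MvPowerSeries (LocVar ι G) O) ∈ Q := hPQ ((hker _).mp (by rw [map_natCast, h0]))
    exact hq0 (hQ.base _ (by simpa [map_natCast] using this))
  have hint : IsIntegral ℤ (toL (univSig O i).trace) := by
    have := isIntegral_trace_of_rel hq (hdetΦ ▸ hqL) hdetS htame
    rw [trace_fin_two, Matrix.map_apply, Matrix.map_apply, ← map_add, ← trace_fin_two] at this
    convert this
    exact Subsingleton.elim _ _
  let oL : O →+* L := toL.comp (algebraMap O _)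
  set d := toL ((univSig O i).trace - algebraMap O _ e) with hd
  have hdint : oL.IsIntegralElem d := by
    rw [hd, map_sub]
    refine RingHom.IsIntegralElem.sub oL ?_ (oL.isIntegralElem_map (x := e))
    obtain ⟨p, hp, hp0⟩ := hint
    refine ⟨p.map (Int.castRingHom O), hp.map _, ?_⟩
    rw [Polynomial.eval₂_map, RingHom.ext_int (oL.comp (Int.castRingHom O)) (algebraMap ℤ L)]
    exact hp0
  by_contra hne
  have hd0 : d ≠ 0 := fun h0 => hne ((hker _).mp h0)
  obtain ⟨p, hp, hpd⟩ := hdint
  obtain ⟨p', hpp, hnd⟩ :=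
    Polynomial.exists_eq_pow_rootMultiplicity_mul_and_not_dvd p hp.ne_zero (0 : O)
  rw [map_zero, sub_zero] at hpp hnd
  rw [hpp, Polynomial.eval₂_mul, Polynomial.eval₂_X_pow] at hpd
  have hp'd := (mul_eq_zero.mp hpd).resolve_left (pow_ne_zero _ hd0)
  have hp'0 : p'.coeff 0 ≠ 0 := fun h0 => hnd (Polynomial.X_dvd_iff.mpr h0)
  refine hp'0 (hQ.base _ ?_)
  have hev : toL (Polynomial.eval ((univSig O i).trace - algebraMap O _ e)
      (p'.map (algebraMap O _))) = 0 := by
    rw [Polynomial.eval_map, Polynomial.hom_eval₂]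
    exact hp'd
  have hmem := hPQ ((hker _).mp hev)
  rw [← Ideal.Quotient.eq_zero_iff_mem] at hmem ⊢
  rw [Polynomial.eval_map, Polynomial.hom_eval₂, Ideal.Quotient.eq_zero_iff_mem.mpr he,
    Polynomial.eval₂_at_zero, RingHom.comp_apply] at hmem
  exact hmem

end Module

/-- The trace of Frobenius on ramified unipotent components. -/
lemma sq_trace_of_unipotent {B : Type*} [CommRing B] [IsDomain B] {q : ℕ} (hq0 : (q : B) ≠ 0)
    (hq1 : (q : B) ≠ 1) {Φ S : Matrix (Fin 2) (Fin 2) B} (hΦ : Φ.det = q) (hS : S.det = 1)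
    (htr : S.trace = 2) (hne : S ≠ 1) (h : Φ * S = S ^ q * Φ) :
    Φ.trace ^ 2 = (1 + (q : B)) ^ 2 := by
  obtain ⟨Z, rfl⟩ : ∃ Z, S = 1 + Z := ⟨S - 1, by abel⟩
  have hZ : Z * Z = 0 := by
    rw [det_fin_two] at hS
    rw [trace_fin_two] at htr
    simp at hS htr
    ext a b
    fin_cases a <;> fin_cases b <;> simp [Matrix.mul_apply]
    · linear_combination Z 0 0 * htr - hS + htr
    · linear_combination Z 0 1 * htr
    · linear_combination Z 1 0 * htr
    · linear_combination Z 1 1 * htr - hS + htr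
  rw [pow_one_add_of_sq_eq_zero hZ, mul_add, add_mul, mul_one, one_mul, add_right_inj,
    smul_mul_assoc] at h
  set t := Φ.trace with ht
  have hCH : Φ * Φ = t • Φ - (q : B) • 1 := by
    rw [ht, ← hΦ]
    ext a b
    fin_cases a <;> fin_cases b <;>
      simp [Matrix.mul_apply, det_fin_two, trace_fin_two] <;> ring
  have h2 : (Φ * Φ) * Z = ((q : B) * q) • (Z * (Φ * Φ)) := by
    rw [mul_assoc, h, mul_smul_comm, ← mul_assoc, h, smul_mul_assoc, smul_smul, mul_assoc]
  rw [hCH, sub_mul, smul_mul_assoc, h, smul_mul_assoc, one_mul, mul_sub, mul_smul_comm,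
    mul_smul_comm, mul_one] at h2
  have h3 : ((q : B) * (1 - q)) • (Z * (t • Φ - (1 + (q : B)) • 1)) = 0 := by
    rw [mul_sub Z, mul_smul_comm, mul_smul_comm, mul_one]
    rw [← sub_eq_zero] at h2
    rw [← h2]
    match_scalars <;> ring
  have h4 : Z * (t • Φ - (1 + (q : B)) • 1) = 0 :=
    (smul_eq_zero.mp h3).resolve_left (mul_ne_zero hq0 (sub_ne_zero.mpr hq1.symm))
  have h5 : (t • Φ - (1 + (q : B)) • 1).det = 0 := by
    by_contra hd
    have := congrArg (· * (t • Φ - (1 + (q : B)) • 1).adjugate) h4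
    simp only [mul_assoc, Matrix.mul_adjugate, zero_mul, mul_smul_comm, mul_one] at this
    exact hne (by rw [(smul_eq_zero.mp this).resolve_left hd, add_zero])
  rw [det_fin_two] at h5 hΦ
  rw [trace_fin_two] at ht
  simp at h5
  linear_combination -1 * h5 + t ^ 2 * hΦ + (1 + (q : B)) * t * ht

/-- **Ihara avoidance, abstract form.** -/
theorem false_of_patched (half : O) (hhalf : 2 * half = 1) (q : ι → ℕ) (hq2 : ∀ i, 2 ≤ q i)
    (hq0 : ∀ i, (q i : O) ≠ 0)
    (hq : ∀ i, (q i : O) - 1 ∈ maximalIdeal O) (i₀ : ι) (hq1 : (q i₀ : O) ≠ 1)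
    (ψ : MvPowerSeries (ParVar ι G) O →ₐ[O] MvPowerSeries (LocVar ι G) O)
    (M₀ M₁ : Type) [AddCommGroup M₀] [AddCommGroup M₁]
    [Module (MvPowerSeries (LocVar ι G) O) M₀] [Module (MvPowerSeries (LocVar ι G) O) M₁]
    [Module (MvPowerSeries (ParVar ι G) O) M₀] [Module (MvPowerSeries (ParVar ι G) O) M₁]
    [Module.Free (MvPowerSeries (ParVar ι G) O) M₀] [Module.Free (MvPowerSeries (ParVar ι G) O) M₁]
    [Module.Finite (MvPowerSeries (ParVar ι G) O) M₀]
    [Module.Finite (MvPowerSeries (ParVar ι G) O) M₁] [Nontrivial M₀] [Nontrivial M₁]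
    (h₀ : ∀ (s : MvPowerSeries (ParVar ι G) O) (m : M₀), s • m = ψ s • m)
    (h₁ : ∀ (s : MvPowerSeries (ParVar ι G) O) (m : M₁), s • m = ψ s • m)
    (hrel₀ : ∀ i, ModRel (O := O) (G := G) (q i) i M₀) (hrel₁ : ∀ i, ModRel (O := O) (G := G) (q i) i M₁)
    (hcongr : ∀ a : MvPowerSeries (LocVar ι G) O,
      (∀ m : M₀, a • m ∈ (maximalIdeal O).map (algebraMap O (MvPowerSeries (LocVar ι G) O)) •
        (⊤ : Submodule (MvPowerSeries (LocVar ι G) O) M₀)) →
      ∀ m : M₁, a • m ∈ (maximalIdeal O).map (algebraMap O (MvPowerSeries (LocVar ι G) O)) •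
        (⊤ : Submodule (MvPowerSeries (LocVar ι G) O) M₁))
    (hpt₀ : ∀ Q, IsLevelZeroPoint ψ M₀ Q →
      (∀ i, (univSig O i).trace - 2 ∈ Q) ∧
      ∃ a b : Fin 2, ((univSig O i₀ - 1 : Matrix (Fin 2) (Fin 2) _) a b) ∉ Q)
    (hpt₁ : ∀ Q, IsLevelZeroPoint ψ M₁ Q →
      (∀ i, i ≠ i₀ → (univSig O i).trace - 2 ∈ Q) ∧
      ∃ ζ ζ' : O, ζ * ζ' = 1 ∧ ζ ≠ ζ' ∧ ζ - ζ' ∈ maximalIdeal O ∧ ζ ^ q i₀ = ζ ∧
        ζ + ζ' - 2 ∈ maximalIdeal O ∧
        (univSig O i₀).trace - algebraMap O _ (ζ + ζ') ∈ Q) : False := by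
  set τ := (univPhi O i₀).trace - (1 + (q i₀ : MvPowerSeries (LocVar ι G) O)) with hτdef
  set J₀ := Module.annihilator (MvPowerSeries (LocVar ι G) O) M₀
  -- on the first module `τ` is nilpotent
  have hτ0 : τ ∈ J₀.radical := by
    rw [← Ideal.sInf_minimalPrimes, Submodule.mem_sInf]
    intro P hP
    obtain ⟨Q, hPQ, hQ⟩ := exists_levelZeroPoint ψ M₀ h₀ P hP
    obtain ⟨htr, a, b, hab⟩ := hpt₀ Q hQ
    have := hP.1.1
    have hann : ∀ x, (∀ m : M₀, x • m = 0) → x ∈ P :=
      fun x hx => hP.1.2 (Module.mem_annihilator.mpr hx)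
    have htrP : (univSig O i₀).trace - algebraMap O _ (2 : O) ∈ P :=
      trace_sub_mem ψ M₀ h₀ (hq2 i₀) (hq0 i₀) (hrel₀ i₀) P hP 2 hPQ hQ
        (by rw [map_ofNat]; exact htr i₀)
    set mk := Ideal.Quotient.mk P
    have hz : ∀ x ∈ P, mk x = 0 := fun x hx => Ideal.Quotient.eq_zero_iff_mem.mpr hx
    have hbase : ∀ c : O, c ≠ 0 → mk (algebraMap O _ c) ≠ 0 := fun c hc h0 =>
      hc (hQ.base c (hPQ (Ideal.Quotient.eq_zero_iff_mem.mp h0)))
    have key := sq_trace_of_unipotent (B := MvPowerSeries (LocVar ι G) O ⧸ P)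
      (Φ := (univPhi O i₀).map mk) (S := (univSig O i₀).map mk) (q := q i₀)
      (by simpa using hbase _ (hq0 i₀))
      (by simpa [sub_eq_zero] using hbase _ (sub_ne_zero.mpr hq1))
      (by
        have := hz _ (hann _ (hrel₀ i₀).det_phi)
        rw [map_sub, map_natCast, sub_eq_zero, RingHom.map_det] at this
        exact this)
      (by
        have := hz _ (hann _ (hrel₀ i₀).det_sig)
        rw [map_sub, map_one, sub_eq_zero, RingHom.map_det] at this
        exact this)
      (by
        have := hz _ htrP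
        rw [map_sub, sub_eq_zero, map_ofNat, map_ofNat, trace_fin_two, map_add] at this
        rw [trace_fin_two, Matrix.map_apply, Matrix.map_apply, this])
      (by
        intro h1
        refine hab (hPQ (Ideal.Quotient.eq_zero_iff_mem.mp ?_))
        have := congrFun (congrFun h1 a) b
        rw [Matrix.sub_apply, map_sub, ← Matrix.map_apply (f := mk) (M := univSig O i₀), this,
          sub_eq_zero]
        fin_cases a <;> fin_cases b <;> simp)
      (by
        rw [← RingHom.mapMatrix_apply, ← RingHom.mapMatrix_apply, ← map_mul, ← map_pow, ← map_mul,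
          ← sub_eq_zero, ← map_sub]
        ext a b
        exact hz _ (hann _ ((hrel₀ i₀).tame a b)))
    rw [trace_fin_two, Matrix.map_apply, Matrix.map_apply, ← map_add, ← trace_fin_two,
      ← map_natCast mk, ← map_one mk, ← map_add, ← map_pow, ← map_pow, ← sub_eq_zero, ← map_sub,
      Ideal.Quotient.eq_zero_iff_mem, sq_sub_sq] at key
    refine (hP.1.1.mem_or_mem key).resolve_left fun hbad => ?_
    refine hP.1.1.ne_top (Ideal.eq_top_of_isUnit_mem _ hbad ?_)
    rw [MvPowerSeries.isUnit_iff_constantCoeff]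
    simp [univPhi, trace_fin_two]
    have h4 : IsUnit (4 : O) := IsUnit.of_mul_eq_one (half * half)
      (by linear_combination (2 * half + 1) * hhalf)
    obtain ⟨c, hc⟩ := h4
    have := IsLocalRing.isUnit_or_isUnit_of_isUnit_add
      (a := (4 : O) + ((q i₀ : O) - 1)) (b := -((q i₀ : O) - 1)) (by rw [add_neg_cancel_right]; exact ⟨c, hc⟩)
    rcases this with hu | hu
    · convert hu using 1; ring
    · exact absurd (neg_mem_iff.mpr (hq i₀)) (fun h => (mem_maximalIdeal _).mp h hu)
  obtain ⟨k, hk⟩ := hτ0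
  have hk1 : ∀ m : M₁, τ ^ k • m ∈ (maximalIdeal O).map (algebraMap O
      (MvPowerSeries (LocVar ι G) O)) • (⊤ : Submodule (MvPowerSeries (LocVar ι G) O) M₁) :=
    hcongr _ fun m => by rw [Module.mem_annihilator.mp hk m]; exact zero_mem _
  obtain ⟨n, hn⟩ := pow_mem_annihilator_sup ψ M₁ h₁ hk1
  rw [← pow_mul] at hn
  have hne : Module.annihilator (MvPowerSeries (LocVar ι G) O) M₁ ≠ ⊤ := fun h => by
    obtain ⟨m, hm⟩ := exists_ne (0 : M₁)
    exact hm (by simpa using Module.mem_annihilator.mp (h ▸ trivial :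
      (1 : MvPowerSeries (LocVar ι G) O) ∈ Module.annihilator _ M₁) m)
  obtain ⟨P, hP⟩ := Ideal.nonempty_minimalPrimes hne
  obtain ⟨hfin, hinj⟩ := finite_injective_of_minimalPrime ψ M₁ h₁ P hP
  obtain ⟨Q, hPQ, hQ⟩ := exists_levelZeroPoint ψ M₁ h₁ P hP
  obtain ⟨htr, ζ, ζ', hmul, hne', hmem, hpow, htwo, htrζ⟩ := hpt₁ Q hQ
  have := hP.1.1
  have hann : ∀ x, (∀ m : M₁, x • m = 0) → x ∈ P :=
    fun x hx => hP.1.2 (Module.mem_annihilator.mpr hx)
  have htrP := trace_sub_mem ψ M₁ h₁ (hq2 i₀) (hq0 i₀) (hrel₁ i₀) P hP _ hPQ hQ htrζ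
  refine false_of_component half hhalf q hq i₀ P (fun i => ⟨hann _ (hrel₁ i).det_phi,
    hann _ (hrel₁ i).det_sig, fun a b => hann _ ((hrel₁ i).tame a b), ?_⟩) _ hfin hinj
    ζ ζ' hmul hne' hmem hpow htrP (K := k * n) ((sup_le_sup_right hP.1.2 _) hn)
  by_cases hi : i = i₀
  · subst hi
    have : (univSig (G := G) O i).trace - 2 = ((univSig O i).trace - algebraMap O _ (ζ + ζ')) +
        algebraMap O _ (ζ + ζ' - 2) := by
      rw [map_sub (algebraMap O _) (ζ + ζ'), map_ofNat]; ring
    rw [this]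
    exact add_mem (Ideal.mem_sup_left htrP) (Ideal.mem_sup_right (Ideal.mem_map_of_mem _ htwo))
  · refine Ideal.mem_sup_left ?_
    have := trace_sub_mem ψ M₁ h₁ (hq2 i) (hq0 i) (hrel₁ i) P hP 2 hPQ hQ
      (by rw [map_ofNat]; exact htr i hi)
    rwa [map_ofNat] at this

end Fermat.Agent.LL
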