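import Fermat.Agent.Deform.PowerSeriesLocal
import Fermat.Agent.Tangent.PowerSeries

/-!
# The local variables at the primes of level lowering

`O⟦(ι × Fin 8) ⊕ G⟧` carries for each `i : ι` two matrices congruent to `1`: the images of a
Frobenius (`univPhi`) and of a tame inertia generator (`univSig`).  `paramHom` is the chosen
Noether normalisation: the coordinates `p_j = x_j - j z_j` (`j = 0, 1, 2`) of the traceless parts.
-/

set_option autoImplicit false

noncomputable section

namespace Fermat.Agent.LL

open IsLocalRing MvPowerSeries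

/-- Index set of the variables. -/
abbrev LocVar (ι G : Type) : Type := (ι × Fin 8) ⊕ G

/-- Index set of the parameters. -/
abbrev ParVar (ι G : Type) : Type := (ι × Fin 3) ⊕ G

variable (O : Type) [CommRing O] {ι G : Type}

/-- The `m`-th variable at `i`. -/
abbrev locX (i : ι) (m : Fin 8) : MvPowerSeries (LocVar ι G) O := X (Sum.inl (i, m))

/-- The universal Frobenius matrix at `i`. -/
def univPhi (i : ι) : Matrix (Fin 2) (Fin 2) (MvPowerSeries (LocVar ι G) O) :=
  !![1 + locX O i 0, locX O i 1; locX O i 2, 1 + locX O i 3]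

/-- The universal inertia matrix at `i`. -/
def univSig (i : ι) : Matrix (Fin 2) (Fin 2) (MvPowerSeries (LocVar ι G) O) :=
  !![1 + locX O i 4, locX O i 5; locX O i 6, 1 + locX O i 7]

/-- Coordinates of the traceless part of a `2 × 2` matrix, for the quadratic form
`-det = x₀² + x₁² - x₂²`. -/
def sl2Coord {R : Type*} [CommRing R] (half : R) (M : Matrix (Fin 2) (Fin 2) R) : Fin 3 → R :=
  ![half * (M 0 0 - M 1 1), half * (M 0 1 + M 1 0), half * (M 0 1 - M 1 0)]

lemma sl2Coord_map {R S : Type*} [CommRing R] [CommRing S] (f : R →+* S) (half : R)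
    (M : Matrix (Fin 2) (Fin 2) R) (j : Fin 3) :
    f (sl2Coord half M j) = sl2Coord (f half) (M.map f) j := by
  fin_cases j <;> simp [sl2Coord]

/-- The parameter attached to `(i, j)`. -/
def paramElt (half : O) (i : ι) (j : Fin 3) : MvPowerSeries (LocVar ι G) O :=
  sl2Coord (algebraMap O _ half) (univPhi O i) j -
    (j.val : MvPowerSeries (LocVar ι G) O) * sl2Coord (algebraMap O _ half) (univSig O i) j

/-- All parameters. -/
def paramVal (half : O) : ParVar ι G → MvPowerSeries (LocVar ι G) O
  | .inl (i, j) => paramElt O half i j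
  | .inr g => X (Sum.inr g)

variable [IsLocalRing O] [IsAdicComplete (maximalIdeal O) O] [Finite ι] [Finite G]

lemma paramVal_mem (half : O) (t : ParVar ι G) :
    paramVal O half t ∈ maximalIdeal (MvPowerSeries (LocVar ι G) O) := by
  rcases t with ⟨i, j⟩ | g <;> rw [Fermat.Agent.Deform.mem_maximalIdeal_iff]
  · fin_cases j <;>
      simp [paramVal, paramElt, sl2Coord, univPhi, univSig, MvPowerSeries.algebraMap_apply]
  · simp [paramVal]

lemma exists_paramHom (half : O) :
    ∃ φ : MvPowerSeries (ParVar ι G) O →ₐ[O] MvPowerSeries (LocVar ι G) O,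
      ∀ t, φ (X t) = paramVal O half t :=
  have : IsAdicComplete (maximalIdeal (MvPowerSeries (LocVar ι G) O))
      (MvPowerSeries (LocVar ι G) O) := Fermat.Agent.Deform.isAdicComplete_mvPowerSeries
  Fermat.Agent.Tangent.exists_algHom_mvPowerSeries_of_mem _ (paramVal O half) (paramVal_mem O half)

/-- The parameter homomorphism. -/
def paramHom (half : O) :
    MvPowerSeries (ParVar ι G) O →ₐ[O] MvPowerSeries (LocVar ι G) O :=
  (exists_paramHom O half).choose

lemma paramHom_X (half : O) (t : ParVar ι G) :
    paramHom O half (X t) = paramVal O half t :=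
  (exists_paramHom O half).choose_spec t

end Fermat.Agent.LL
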