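import Fermat.Agent.Deform.PowerSeriesLocal
import Fermat.Prelude.Thm_IsLocalRing_isAdicComplete_of_module_finite

/-!
# A finiteness criterion over power series rings
-/

set_option autoImplicit false

noncomputable section

namespace Fermat.Agent.LL

open IsLocalRing MvPowerSeries

variable {O : Type} [CommRing O] [IsLocalRing O] [IsNoetherianRing O]
  [IsAdicComplete (maximalIdeal O) O] {σ τ : Type} [Finite σ] [Finite τ]

omit [IsLocalRing O] [IsNoetherianRing O] [IsAdicComplete (maximalIdeal O) O] in
lemma mem_span_X_pow_of_coeff_eq_zero {n : ℕ} {f : MvPowerSeries σ O}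
    (hf : ∀ d, d.degree < n → coeff d f = 0) :
    f ∈ Ideal.span (Set.range (X : σ → MvPowerSeries σ O)) ^ n := by
  let e := toAdicCompletionAlgEquiv σ O
  have h0 : AdicCompletion.eval (MvPolynomial.idealOfVars σ O) _ n (e f) = 0 := by
    show (toAdicCompletion σ O f).val n = 0
    have h : truncTotal n f = 0 := by
      ext d
      by_cases hd : d.degree < n
      · rw [coeff_truncTotal _ hd, hf d hd]; rfl
      · rw [coeff_truncTotal_eq_zero _ (by omega)]; rfl
    rw [toAdicCompletion_apply_eq_mk_truncTotal, h, map_zero]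
  rw [← LinearMap.mem_ker, ← AdicCompletion.pow_smul_top_eq_ker_eval
    (MvPolynomial.idealOfVars_fg σ O)] at h0
  have h1 := Submodule.mem_map_of_mem (f := e.symm.toLinearMap) h0
  rw [Submodule.map_smul'', Submodule.map_top, LinearMap.range_eq_top.mpr e.symm.surjective,
    Ideal.smul_top_eq_map] at h1
  simp only [AlgEquiv.toLinearMap_apply, AlgEquiv.symm_apply_apply,
    Submodule.restrictScalars_mem, Ideal.map_pow] at h1
  refine Ideal.pow_right_mono ?_ n h1
  rw [MvPolynomial.idealOfVars, Ideal.map_span, Ideal.span_le]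
  rintro _ ⟨_, ⟨i, rfl⟩, rfl⟩
  refine Ideal.subset_span ⟨i, ?_⟩
  rw [← MvPolynomial.coe_X]
  rfl

lemma isPrecomplete_pi {R ι : Type*} [CommRing R] (I : Ideal R) [IsPrecomplete I R] [Finite ι] :
    IsPrecomplete I (ι → R) where
  prec' f hf := by
    classical
    have := Fintype.ofFinite ι
    have hmem : ∀ (n : ℕ) (x : ι → R), x ∈ (I ^ n • ⊤ : Submodule R (ι → R)) ↔
        ∀ i, x i ∈ (I ^ n • ⊤ : Submodule R R) := by
      intro n x
      refine ⟨fun h i => ?_, fun h => ?_⟩
      · refine Submodule.smul_induction_on h (fun r hr y _ => ?_) fun a b ha hb => add_mem ha hb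
        exact Submodule.smul_mem_smul hr trivial
      · rw [show x = ∑ i, x i • Pi.single i (1 : R) from pi_eq_sum_univ' x]
        refine sum_mem fun i _ => Submodule.smul_mem_smul ?_ trivial
        have := h i
        rwa [smul_eq_mul, Ideal.mul_top] at this
    have hcomp : ∀ i, ∃ L : R, ∀ n, f n i ≡ L [SMOD (I ^ n • ⊤ : Submodule R R)] := by
      intro i
      refine IsPrecomplete.prec inferInstance fun {m n} hmn => ?_
      rw [SModEq.sub_mem]
      exact (hmem m _).mp (SModEq.sub_mem.mp (hf hmn)) i
    choose L hL using hcomp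
    exact ⟨L, fun n => SModEq.sub_mem.mpr ((hmem n _).mpr fun i => SModEq.sub_mem.mp (hL i n))⟩

/-- If every variable is nilpotent modulo `P`, the maximal ideal of the base and the images of the
parameters, then `O⟦σ⟧ ⧸ P` is finite over the parameter ring. -/
theorem finite_quotient_comp (P : Ideal (MvPowerSeries σ O)) (hP : P ≠ ⊤)
    (φ : MvPowerSeries τ O →ₐ[O] MvPowerSeries σ O)
    (hφ : ∀ t, φ (X t) ∈ maximalIdeal (MvPowerSeries σ O))
    (hnil : ∀ s, X s ∈ (P ⊔ (maximalIdeal O).map (algebraMap O _) ⊔
      Ideal.span (Set.range fun t => φ (X t))).radical) :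
    (((Ideal.Quotient.mk P).comp φ.toRingHom)).Finite := by
  classical
  let B := MvPowerSeries σ O ⧸ P
  let g : MvPowerSeries τ O →+* B := (Ideal.Quotient.mk P).comp φ.toRingHom
  algebraize [g]
  have : Nontrivial B := Ideal.Quotient.nontrivial_iff.mpr hP
  have : IsLocalRing B := IsLocalRing.of_surjective' _ Ideal.Quotient.mk_surjective
  have : IsLocalHom (Ideal.Quotient.mk P) :=
    .of_surjective _ Ideal.Quotient.mk_surjective
  set mN := maximalIdeal (MvPowerSeries τ O)
  have : IsAdicComplete mN (MvPowerSeries τ O) := Fermat.Agent.Deform.isAdicComplete_mvPowerSeries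
  -- the parameters and the maximal ideal of the base land in the maximal ideal
  have hmap : mN.map g ≤ maximalIdeal B := by
    rw [Ideal.map_le_iff_le_comap]
    intro f hf
    rw [Fermat.Agent.Deform.mem_maximalIdeal_iff] at hf
    have hsplit : f = algebraMap O _ (constantCoeff f) + (f - algebraMap O _ (constantCoeff f)) := by
      ring
    rw [Ideal.mem_comap, hsplit, map_add]
    refine add_mem ?_ ?_
    · rw [RingHom.comp_apply, AlgHom.toRingHom_eq_coe, RingHom.coe_coe, φ.commutes]
      refine map_nonunit _ _ ?_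
      rw [Fermat.Agent.Deform.mem_maximalIdeal_iff, MvPowerSeries.algebraMap_apply]
      simpa using hf
    · have h1 : f - algebraMap O _ (constantCoeff f) ∈
          Ideal.span (Set.range (X : τ → MvPowerSeries τ O)) := by
        rw [← pow_one (Ideal.span _)]
        refine mem_span_X_pow_of_coeff_eq_zero fun d hd => ?_
        rw [(Finsupp.degree_eq_zero_iff d).mp (by omega)]
        simp [MvPowerSeries.algebraMap_apply]
      refine SetLike.le_def.mp ?_ (Ideal.mem_map_of_mem g h1)
      rw [Ideal.map_span, Ideal.span_le]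
      rintro _ ⟨_, ⟨t, rfl⟩, rfl⟩
      exact map_nonunit (Ideal.Quotient.mk P) _ (hφ t)
  have : IsHausdorff mN B := by
    rw [← IsHausdorff.map_algebraMap_iff (S := B)]
    exact IsHausdorff.of_isLocalRing (R := B) _ B
      (ne_top_of_le_ne_top (maximalIdeal.isMaximal B).ne_top hmap)
  -- a power of the ideal of variables lies in the big ideal
  set I := P ⊔ (maximalIdeal O).map (algebraMap O (MvPowerSeries σ O)) ⊔
    Ideal.span (Set.range fun t => φ (X t))
  obtain ⟨K, hK⟩ : ∃ K, Ideal.span (Set.range (X : σ → MvPowerSeries σ O)) ^ K ≤ I := by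
    refine Ideal.exists_pow_le_of_le_radical_of_fg (Ideal.span_le.mpr ?_)
      (Submodule.fg_span (Set.finite_range _))
    rintro _ ⟨s, rfl⟩
    exact hnil s
  -- monomials of degree `< K`
  have : Finite {d : σ →₀ ℕ // d.degree < K} := (Finsupp.finite_of_degree_lt K).to_subtype
  have := Fintype.ofFinite {d : σ →₀ ℕ // d.degree < K}
  let f : ({d : σ →₀ ℕ // d.degree < K} → MvPowerSeries τ O) →ₗ[MvPowerSeries τ O] B :=
    Fintype.linearCombination _ fun d => Ideal.Quotient.mk P (monomial d.1 (1 : O))
  have : IsPrecomplete mN ({d : σ →₀ ℕ // d.degree < K} → MvPowerSeries τ O) :=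
    isPrecomplete_pi _
  have hI : I.map (Ideal.Quotient.mk P) ≤ mN.map g := by
    rw [Ideal.map_sup, Ideal.map_sup, Ideal.map_quotient_self, bot_sup_eq, Ideal.map_map,
      Ideal.map_span]
    refine sup_le ?_ ?_
    · rw [Ideal.map_le_iff_le_comap]
      intro c hc
      rw [Ideal.mem_comap]
      have h := Ideal.mem_map_of_mem g (I := mN) (x := algebraMap O _ c) (by
        rw [Fermat.Agent.Deform.mem_maximalIdeal_iff, MvPowerSeries.algebraMap_apply]
        simpa using hc)
      simpa [g] using h
    · rw [Ideal.span_le]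
      rintro _ ⟨_, ⟨t, rfl⟩, rfl⟩
      exact Ideal.mem_map_of_mem g (by
        rw [Fermat.Agent.Deform.mem_maximalIdeal_iff, constantCoeff_X]
        exact zero_mem _)
  have hsurj : Function.Surjective f := by
    refine surjective_of_mkQ_comp_surjective (I := mN) ?_
    intro y
    obtain ⟨y, rfl⟩ := Submodule.mkQ_surjective _ y
    obtain ⟨y, rfl⟩ := Ideal.Quotient.mk_surjective y
    refine ⟨fun d => algebraMap O _ (coeff d.1 y), ?_⟩
    rw [LinearMap.comp_apply, Submodule.mkQ_apply, Submodule.mkQ_apply, Submodule.Quotient.eq,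
      Ideal.smul_top_eq_map, Submodule.restrictScalars_mem]
    have hdiff : (∑ d : {d : σ →₀ ℕ // d.degree < K}, algebraMap O _ (coeff d.1 y) *
        monomial d.1 (1 : O)) - y ∈ I := by
      refine hK (mem_span_X_pow_of_coeff_eq_zero fun e he => ?_)
      rw [map_sub, map_sum, Finset.sum_eq_single ⟨e, he⟩]
      · simp [MvPowerSeries.algebraMap_apply]
      · intro b _ hb
        have : e ≠ b.1 := fun h => hb (Subtype.ext h.symm)
        simp [MvPowerSeries.algebraMap_apply, coeff_monomial, this]
      · simp
    have := hI (Ideal.mem_map_of_mem (Ideal.Quotient.mk P) hdiff)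
    rw [map_sub, map_sum] at this
    have hfy : f (fun d => algebraMap O _ (coeff d.1 y)) =
        ∑ x : {d : σ →₀ ℕ // d.degree < K}, Ideal.Quotient.mk P
          (algebraMap O (MvPowerSeries σ O) (coeff x.1 y) * monomial x.1 (1 : O)) := by
      simp only [f, Fintype.linearCombination_apply, Algebra.smul_def]
      refine Finset.sum_congr rfl fun x _ => ?_
      rw [map_mul]
      congr 1
      show g _ = _
      simp [g]
    rw [hfy]
    exact this
  exact Module.Finite.of_surjective f hsurj

end Fermat.Agent.LL
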