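import Fermat.Agent.LL.Levels
import Fermat.Agent.LL.Galois.DefRing
import Fermat.Agent.LL.Galois.Relations
import Fermat.Agent.Tangent.PowerSeries
import Mathlib.RingTheory.MvPowerSeries.Rename
import Mathlib.FieldTheory.Finite.Basic
import Mathlib.NumberTheory.Padics.PadicVal.Basic

/-!
# No minimal level has a hard prime

`false_of_setting`: auxiliary primes and congruent modules contradict the existence of a setting.
-/

set_option autoImplicit false

noncomputable section

open IsLocalRing MvPowerSeries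

namespace Fermat.Agent.LL

section Pull

variable {A B : Type} [CommRing A] [CommRing B] (γ : A →+* B) {M : Type} [AddCommGroup M]
  [Module B M] [Module A M] (hM : ∀ (a : A) (m : M), a • m = γ a • m)

include hM

lemma mem_smul_top_of_map (hγ : Function.Surjective γ) {I : Ideal A} {J : Ideal B}
    (hJ : J ≤ I.map γ) {m : M} (hm : m ∈ J • (⊤ : Submodule B M)) :
    m ∈ I • (⊤ : Submodule A M) := by
  refine Submodule.smul_induction_on hm (fun r hr x _ => ?_) fun x y hx hy => add_mem hx hy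
  obtain ⟨r', hr', rfl⟩ := (Ideal.mem_map_iff_of_surjective γ hγ).mp (hJ hr)
  rw [← hM]
  exact Submodule.smul_mem_smul hr' Submodule.mem_top

lemma map_mem_smul_top {I : Ideal A} {J : Ideal B} (hJ : I.map γ ≤ J) {m : M}
    (hm : m ∈ I • (⊤ : Submodule A M)) : m ∈ J • (⊤ : Submodule B M) := by
  refine Submodule.smul_induction_on hm (fun r hr x _ => ?_) fun x y hx hy => add_mem hx hy
  rw [hM]
  exact Submodule.smul_mem_smul (hJ (Ideal.mem_map_of_mem γ hr)) Submodule.mem_top

end Pull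

/-- Congruence maps pull back along surjections. -/
lemma exists_congr_pull {A B : Type} [CommRing A] [CommRing B] (γ : A →+* B)
    (hγ : Function.Surjective γ) {M₀ M₁ : Type} [AddCommGroup M₀] [AddCommGroup M₁]
    [Module B M₀] [Module B M₁] [Module A M₀] [Module A M₁]
    (h₀ : ∀ (a : A) (m : M₀), a • m = γ a • m) (h₁ : ∀ (a : A) (m : M₁), a • m = γ a • m)
    (I : Ideal A) (J : Ideal B) (hIJ : I.map γ = J)
    (h : ∃ f : M₀ →ₗ[B] M₁ ⧸ (J • (⊤ : Submodule B M₁)), Function.Surjective f ∧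
      LinearMap.ker f = J • ⊤) :
    ∃ f : M₀ →ₗ[A] M₁ ⧸ (I • (⊤ : Submodule A M₁)), Function.Surjective f ∧
      LinearMap.ker f = I • ⊤ := by
  obtain ⟨f, hf, hker⟩ := h
  choose g hg using fun m => Submodule.mkQ_surjective (J • (⊤ : Submodule B M₁)) (f m)
  have hmk : ∀ x y : M₁, Submodule.mkQ (J • (⊤ : Submodule B M₁)) x = Submodule.mkQ _ y →
      Submodule.mkQ (I • (⊤ : Submodule A M₁)) x = Submodule.mkQ _ y := fun x y hxy => by
    rw [Submodule.mkQ_apply, Submodule.mkQ_apply, Submodule.Quotient.eq] at hxy ⊢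
    exact mem_smul_top_of_map γ h₁ hγ hIJ.ge hxy
  refine ⟨{ toFun := fun m => Submodule.mkQ (I • (⊤ : Submodule A M₁)) (g m)
            map_add' := fun x y => ?_, map_smul' := fun a x => ?_ }, fun q => ?_, ?_⟩
  · rw [← map_add]
    exact hmk _ _ (by rw [hg, map_add, map_add, hg, hg])
  · rw [RingHom.id_apply, ← map_smul, h₁]
    exact hmk _ _ (by rw [hg, h₀, map_smul, map_smul, hg])
  · obtain ⟨y, rfl⟩ := Submodule.mkQ_surjective _ q
    obtain ⟨m, hm⟩ := hf (Submodule.mkQ _ y)
    exact ⟨m, hmk _ _ ((hg m).trans hm)⟩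
  · ext m
    rw [LinearMap.mem_ker]
    show Submodule.mkQ _ (g m) = 0 ↔ _
    rw [Submodule.mkQ_apply, Submodule.Quotient.mk_eq_zero]
    have hgm : g m ∈ J • (⊤ : Submodule B M₁) ↔ m ∈ LinearMap.ker f := by
      rw [LinearMap.mem_ker, ← hg, Submodule.mkQ_apply, Submodule.Quotient.mk_eq_zero]
    rw [hker] at hgm
    exact ⟨fun h => mem_smul_top_of_map γ h₀ hγ hIJ.ge (hgm.mp (map_mem_smul_top γ h₁ hIJ.le h)),
      fun h => mem_smul_top_of_map γ h₁ hγ hIJ.ge (hgm.mpr (map_mem_smul_top γ h₀ hIJ.le h))⟩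

namespace Setting

variable (U : Setting)

lemma two_unit : IsUnit (2 : U.O) := by
  by_contra h
  have h2 : (2 : U.O) ∈ maximalIdeal U.O := h
  obtain ⟨m, hm⟩ := ((Fact.out : U.p.Prime).odd_of_ne_two U.two_ne_p)
  have h1 := sub_mem U.p_mem (Ideal.mul_mem_right (m : U.O) _ h2)
  rw [hm] at h1
  push_cast at h1
  rw [add_sub_cancel_left] at h1
  exact (maximalIdeal.isMaximal U.O).ne_top ((Ideal.eq_top_iff_one _).mpr h1)

lemma hard_sub_one_mem (i : U.Idx) : (i.1 : U.O) - 1 ∈ maximalIdeal U.O := by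
  obtain ⟨c, hc⟩ := (Nat.modEq_iff_dvd' (U.hard_prime i).one_le).mp (U.one_mod i.1 i.2).symm
  rw [← Nat.cast_one (R := U.O), ← Nat.cast_sub (U.hard_prime i).one_le, hc, Nat.cast_mul]
  exact Ideal.mul_mem_right _ _ U.p_mem

lemma residue_eq_one_of_pow {ζ : U.O} {a : ℕ} (h : ζ ^ U.p ^ a = 1) : residue U.O ζ = 1 := by
  have : CharP (ResidueField U.O) U.p := (CharP.charP_iff_prime_eq_zero Fact.out).mpr (by
    rw [← map_natCast (residue U.O)]
    exact (residue_eq_zero_iff _).mpr U.p_mem)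
  have h1 := congrArg (residue U.O) h
  rw [map_pow, map_one, ← sub_eq_zero] at h1
  rw [← sub_eq_zero]
  refine eq_zero_of_pow_eq_zero (n := U.p ^ a) ?_
  rw [sub_pow_char_pow, one_pow, h1]

end Setting

set_option maxHeartbeats 1600000 in
-- one long construction
/-- A minimal level has no hard prime. -/
theorem false_of_setting (hP : StmtPrimes) (hM : StmtPair) (U : Setting) : False := by
  classical
  obtain ⟨g, hg⟩ := hP U
  let i₀ : U.Idx := ⟨_, U.hard_nonempty.choose_spec⟩
  obtain ⟨d, e, k, hd, hpair⟩ := hM U i₀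
  obtain ⟨half, hhalf⟩ := U.two_unit.exists_right_inv
  set a := padicValNat U.p (i₀.1 - 1) with ha
  set pa := U.p ^ a with hpa
  have hpa1 : 1 ≤ pa := Nat.one_le_pow _ _ (Fact.out : U.p.Prime).pos
  have hfin : {ζ : U.O | ζ ^ pa = 1 ∧ ζ ≠ 1}.Finite := by
    refine (Polynomial.finite_setOfPred_isRoot (p := (Polynomial.X : Polynomial U.O) ^ pa - 1)
      (by
        have h := Polynomial.X_pow_sub_C_ne_zero (R := U.O) hpa1 1
        rwa [map_one] at h)).subset fun ζ hζ => ?_
    simp [hζ.1]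
  let eq : Fin (U.nPar g) ≃ ParVar U.Idx (Fin g) := (Fintype.equivFinOfCardEq (by
    simp [Setting.nPar, mul_comm])).symm
  let 𝔞 : ℕ → Ideal (MvPowerSeries (ParVar U.Idx (Fin g)) U.O) := fun n =>
    Ideal.span (Set.range fun t => (1 + X t) ^ U.p ^ n - 1)
  -- data at level `n`
  have hlevel : ∀ n, ∃ L : PatchLevel U.O (LocVar U.Idx (Fin g)) (ParVar U.Idx (Fin g)) d (𝔞 n),
      (∀ i : U.Idx, ModRel (O := U.O) (G := Fin g) i.1 i L.M₀) ∧
      (∀ i : U.Idx, ModRel (O := U.O) (G := Fin g) i.1 i L.M₁) ∧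
      (∀ (i : U.Idx) (m : L.M₀), ((univSig (G := Fin g) U.O i).trace - 2) ^ e • m ∈
        levelZeroIdeal L.ψ • (⊤ : Submodule (MvPowerSeries (LocVar U.Idx (Fin g)) U.O) L.M₀)) ∧
      (∀ m : L.M₀, (algebraMap U.O (MvPowerSeries (LocVar U.Idx (Fin g)) U.O) (U.p : U.O)) ^ k • m ∈
        (Ideal.span (Set.range fun ab : Fin 2 × Fin 2 => ((univSig U.O i₀ - 1 :
          Matrix (Fin 2) (Fin 2) (MvPowerSeries (LocVar U.Idx (Fin g)) U.O))) ab.1 ab.2) ⊔
          levelZeroIdeal L.ψ) •
          (⊤ : Submodule (MvPowerSeries (LocVar U.Idx (Fin g)) U.O) L.M₀)) ∧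
      (∀ (i : U.Idx), i ≠ i₀ → ∀ m : L.M₁, ((univSig (G := Fin g) U.O i).trace - 2) ^ e • m ∈
        levelZeroIdeal L.ψ • (⊤ : Submodule (MvPowerSeries (LocVar U.Idx (Fin g)) U.O) L.M₁)) ∧
      ∀ m : L.M₁, (∏ ζ ∈ hfin.toFinset, ((univSig (G := Fin g) U.O i₀).trace -
          algebraMap U.O _ (ζ + ζ ^ (pa - 1)))) ^ e • m ∈
        levelZeroIdeal L.ψ • (⊤ : Submodule (MvPowerSeries (LocVar U.Idx (Fin g)) U.O) L.M₁) := by
    intro n
    obtain ⟨qv, haux, hpres⟩ := hg n
    obtain ⟨D⟩ := U.nonempty_deformationRingData qv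
    obtain ⟨γ, hγ, hb⟩ := hpres D
    choose b hbΦ hbS using hb
    obtain ⟨Pr⟩ := hpair n _ qv haux D
    let γr : MvPowerSeries (LocVar U.Idx (Fin g)) U.O →+* D.R := γ.toRingHom
    let : Module (MvPowerSeries (LocVar U.Idx (Fin g)) U.O) Pr.M₀ := Module.compHom _ γr
    let : Module (MvPowerSeries (LocVar U.Idx (Fin g)) U.O) Pr.M₁ := Module.compHom _ γr
    have h₀ : ∀ (f : MvPowerSeries (LocVar U.Idx (Fin g)) U.O) (m : Pr.M₀), f • m = γr f • m :=
      fun _ _ => rfl
    have h₁ : ∀ (f : MvPowerSeries (LocVar U.Idx (Fin g)) U.O) (m : Pr.M₁), f • m = γr f • m :=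
      fun _ _ => rfl
    choose v hv using fun t => hγ (Pr.u (eq.symm t))
    have hvm : ∀ t, v t ∈ maximalIdeal (MvPowerSeries (LocVar U.Idx (Fin g)) U.O) := fun t hu => by
      have := hu.map γ
      rw [hv] at this
      exact Pr.u_mem _ this
    have : IsAdicComplete (maximalIdeal (MvPowerSeries (LocVar U.Idx (Fin g)) U.O))
        (MvPowerSeries (LocVar U.Idx (Fin g)) U.O) :=
      Fermat.Agent.Deform.isAdicComplete_mvPowerSeries
    obtain ⟨ψ, hψ⟩ := Fermat.Agent.Tangent.exists_algHom_mvPowerSeries_of_mem (𝒪 := U.O) _ v hvm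
    let α : MvPowerSeries (Fin (U.nPar g)) U.O →ₐ[U.O] D.R :=
      (γ.comp ψ).comp (renameEquiv U.O eq).toAlgHom
    have hα : ∀ j, α (X j) = Pr.u j := fun j => by
      show γ (ψ (renameEquiv U.O eq (X j))) = _
      rw [show renameEquiv U.O eq (X j : MvPowerSeries (Fin (U.nPar g)) U.O) = X (eq j) by
        simp [renameEquiv], hψ, hv, Equiv.symm_apply_apply]
    have hframe : ∀ (M : Type) [AddCommGroup M] [Module D.R M]
        [Module (MvPowerSeries (LocVar U.Idx (Fin g)) U.O) M],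
        (∀ (f : MvPowerSeries (LocVar U.Idx (Fin g)) U.O) (m : M), f • m = γr f • m) →
        IsFreeLevel (O := U.O) U.p n d Pr.u M →
        ∃ b : Fin d → M, IsFrame (ψ : MvPowerSeries (ParVar U.Idx (Fin g)) U.O →+*
          MvPowerSeries (LocVar U.Idx (Fin g)) U.O) (𝔞 n) b := by
      intro M _ _ _ hM hfree
      obtain ⟨b, hb⟩ := hfree
      obtain ⟨hsurj, hker⟩ := hb α hα
      have hc : ∀ f : Fin d → MvPowerSeries (ParVar U.Idx (Fin g)) U.O,
          comb (ψ : MvPowerSeries (ParVar U.Idx (Fin g)) U.O →+*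
            MvPowerSeries (LocVar U.Idx (Fin g)) U.O) b f =
          ∑ j, α ((renameEquiv U.O eq).symm (f j)) • b j := fun f => by
        refine Finset.sum_congr rfl fun j _ => ?_
        rw [hM]
        show γ (ψ (f j)) • _ = γ (ψ (renameEquiv U.O eq ((renameEquiv U.O eq).symm (f j)))) • _
        rw [AlgEquiv.apply_symm_apply]
      refine ⟨b, fun m => ?_, fun f => ?_⟩
      · obtain ⟨f, rfl⟩ := hsurj m
        exact ⟨fun j => renameEquiv U.O eq (f j), by simp [hc]⟩
      · rw [hc, hker]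
        have hmap : (Ideal.span (Set.range fun i : Fin (U.nPar g) =>
            (1 + X i : MvPowerSeries (Fin (U.nPar g)) U.O) ^ U.p ^ n - 1)).map
              (renameEquiv U.O eq : MvPowerSeries (Fin (U.nPar g)) U.O →+*
                MvPowerSeries (ParVar U.Idx (Fin g)) U.O) = 𝔞 n := by
          rw [Ideal.map_span, ← Set.range_comp]
          refine congrArg _ (Set.ext fun x => ⟨?_, ?_⟩)
          · rintro ⟨i, rfl⟩
            exact ⟨eq i, by simp [renameEquiv]⟩
          · rintro ⟨t, rfl⟩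
            exact ⟨eq.symm t, by simp [renameEquiv]⟩
        refine forall_congr' fun j => ?_
        rw [← hmap]
        constructor
        · intro h
          have := Ideal.mem_map_of_mem (renameEquiv U.O eq : MvPowerSeries (Fin (U.nPar g)) U.O →+*
                MvPowerSeries (ParVar U.Idx (Fin g)) U.O) h
          simpa using this
        · intro h
          obtain ⟨x, hx, hxe⟩ := (Ideal.mem_map_iff_of_surjective
            (renameEquiv U.O eq : MvPowerSeries (Fin (U.nPar g)) U.O →+*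
                MvPowerSeries (ParVar U.Idx (Fin g)) U.O) (renameEquiv U.O eq).surjective).mp h
          rw [← hxe]
          simpa using hx
    obtain ⟨b₀, hb₀⟩ := hframe Pr.M₀ h₀ Pr.free₀
    obtain ⟨b₁, hb₁⟩ := hframe Pr.M₁ h₁ Pr.free₁
    have hpi : ((maximalIdeal U.O).map (algebraMap U.O
        (MvPowerSeries (LocVar U.Idx (Fin g)) U.O))).map γr =
        (maximalIdeal U.O).map (algebraMap U.O D.R) := by
      rw [Ideal.map_map]
      congr 1
      exact RingHom.ext fun c => γ.commutes c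
    have hlz : Ideal.span (Set.range Pr.u) ≤ (levelZeroIdeal ψ).map γr := by
      rw [Ideal.span_le]
      rintro _ ⟨j, rfl⟩
      have := Ideal.mem_map_of_mem γr (Ideal.subset_span ⟨eq j, rfl⟩ :
        ψ (X (eq j)) ∈ levelZeroIdeal ψ)
      rwa [hψ, show γr (v (eq j)) = Pr.u j by
        show γ (v (eq j)) = _
        rw [hv, Equiv.symm_apply_apply]] at this
    have htr : ∀ i, γr ((univSig (G := Fin g) U.O i).trace) = trAt D.ρ (U.tame i) := fun i => by
      rw [trAt, LinearMap.trace_eq_matrix_trace D.R (b i), ← hbS, Matrix.trace_fin_two,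
        Matrix.trace_fin_two, map_add, Matrix.map_apply, Matrix.map_apply]
      rfl
    refine ⟨⟨Pr.M₀, Pr.M₁, ψ, b₀, b₁, hb₀, hb₁,
        exists_congr_pull γr hγ h₀ h₁ _ _ hpi Pr.congr⟩,
      fun i => U.modRel i γr (b i) (hbΦ i) (hbS i) _ h₀,
      fun i => U.modRel i γr (b i) (hbΦ i) (hbS i) _ h₁, fun i m => ?_, fun m => ?_,
      fun i hi m => ?_, fun m => ?_⟩
    · refine mem_smul_top_of_map γr h₀ hγ hlz ?_
      rw [h₀, map_pow, map_sub, map_ofNat, htr]
      exact Pr.trace₀ i m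
    · refine mem_smul_top_of_map γr h₀ hγ (J := Ideal.span (Set.range fun σ =>
        trAt D.ρ (U.tame i₀ * σ) - trAt D.ρ σ) ⊔ Ideal.span (Set.range Pr.u)) ?_ ?_
      · rw [Ideal.map_sup]
        refine sup_le_sup ?_ hlz
        rw [Ideal.span_le]
        rintro _ ⟨σ, rfl⟩
        set T := LinearMap.toMatrix (b i₀) (b i₀) (D.ρ.ρ (U.tame i₀))
        set S := LinearMap.toMatrix (b i₀) (b i₀) (D.ρ.ρ σ)
        have heq : trAt D.ρ (U.tame i₀ * σ) - trAt D.ρ σ = ((T - 1) * S).trace := by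
          rw [trAt, trAt, map_mul, LinearMap.trace_eq_matrix_trace D.R (b i₀),
            LinearMap.trace_eq_matrix_trace D.R (b i₀), LinearMap.toMatrix_mul, sub_mul, one_mul,
            Matrix.trace_sub]
        show trAt D.ρ (U.tame i₀ * σ) - trAt D.ρ σ ∈ _
        rw [heq, Matrix.trace]
        refine Ideal.sum_mem _ fun x _ => ?_
        rw [Matrix.diag_apply, Matrix.mul_apply]
        refine Ideal.sum_mem _ fun y _ => Ideal.mul_mem_right _ _ ?_
        have h := Ideal.mem_map_of_mem γr (Ideal.subset_span ⟨(x, y), rfl⟩ :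
          ((univSig U.O i₀ - 1 : Matrix (Fin 2) (Fin 2)
            (MvPowerSeries (LocVar U.Idx (Fin g)) U.O))) x y ∈ Ideal.span (Set.range
              fun ab : Fin 2 × Fin 2 => ((univSig U.O i₀ - 1 : Matrix (Fin 2) (Fin 2)
                (MvPowerSeries (LocVar U.Idx (Fin g)) U.O))) ab.1 ab.2))
        convert h using 1
        rw [show T = (univSig (G := Fin g) U.O i₀).map γr from (hbS i₀).symm, Matrix.sub_apply,
          Matrix.sub_apply, map_sub, Matrix.map_apply]
        congr 1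
        rcases Decidable.eq_or_ne x y with rfl | hxy
        · simp
        · simp [Matrix.one_apply_ne hxy]
      · rw [h₀, map_pow, show γr (algebraMap U.O _ (U.p : U.O)) = algebraMap U.O D.R (U.p : U.O)
          from γ.commutes _]
        exact Pr.nontriv m
    · refine mem_smul_top_of_map γr h₁ hγ hlz ?_
      rw [h₁, map_pow, map_sub, map_ofNat, htr]
      exact Pr.trace₁ i hi m
    · refine mem_smul_top_of_map γr h₁ hγ hlz ?_
      rw [h₁, map_pow, map_prod]
      have hm := Pr.finiteOrder₁ m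
      rw [← ha, ← hpa, finprod_mem_eq_finite_toFinset_prod _ hfin] at hm
      refine Eq.mp ?_ hm
      congr 3
      refine Finset.prod_congr rfl fun ζ _ => ?_
      rw [map_sub, htr]
      exact congrArg _ (γ.commutes _).symm
  choose L hrel₀ hrel₁ htr₀ hnt htr₁ hprod using hlevel
  refine false_of_levels half hhalf (fun i : U.Idx => i.1) (fun i => (U.hard_prime i).two_le)
    (fun i => Nat.cast_ne_zero.mpr (U.hard_prime i).ne_zero) U.hard_sub_one_mem i₀
    (fun h => (U.hard_prime i₀).ne_one (Nat.cast_eq_one.mp h)) (U.p : U.O)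
    (Nat.cast_ne_zero.mpr (Fact.out : U.p.Prime).ne_zero) hfin.toFinset
    (fun ζ => ζ + ζ ^ (pa - 1)) (fun ζ hζ => ?_) d e k hd 𝔞 (fun n => ?_) L hrel₀ hrel₁ htr₀ hnt
    htr₁ hprod
  · rw [Set.Finite.mem_toFinset] at hζ
    obtain ⟨hζ1, hζne⟩ := hζ
    have hres : residue U.O ζ = 1 := U.residue_eq_one_of_pow hζ1
    refine ⟨ζ, ζ ^ (pa - 1), rfl, ?_, ?_, ?_, ?_, ?_⟩
    · rw [← pow_succ', Nat.sub_add_cancel hpa1, hζ1]
    · intro h
      have h2 : ζ ^ 2 = 1 := by
        conv_lhs => rw [pow_two]; arg 2; rw [h]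
        rw [← pow_succ', Nat.sub_add_cancel hpa1, hζ1]
      refine hζne ?_
      obtain ⟨m, hm⟩ : Odd pa :=
        ((Fact.out : U.p.Prime).odd_of_ne_two U.two_ne_p).pow
      rw [hm, pow_succ, pow_mul, h2, one_pow, one_mul] at hζ1
      exact hζ1
    · rw [← residue_eq_zero_iff, map_sub, map_pow, hres, one_pow, sub_self]
    · obtain ⟨c, hc⟩ : pa ∣ i₀.1 - 1 := pow_padicValNat_dvd
      calc ζ ^ i₀.1 = ζ ^ (pa * c + 1) := by
            rw [← hc, Nat.sub_add_cancel (U.hard_prime i₀).one_le]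
        _ = ζ := by rw [pow_succ, pow_mul, hζ1, one_pow, one_mul]
    · rw [← residue_eq_zero_iff, map_sub, map_add, map_pow, hres, one_pow, map_ofNat]
      ring
  · refine Ideal.span_le.mpr ?_
    rintro _ ⟨t, rfl⟩
    refine Fermat.Agent.Patching.one_add_pow_prime_pow_sub_one_mem ?_ ?_ n
    · have := Ideal.mem_map_of_mem (algebraMap U.O (MvPowerSeries (ParVar U.Idx (Fin g)) U.O))
        U.p_mem
      rw [map_natCast] at this
      exact piIdeal_le_maximalIdeal _ this
    · rw [mem_maximalIdeal, mem_nonunits_iff, MvPowerSeries.isUnit_iff_constantCoeff,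
        constantCoeff_X]
      exact not_isUnit_zero

end Fermat.Agent.LL
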