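import Fermat.Agent.LL.Patch
import Fermat.Agent.LL.Core

/-!
# Ihara avoidance from finite levels

`false_of_levels`: congruent pairs of framed modules at every level cannot have unipotent nowhere
trivial inertia at level zero on one side and inertia of exact finite order on the other.
-/

set_option autoImplicit false

noncomputable section

namespace Fermat.Agent.LL

open IsLocalRing MvPowerSeries Matrix

section PatchedMod

variable {A N : Type} [CommRing A] [CommRing N] {d : ℕ}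

/-- `N ^ d` with `A` acting through matrices. -/
def PatchedMod (_Θ : A →+* Matrix (Fin d) (Fin d) N) : Type := Fin d → N

variable (Θ : A →+* Matrix (Fin d) (Fin d) N)

instance : AddCommGroup (PatchedMod Θ) := inferInstanceAs (AddCommGroup (Fin d → N))

instance : Module N (PatchedMod Θ) := inferInstanceAs (Module N (Fin d → N))

instance : Module.Free N (PatchedMod Θ) := inferInstanceAs (Module.Free N (Fin d → N))

instance : Module.Finite N (PatchedMod Θ) := inferInstanceAs (Module.Finite N (Fin d → N))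

instance : Module A (PatchedMod Θ) :=
  Module.compHom (Fin d → N) (Matrix.toLinAlgEquiv'.toRingEquiv.toRingHom.comp Θ)

/-- The coordinates. -/
def patchedFun (m : PatchedMod Θ) : Fin d → N := m

/-- The standard frame. -/
def patchedStd (j : Fin d) : PatchedMod Θ := (Pi.single j 1 : Fin d → N)

lemma patchedFun_smul (a : A) (m : PatchedMod Θ) :
    patchedFun Θ (a • m) = Θ a *ᵥ patchedFun Θ m := rfl

lemma patchedFun_inj {m m' : PatchedMod Θ} (h : patchedFun Θ m = patchedFun Θ m') : m = m' := h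

lemma nontrivial_patched [Nontrivial N] (hd : 0 < d) : Nontrivial (PatchedMod Θ) :=
  haveI : Nonempty (Fin d) := ⟨⟨0, hd⟩⟩
  inferInstanceAs (Nontrivial (Fin d → N))

lemma patchedFun_sum {κ : Type*} (s : Finset κ) (f : κ → PatchedMod Θ) :
    patchedFun Θ (∑ i ∈ s, f i) = ∑ i ∈ s, patchedFun Θ (f i) := by
  classical
  induction s using Finset.induction with
  | empty => rfl
  | insert i s hi ih => rw [Finset.sum_insert hi, Finset.sum_insert hi, ← ih]; rfl

lemma patchedFun_add (m m' : PatchedMod Θ) :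
    patchedFun Θ (m + m') = patchedFun Θ m + patchedFun Θ m' := rfl

variable {Θ} {ψ : N →+* A} (hψ : ∀ s, Θ (ψ s) = s • 1)

include hψ

lemma patched_compat (s : N) (m : PatchedMod Θ) : s • m = ψ s • m := by
  refine patchedFun_inj Θ ?_
  rw [patchedFun_smul, hψ, Matrix.smul_mulVec, Matrix.one_mulVec]
  rfl

lemma patchedFun_comb (f : Fin d → N) : patchedFun Θ (comb ψ (patchedStd Θ) f) = f := by
  simp only [comb, patchedFun_sum, ← patched_compat hψ]
  exact (eq_sum_single f).symm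

lemma patched_frame : IsFrame ψ ⊥ (patchedStd Θ) := by
  refine ⟨fun m => ⟨patchedFun Θ m, patchedFun_inj Θ (patchedFun_comb hψ _)⟩, fun f => ?_⟩
  constructor
  · intro h j
    rw [Ideal.mem_bot, ← patchedFun_comb hψ f, h]
    rfl
  · intro h
    refine patchedFun_inj Θ ?_
    rw [patchedFun_comb hψ, funext fun j => Ideal.mem_bot.mp (h j)]
    rfl

lemma patched_mem {J : Ideal N} {κ : Type} [Fintype κ] {a : A} {S : κ → A}
    {C : κ → Matrix (Fin d) (Fin d) N} (hC : ∀ i j, (Θ a - ∑ s, Θ (S s) * C s) i j ∈ J)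
    (m : PatchedMod Θ) :
    a • m ∈ Ideal.span (Set.range S) • (⊤ : Submodule A (PatchedMod Θ)) ⊔
      J.map ψ • (⊤ : Submodule A (PatchedMod Θ)) := by
  have h1 : a • m = (∑ s, S s • comb ψ (patchedStd Θ) (C s *ᵥ patchedFun Θ m)) +
      comb ψ (patchedStd Θ) ((Θ a - ∑ s, Θ (S s) * C s) *ᵥ patchedFun Θ m) := by
    refine patchedFun_inj Θ ?_
    rw [patchedFun_add, patchedFun_sum, patchedFun_comb hψ, patchedFun_smul]
    simp only [patchedFun_smul, patchedFun_comb hψ, Matrix.mulVec_mulVec]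
    rw [Matrix.sub_mulVec, ← Matrix.sum_mulVec, add_sub_cancel]
  rw [h1]
  refine Submodule.add_mem_sup ?_ ?_
  · exact Submodule.sum_mem _ fun s _ =>
      Submodule.smul_mem_smul (Ideal.subset_span (Set.mem_range_self s)) Submodule.mem_top
  · refine Submodule.sum_mem _ fun j _ =>
      Submodule.smul_mem_smul (Ideal.mem_map_of_mem ψ ?_) Submodule.mem_top
    rw [Matrix.mulVec, dotProduct]
    exact Ideal.sum_mem _ fun l _ => Ideal.mul_mem_right _ _ (hC j l)

end PatchedMod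

variable {O : Type} [CommRing O] [IsDomain O] [IsDiscreteValuationRing O]
  [IsAdicComplete (maximalIdeal O) O] [Finite (ResidueField O)] {ι G : Type} [Finite ι] [Finite G]

/-- **Ihara avoidance from finite levels.** -/
theorem false_of_levels (half : O) (hhalf : 2 * half = 1) (q : ι → ℕ) (hq2 : ∀ i, 2 ≤ q i)
    (hq0 : ∀ i, (q i : O) ≠ 0) (hq : ∀ i, (q i : O) - 1 ∈ maximalIdeal O) (i₀ : ι)
    (hq1 : (q i₀ : O) ≠ 1) (ϖ : O) (hϖ : ϖ ≠ 0) {κ : Type} (Z : Finset κ) (z : κ → O)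
    (hZ : ∀ c ∈ Z, ∃ ζ ζ' : O, z c = ζ + ζ' ∧ ζ * ζ' = 1 ∧ ζ ≠ ζ' ∧ ζ - ζ' ∈ maximalIdeal O ∧
      ζ ^ q i₀ = ζ ∧ ζ + ζ' - 2 ∈ maximalIdeal O)
    (d e k : ℕ) (hd : 0 < d) (𝔞 : ℕ → Ideal (MvPowerSeries (ParVar ι G) O))
    (h𝔞 : ∀ n, 𝔞 n ≤ maximalIdeal (MvPowerSeries (ParVar ι G) O) ^ (n + 1))
    (L : ∀ n, PatchLevel O (LocVar ι G) (ParVar ι G) d (𝔞 n))
    (hrel₀ : ∀ n i, ModRel (O := O) (G := G) (q i) i (L n).M₀)
    (hrel₁ : ∀ n i, ModRel (O := O) (G := G) (q i) i (L n).M₁)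
    (htr₀ : ∀ n (i : ι) (m : (L n).M₀), ((univSig (G := G) O i).trace - 2) ^ e • m ∈
      levelZeroIdeal (L n).ψ • (⊤ : Submodule (MvPowerSeries (LocVar ι G) O) (L n).M₀))
    (hnt : ∀ n (m : (L n).M₀), (algebraMap O (MvPowerSeries (LocVar ι G) O) ϖ) ^ k • m ∈
      (Ideal.span (Set.range fun ab : Fin 2 × Fin 2 => ((univSig O i₀ - 1 :
        Matrix (Fin 2) (Fin 2) (MvPowerSeries (LocVar ι G) O))) ab.1 ab.2) ⊔
        levelZeroIdeal (L n).ψ) • (⊤ : Submodule (MvPowerSeries (LocVar ι G) O) (L n).M₀))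
    (htr₁ : ∀ n (i : ι), i ≠ i₀ → ∀ m : (L n).M₁, ((univSig (G := G) O i).trace - 2) ^ e • m ∈
      levelZeroIdeal (L n).ψ • (⊤ : Submodule (MvPowerSeries (LocVar ι G) O) (L n).M₁))
    (hprod : ∀ n (m : (L n).M₁),
      (∏ c ∈ Z, ((univSig (G := G) O i₀).trace - algebraMap O _ (z c))) ^ e • m ∈
      levelZeroIdeal (L n).ψ • (⊤ : Submodule (MvPowerSeries (LocVar ι G) O) (L n).M₁)) :
    False := by
  have h𝔞' : ∀ n, 𝔞 n ≤ maximalIdeal (MvPowerSeries (ParVar ι G) O) := fun n =>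
    (h𝔞 n).trans (Ideal.pow_le_self (by omega))
  choose b₁ hb₁ hcong using fun n => (L n).exists_frame (h𝔞' n)
  obtain ⟨Ψ, hΨ⟩ := exists_limHom fun n => (L n).ψ
  obtain ⟨Θ₀, hΘ₀, hlim₀, hT₀⟩ := exists_limAct 𝔞 h𝔞 (fun n => (L n).M₀) (fun n => (L n).ψ)
    (fun n => (L n).b₀) (fun n => (L n).frame₀) Ψ hΨ
  obtain ⟨Θ₁, hΘ₁, hlim₁, hT₁⟩ := exists_limAct 𝔞 h𝔞 (fun n => (L n).M₁) (fun n => (L n).ψ)
    b₁ hb₁ Ψ hΨ
  have := nontrivial_patched Θ₀ hd
  have := nontrivial_patched Θ₁ hd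
  let J := Ideal.span (Set.range (X : ParVar ι G → MvPowerSeries (ParVar ι G) O))
  have hJ : ∀ φ : MvPowerSeries (ParVar ι G) O →ₐ[O] MvPowerSeries (LocVar ι G) O,
      J.map (φ : MvPowerSeries (ParVar ι G) O →+* MvPowerSeries (LocVar ι G) O) =
        levelZeroIdeal φ := fun φ => by
    rw [Ideal.map_span, levelZeroIdeal]
    congr 1
    rw [← Set.range_comp]
    rfl
  -- transfer without auxiliary elements
  have hzero₀ : ∀ a : MvPowerSeries (LocVar ι G) O, (∀ n (m : (L n).M₀), a • m = 0) → ∀ m : PatchedMod Θ₀, a • m = 0 := by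
    intro a ha m
    obtain ⟨C, hC⟩ := hT₀ ⊥ Empty a Empty.elim fun n m => by rw [ha]; exact zero_mem _
    simpa [Set.range_eq_empty] using patched_mem (ψ := (Ψ : MvPowerSeries (ParVar ι G) O →+* MvPowerSeries (LocVar ι G) O)) hΘ₀ hC m
  have hzero₁ : ∀ a : MvPowerSeries (LocVar ι G) O, (∀ n (m : (L n).M₁), a • m = 0) → ∀ m : PatchedMod Θ₁, a • m = 0 := by
    intro a ha m
    obtain ⟨C, hC⟩ := hT₁ ⊥ Empty a Empty.elim fun n m => by rw [ha]; exact zero_mem _
    simpa [Set.range_eq_empty] using patched_mem (ψ := (Ψ : MvPowerSeries (ParVar ι G) O →+* MvPowerSeries (LocVar ι G) O)) hΘ₁ hC m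
  have hlz₀ : ∀ a : MvPowerSeries (LocVar ι G) O, (∀ n (m : (L n).M₀), a • m ∈ levelZeroIdeal (L n).ψ •
      (⊤ : Submodule (MvPowerSeries (LocVar ι G) O) (L n).M₀)) →
      ∀ m : PatchedMod Θ₀, a • m ∈ levelZeroIdeal Ψ •
        (⊤ : Submodule (MvPowerSeries (LocVar ι G) O) (PatchedMod Θ₀)) := by
    intro a ha m
    obtain ⟨C, hC⟩ := hT₀ J Empty a Empty.elim fun n m =>
      Submodule.mem_sup_right (by rw [hJ]; exact ha n m)
    simpa [Set.range_eq_empty, hJ] using patched_mem (ψ := (Ψ : MvPowerSeries (ParVar ι G) O →+* MvPowerSeries (LocVar ι G) O)) hΘ₀ hC m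
  have hlz₁ : ∀ a : MvPowerSeries (LocVar ι G) O, (∀ n (m : (L n).M₁), a • m ∈ levelZeroIdeal (L n).ψ •
      (⊤ : Submodule (MvPowerSeries (LocVar ι G) O) (L n).M₁)) →
      ∀ m : PatchedMod Θ₁, a • m ∈ levelZeroIdeal Ψ •
        (⊤ : Submodule (MvPowerSeries (LocVar ι G) O) (PatchedMod Θ₁)) := by
    intro a ha m
    obtain ⟨C, hC⟩ := hT₁ J Empty a Empty.elim fun n m =>
      Submodule.mem_sup_right (by rw [hJ]; exact ha n m)
    simpa [Set.range_eq_empty, hJ] using patched_mem (ψ := (Ψ : MvPowerSeries (ParVar ι G) O →+* MvPowerSeries (LocVar ι G) O)) hΘ₁ hC m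
  refine false_of_patched half hhalf q hq2 hq0 hq i₀ hq1 Ψ (PatchedMod Θ₀) (PatchedMod Θ₁)
    (patched_compat (ψ := (Ψ : MvPowerSeries (ParVar ι G) O →+* MvPowerSeries (LocVar ι G) O)) hΘ₀) (patched_compat (ψ := (Ψ : MvPowerSeries (ParVar ι G) O →+* MvPowerSeries (LocVar ι G) O)) hΘ₁)
    (fun i => ⟨hzero₀ _ fun n => (hrel₀ n i).det_phi, hzero₀ _ fun n => (hrel₀ n i).det_sig,
      fun a b => hzero₀ _ fun n => (hrel₀ n i).tame a b⟩)
    (fun i => ⟨hzero₁ _ fun n => (hrel₁ n i).det_phi, hzero₁ _ fun n => (hrel₁ n i).det_sig,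
      fun a b => hzero₁ _ fun n => (hrel₁ n i).tame a b⟩) (fun a ha m => ?_) (fun Q hQ => ?_)
    fun Q hQ => ?_
  · -- congruence
    have h0 : ∀ i j, Θ₀ a i j ∈ piIdeal (O := O) (ParVar ι G) := by
      intro i j
      obtain ⟨g, hg, hge⟩ := (mem_piIdeal_smul_top Ψ (patched_frame (ψ := (Ψ : MvPowerSeries (ParVar ι G) O →+* MvPowerSeries (LocVar ι G) O)) hΘ₀) _).mp
        (ha (patchedStd Θ₀ j))
      have h2 := congrArg (patchedFun Θ₀) hge
      rw [patchedFun_comb (ψ := (Ψ : MvPowerSeries (ParVar ι G) O →+* MvPowerSeries (LocVar ι G) O)) hΘ₀, patchedFun_smul] at h2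
      have h1 := hg i
      rw [h2] at h1
      simpa [patchedFun, patchedStd, Matrix.mulVec_single] using h1
    have h1 : ∀ i j, Θ₁ a i j ∈ piIdeal (O := O) (ParVar ι G) := by
      intro i j
      choose X0 hX0 using fun n => (L n).frame₀.exists_acts a
      choose X1 hX1 using fun n => (hb₁ n).exists_acts a
      have hd : Θ₀ a i j - Θ₁ a i j ∈ piIdeal (O := O) (ParVar ι G) :=
        isLim_mem h𝔞 (fun n => hcong n a _ _ (hX0 n) (hX1 n) i j) fun k => by
          filter_upwards [hlim₀ a X0 hX0 i j k, hlim₁ a X1 hX1 i j k] with n hn hn'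
          have := sub_mem hn hn'
          rwa [sub_sub_sub_comm] at this
      simpa using sub_mem (h0 i j) hd
    refine (mem_piIdeal_smul_top Ψ (patched_frame (ψ := (Ψ : MvPowerSeries (ParVar ι G) O →+* MvPowerSeries (LocVar ι G) O)) hΘ₁) _).mpr
      ⟨Θ₁ a *ᵥ patchedFun Θ₁ m, fun j => ?_, patchedFun_inj Θ₁ ?_⟩
    · rw [Matrix.mulVec, dotProduct]
      exact Ideal.sum_mem _ fun l _ => Ideal.mul_mem_right _ _ (h1 j l)
    · exact patchedFun_comb (ψ := (Ψ : MvPowerSeries (ParVar ι G) O →+* MvPowerSeries (LocVar ι G) O)) hΘ₁ _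
  · -- level zero points of the first module
    refine ⟨fun i => hQ.prime.mem_of_pow_mem e (hQ.support _ (hlz₀ _ fun n => htr₀ n i)), ?_⟩
    by_contra hne
    push Not at hne
    obtain ⟨C, hC⟩ := hT₀ J (Fin 2 × Fin 2) ((algebraMap O (MvPowerSeries (LocVar ι G) O) ϖ) ^ k)
      (fun ab => ((univSig (G := G) O i₀ - 1 :
        Matrix (Fin 2) (Fin 2) (MvPowerSeries (LocVar ι G) O))) ab.1 ab.2)
      fun n m => by
        rw [hJ, ← Submodule.sup_smul]
        exact hnt n m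
    have hm : ∀ m : PatchedMod Θ₀, (algebraMap O (MvPowerSeries (LocVar ι G) O) ϖ) ^ k • m ∈
        Q • (⊤ : Submodule (MvPowerSeries (LocVar ι G) O) (PatchedMod Θ₀)) := by
      intro m
      have h1 := patched_mem (ψ := (Ψ : MvPowerSeries (ParVar ι G) O →+* MvPowerSeries (LocVar ι G) O)) hΘ₀ hC m
      rw [hJ, ← Submodule.sup_smul] at h1
      refine Submodule.smul_mono (sup_le ?_ hQ.zero) le_rfl h1
      exact Ideal.span_le.mpr (by rintro _ ⟨⟨a, b⟩, rfl⟩; exact hne a b)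
    obtain ⟨N, hN⟩ := pow_mem_annihilator_sup Ψ (PatchedMod Θ₀) (patched_compat (ψ := (Ψ : MvPowerSeries (ParVar ι G) O →+* MvPowerSeries (LocVar ι G) O)) hΘ₀) hm
    have hann : Module.annihilator (MvPowerSeries (LocVar ι G) O) (PatchedMod Θ₀) ≤ Q :=
      fun x hx => hQ.support x fun m => by rw [Module.mem_annihilator.mp hx]; exact zero_mem _
    have := hQ.prime.mem_of_pow_mem _ (sup_le hann le_rfl hN)
    exact hϖ (hQ.base _ (hQ.prime.mem_of_pow_mem _ this))
  · -- level zero points of the second module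
    refine ⟨fun i hi => hQ.prime.mem_of_pow_mem e (hQ.support _ (hlz₁ _ fun n => htr₁ n i hi)), ?_⟩
    have hp := hQ.prime.mem_of_pow_mem e (hQ.support _ (hlz₁ _ hprod))
    obtain ⟨c, hc, hzQ⟩ := hQ.prime.prod_mem_iff.mp hp
    obtain ⟨ζ, ζ', hz, h1, h2, h3, h4, h5⟩ := hZ c hc
    exact ⟨ζ, ζ', h1, h2, h3, h4, h5, hz ▸ hzQ⟩

end Fermat.Agent.LL
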