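import Fermat.Agent.LL.Defs
import Fermat.Agent.LL.Finite
import Mathlib.LinearAlgebra.Matrix.Charpoly.Coeff

/-!
# Finiteness of the local rings over the parameters
-/

set_option autoImplicit false

noncomputable section

namespace Fermat.Agent.LL

open IsLocalRing MvPowerSeries Matrix

variable {O : Type} [CommRing O] {ι G : Type}

/-- The relations imposed at `i`: determinants, tame relation, trace `≡ 2` modulo `π`. -/
structure LocRel [IsLocalRing O] (q : ℕ) (i : ι) (P : Ideal (MvPowerSeries (LocVar ι G) O)) :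
    Prop where
  det_phi : (univPhi O i).det - (q : MvPowerSeries (LocVar ι G) O) ∈ P
  det_sig : (univSig O i).det - 1 ∈ P
  tame : ∀ a b : Fin 2, ((univPhi O i * univSig O i - univSig O i ^ q * univPhi O i :
    Matrix (Fin 2) (Fin 2) (MvPowerSeries (LocVar ι G) O))) a b ∈ P
  trace : (univSig O i).trace - 2 ∈ P ⊔ (maximalIdeal O).map (algebraMap O _)

lemma pow_one_add_of_sq_eq_zero {R : Type*} [CommRing R] {Z : Matrix (Fin 2) (Fin 2) R}
    (hZ : Z * Z = 0) (n : ℕ) : (1 + Z) ^ n = 1 + (n : R) • Z := by
  induction n with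
  | zero => simp
  | succ n ih =>
    rw [pow_succ, ih, add_mul, one_mul, smul_mul_assoc, mul_add, mul_one, hZ, Nat.cast_succ,
      add_smul, one_smul, add_zero]
    abel

/-- Nilpotence of the local coordinates in a ring where the relations hold exactly. -/
lemma isNilpotent_of_rel {C : Type*} [CommRing C] (half : C) (hhalf : 2 * half = 1)
    (v : Fin 8 → C) (q : ℕ) (hq : (q : C) = 1) (hunit : IsUnit (2 + half * (v 0 + v 3)))
    (hΦ : (!![1 + v 0, v 1; v 2, 1 + v 3] : Matrix (Fin 2) (Fin 2) C).det = 1)
    (hS : (!![1 + v 4, v 5; v 6, 1 + v 7] : Matrix (Fin 2) (Fin 2) C).det = 1)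
    (htr : v 4 + v 7 = 0)
    (hrel : (!![1 + v 0, v 1; v 2, 1 + v 3] : Matrix (Fin 2) (Fin 2) C) *
      !![1 + v 4, v 5; v 6, 1 + v 7] =
      !![1 + v 4, v 5; v 6, 1 + v 7] ^ q * !![1 + v 0, v 1; v 2, 1 + v 3])
    (hp0 : half * (v 0 - v 3) = 0)
    (hp1 : half * (v 1 + v 2) - half * (v 5 + v 6) = 0)
    (hp2 : half * (v 1 - v 2) - 2 * (half * (v 5 - v 6)) = 0) :
    ∀ m, IsNilpotent (v m) := by
  rw [det_fin_two_of] at hΦ hS
  have h7 : v 7 = -v 4 := by linear_combination htr
  have hdetZ : v 4 * v 4 + v 5 * v 6 = 0 := by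
    rw [h7] at hS; linear_combination -hS
  set Z : Matrix (Fin 2) (Fin 2) C := !![v 4, v 5; v 6, v 7]
  have hSZ : (!![1 + v 4, v 5; v 6, 1 + v 7] : Matrix (Fin 2) (Fin 2) C) = 1 + Z := by
    ext a b; fin_cases a <;> fin_cases b <;> simp [Z]
  have hZ : Z * Z = 0 := by
    ext a b; fin_cases a <;> fin_cases b <;> simp [Z, h7, Matrix.mul_apply]
    · linear_combination hdetZ
    · ring
    · ring
    · linear_combination hdetZ
  rw [hSZ, pow_one_add_of_sq_eq_zero hZ, hq, one_smul] at hrel
  have e01 := congrFun (congrFun hrel 0) 1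
  have e10 := congrFun (congrFun hrel 1) 0
  have e00 := congrFun (congrFun hrel 0) 0
  simp [Z, h7, Matrix.mul_apply] at e01 e10 e00
  -- coordinates of the inertia
  set z1 := half * (v 5 + v 6) with hz1
  set z2 := half * (v 5 - v 6) with hz2
  have hv5 : v 5 = z1 + z2 := by rw [hz1, hz2]; linear_combination -(v 5) * hhalf
  have hv6 : v 6 = z1 - z2 := by rw [hz1, hz2]; linear_combination -(v 6) * hhalf
  have hv1 : v 1 = z1 + 2 * z2 := by linear_combination hp1 + hp2 - v 1 * hhalf
  have hv2 : v 2 = z1 - 2 * z2 := by linear_combination hp1 - hp2 - v 2 * hhalf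
  have hv03 : v 0 - v 3 = 0 := by linear_combination (2 : C) * hp0 - (v 0 - v 3) * hhalf
  have h2inj : ∀ x : C, 2 * x = 0 → x = 0 := fun x hx => by
    linear_combination half * hx - x * hhalf
  have hb : z1 * z2 = 0 := by
    rw [hv1, hv2, hv5, hv6] at e00
    refine h2inj _ ?_
    linear_combination e00
  have hplus : v 4 * (z1 + 2 * z2) = 0 := by
    rw [hv1, hv5] at e01
    refine h2inj _ ?_
    linear_combination -e01 + (z1 + z2) * hv03
  have hminus : v 4 * (z1 - 2 * z2) = 0 := by
    rw [hv2, hv6] at e10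
    refine h2inj _ ?_
    linear_combination e10 + (z1 - z2) * hv03
  have h41 : v 4 * z1 = 0 := h2inj _ (by linear_combination hplus + hminus)
  have h42 : v 4 * z2 = 0 := h2inj _ (h2inj _ (by linear_combination hplus - hminus))
  have hconic : v 4 * v 4 + z1 * z1 - z2 * z2 = 0 := by
    rw [hv5, hv6] at hdetZ; linear_combination hdetZ
  have n4 : IsNilpotent (v 4) := ⟨3, by linear_combination v 4 * hconic - z1 * h41 + z2 * h42⟩
  have n1 : IsNilpotent z1 := ⟨3, by linear_combination z1 * hconic - v 4 * h41 + z2 * hb⟩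
  have n2 : IsNilpotent z2 := ⟨3, by linear_combination -z2 * hconic + v 4 * h42 + z1 * hb⟩
  have n22 : IsNilpotent (2 * z2) := (Commute.all _ _).isNilpotent_mul_left n2
  set u := half * (v 0 + v 3) with hu
  have hQ : IsNilpotent (u * (2 + u)) := by
    have : u * (2 + u) = v 1 * v 2 := by
      rw [hu]
      linear_combination hΦ + (v 0 + v 3) * hhalf +
        (half * half * (v 0 - v 3)) * hv03 + (v 0 * v 3) * (2 * half + 1) * hhalf
    rw [this, hv2]
    exact (Commute.all _ _).isNilpotent_mul_left ((Commute.all _ _).isNilpotent_sub n1 n22)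
  have nu : IsNilpotent u := by
    obtain ⟨w, hw⟩ := hunit
    have : u = (u * (2 + u)) * ↑(w⁻¹) := by rw [← hw, mul_assoc, Units.mul_inv, mul_one]
    rw [this]
    exact (Commute.all _ _).isNilpotent_mul_right hQ
  intro m
  fin_cases m
  · simpa [show v 0 = u by rw [hu]; linear_combination -(v 0) * hhalf + half * hv03] using nu
  · simpa [hv1] using (Commute.all _ _).isNilpotent_add n1 n22
  · simpa [hv2] using (Commute.all _ _).isNilpotent_sub n1 n22
  · simpa [show v 3 = u by rw [hu]; linear_combination -(v 3) * hhalf - half * hv03] using nu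
  · simpa using n4
  · simpa [hv5] using (Commute.all _ _).isNilpotent_add n1 n2
  · simpa [hv6] using (Commute.all _ _).isNilpotent_sub n1 n2
  · simpa [h7] using n4.neg

variable [IsLocalRing O] [IsNoetherianRing O] [IsAdicComplete (maximalIdeal O) O]
  [Finite ι] [Finite G]

/-- Modulo the relations at every `i`, the local variables are finite over the parameters. -/
theorem finite_paramHom (half : O) (hhalf : 2 * half = 1) (q : ι → ℕ)
    (hq : ∀ i, (q i : O) - 1 ∈ maximalIdeal O)
    (P : Ideal (MvPowerSeries (LocVar ι G) O)) (hP : P ≠ ⊤) (hrel : ∀ i, LocRel (q i) i P) :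
    ((Ideal.Quotient.mk P).comp (paramHom O half).toRingHom).Finite := by
  refine finite_quotient_comp P hP _ (fun t => by rw [paramHom_X]; exact paramVal_mem O half t) ?_
  set I := P ⊔ (maximalIdeal O).map (algebraMap O (MvPowerSeries (LocVar ι G) O)) ⊔
    Ideal.span (Set.range fun t : ParVar ι G => paramHom O half (X t))
  rintro (⟨i, m⟩ | g)
  · set mk := Ideal.Quotient.mk I
    have hzero : ∀ x ∈ I, mk x = 0 := fun x hx => Ideal.Quotient.eq_zero_iff_mem.mpr hx
    have hpar : ∀ t, mk (paramVal O half t) = 0 := fun t => hzero _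
      (Ideal.mem_sup_right (Ideal.subset_span ⟨t, paramHom_X O half t⟩))
    set v : Fin 8 → MvPowerSeries (LocVar ι G) O ⧸ I := fun m => mk (locX O i m) with hv
    have hΦm : (univPhi O i).map mk = !![1 + v 0, v 1; v 2, 1 + v 3] := by
      ext a b; fin_cases a <;> fin_cases b <;> simp [univPhi, v]
    have hSm : (univSig O i).map mk = !![1 + v 4, v 5; v 6, 1 + v 7] := by
      ext a b; fin_cases a <;> fin_cases b <;> simp [univSig, v]
    have hq1 : ((q i : ℕ) : MvPowerSeries (LocVar ι G) O ⧸ I) = 1 := by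
      have := hzero _ (Ideal.mem_sup_left (Ideal.mem_sup_right
        (Ideal.mem_map_of_mem (algebraMap O (MvPowerSeries (LocVar ι G) O)) (hq i))))
      rwa [map_sub, map_natCast, map_one, map_sub, map_natCast, map_one, sub_eq_zero] at this
    have hh : (2 : MvPowerSeries (LocVar ι G) O ⧸ I) * mk (algebraMap O _ half) = 1 := by
      rw [← map_ofNat mk 2, ← map_mul, ← map_ofNat (algebraMap O (MvPowerSeries (LocVar ι G) O)) 2,
        ← map_mul, hhalf, map_one, map_one]
    have hall : ∀ m, IsNilpotent (v m) := by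
      refine isNilpotent_of_rel (mk (algebraMap O _ half)) hh v (q i) hq1 ?_ ?_ ?_ ?_ ?_ ?_ ?_ ?_
      · have : IsUnit (2 + algebraMap O (MvPowerSeries (LocVar ι G) O) half *
            (locX O i 0 + locX O i 3)) := by
          rw [MvPowerSeries.isUnit_iff_constantCoeff]
          simp [locX, map_ofNat, IsUnit.of_mul_eq_one _ hhalf]
        simpa [v, map_ofNat] using this.map mk
      · rw [← hΦm, ← RingHom.mapMatrix_apply, ← RingHom.map_det]
        have := hzero _ (Ideal.mem_sup_left (Ideal.mem_sup_left (hrel i).det_phi))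
        rw [map_sub, map_natCast, hq1, sub_eq_zero] at this
        exact this
      · rw [← hSm, ← RingHom.mapMatrix_apply, ← RingHom.map_det]
        have := hzero _ (Ideal.mem_sup_left (Ideal.mem_sup_left (hrel i).det_sig))
        rwa [map_sub, map_one, sub_eq_zero] at this
      · have := hzero _ (Ideal.mem_sup_left (hrel i).trace)
        simp [univSig, Matrix.trace_fin_two, map_ofNat] at this
        simp only [v]
        linear_combination this
      · rw [← hΦm, ← hSm, ← RingHom.mapMatrix_apply, ← RingHom.mapMatrix_apply, ← map_mul,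
          ← map_pow, ← map_mul, ← sub_eq_zero, ← map_sub]
        ext a b
        exact hzero _ (Ideal.mem_sup_left (Ideal.mem_sup_left ((hrel i).tame a b)))
      · simpa [paramVal, paramElt, sl2Coord, univPhi, univSig, v] using hpar (Sum.inl (i, 0))
      · simpa [paramVal, paramElt, sl2Coord, univPhi, univSig, v] using hpar (Sum.inl (i, 1))
      · simpa [paramVal, paramElt, sl2Coord, univPhi, univSig, v, map_ofNat] using
          hpar (Sum.inl (i, 2))
    obtain ⟨n, hn⟩ := hall m
    exact ⟨n, Ideal.Quotient.eq_zero_iff_mem.mp (by rw [map_pow]; exact hn)⟩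
  · refine Ideal.le_radical (Ideal.mem_sup_right (Ideal.subset_span ⟨Sum.inr g, ?_⟩))
    simp [paramHom_X, paramVal]

end Fermat.Agent.LL
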