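import Fermat.Agent.LL.Mazur.Harmless
import Fermat.Agent.LL.Residual.LevelHyp
import Fermat.Agent.LL.Residual.AuxPrime
import Fermat.Agent.LLp.ShapeFlat
import Fermat.Agent.LLp.Assembly
import Fermat.Agent.R59.Assembly

/-!
# Removing the unramified primes from a squarefree level

`stmt38_of`: the type of S38 from lowering at `p` and the impossibility of a minimal level with a
hard prime.  At a level minimal among the divisors, with an auxiliary prime `≡ 2 (mod 3)` at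
`p = 3`, a flat `E[p]` excludes `p` and an unramified prime is hard by Mazur's principle.
-/

set_option autoImplicit false

noncomputable section

namespace Fermat.Agent.LL

open CondLevel (Tors rhoTors)

/-- A minimal level with a hard prime is impossible. -/
def StmtNoHardLevel : Prop :=
  ∀ (W : WeierstrassCurve ℤ) (p : ℕ) [Fact p.Prime], p ≠ 2 → W.Δ ≠ 0 → W.IsSemistableModel →
    W.ModRepIsIrreducible p → ∀ (M : ℕ) (aux : Finset ℕ), ¬ LevelHyp W p M aux

/-- An auxiliary level: `1`, or at `p = 3` a harmless prime `≡ 2 (mod 3)`. -/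
structure IsAuxLevel (W : WeierstrassCurve ℤ) (p M A : ℕ) : Prop where
  squarefree : Squarefree A
  coprime : A.Coprime M
  prime_or_one : A = 1 ∨ A.Prime
  spec : ∀ l : ℕ, l.Prime → l ∣ A → l ≠ p ∧ W.IsGoodPrimeFor l ∧ ¬ l ≡ 1 [MOD p] ∧
    (W.apOfModel l : ZMod p) ^ 2 ≠ ((l : ZMod p) + 1) ^ 2
  three : p = 3 → ∃ l : ℕ, l.Prime ∧ l ∣ A ∧ l % 3 = 2

theorem exists_auxLevel (W : WeierstrassCurve ℤ) (hΔ : W.Δ ≠ 0) (hW : W.IsSemistableModel) {p : ℕ}
    [Fact p.Prime] (hirr : W.ModRepIsIrreducible p) {M : ℕ} (hM : M ≠ 0) :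
    ∃ A : ℕ, IsAuxLevel W p M A := by
  rcases eq_or_ne p 3 with rfl | hp3
  · obtain ⟨l, hl, hlS, hl2, hgood, ha⟩ :=
      exists_aux_prime_three W hΔ hW hirr (insert 3 M.primeFactors)
    rw [Finset.mem_insert, not_or] at hlS
    have hlM : ¬ l ∣ M := fun h => hlS.2 (Nat.mem_primeFactors.mpr ⟨hl, h, hM⟩)
    refine ⟨l, hl.squarefree, hl.coprime_iff_not_dvd.mpr hlM, Or.inr hl, fun q hq hd => ?_,
      fun _ => ⟨l, hl, dvd_rfl, hl2⟩⟩
    rw [(Nat.prime_dvd_prime_iff_eq hq hl).mp hd]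
    exact ⟨hlS.1, hgood, harmless_of_two_mod_three W hl2 ha⟩
  · exact ⟨1, squarefree_one, Nat.coprime_one_left M, Or.inl rfl,
      fun q hq hd => absurd hd hq.not_dvd_one, fun h => absurd h hp3⟩

/-- Some divisor of a squarefree level of residual modularity has all primes other than `p`
ramified in `E[p]`. -/
theorem exists_dvd_ramified (hcore : StmtNoHardLevel) (hlow : LLp.StmtLowerAtP)
    (W : WeierstrassCurve ℤ) (hΔ : W.Δ ≠ 0) (hW : W.IsSemistableModel) {p : ℕ} [Fact p.Prime]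
    (hp2 : p ≠ 2) (hirr : W.ModRepIsIrreducible p) {M : ℕ} (hsf : Squarefree M)
    (hmod : W.IsResiduallyModularOfLevel p M) :
    ∃ M' : ℕ, M' ∣ M ∧ W.IsResiduallyModularOfLevel p M' ∧
      ∀ r : ℕ, r.Prime → r ∣ M' → r ≠ p → ¬ R59.ModUnramified W p r := by
  classical
  have hp : p.Prime := Fact.out
  obtain ⟨A, hA⟩ := exists_auxLevel W hΔ hW hirr (p := p) hsf.ne_zero
  have hex : ∃ M', M' ∣ M ∧ W.IsResiduallyModularOfLevel p (M' * A) :=
    ⟨M, dvd_rfl, Mazur.isResiduallyModularOfLevel_of_dvd W (dvd_mul_right M A)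
      (mul_ne_zero hsf.ne_zero hA.squarefree.ne_zero) hmod⟩
  obtain ⟨hd, hmodA⟩ := Nat.find_spec hex
  have hmin : ∀ m, m < Nat.find hex → m ∣ M → ¬ W.IsResiduallyModularOfLevel p (m * A) :=
    fun m h h1 h2 => Nat.find_min hex h ⟨h1, h2⟩
  set M' := Nat.find hex
  have hsf' : Squarefree M' := hsf.squarefree_of_dvd hd
  have hcop : M'.Coprime A := (hA.coprime.coprime_dvd_right hd).symm
  have hsfA : Squarefree (M' * A) := (Nat.squarefree_mul hcop).mpr ⟨hsf', hA.squarefree⟩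
  have hdiv : ∀ r : ℕ, r.Prime → r ∣ M' →
      M' * A / r = M' / r * A ∧ ¬ W.IsResiduallyModularOfLevel p (M' * A / r) := by
    intro r hr hrd
    have he : M' * A / r = M' / r * A := Nat.mul_div_right_comm hrd A
    exact ⟨he, he ▸ hmin _ (Nat.div_lt_self (Nat.pos_of_ne_zero hsf'.ne_zero) hr.one_lt)
      ((Nat.div_dvd_of_dvd hrd).trans hd)⟩
  have hA0 : A ≠ 0 := hA.squarefree.ne_zero
  have hram : ∀ r : ℕ, r.Prime → r ∣ M' → r ≠ p → ¬ R59.ModUnramified W p r := by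
    intro r hr hrd hrp hur
    have hmemA : ∀ {l}, l ∈ A.primeFactors ↔ l.Prime ∧ l ∣ A := fun {l} => by
      rw [Nat.mem_primeFactors]
      exact ⟨fun h => ⟨h.1, h.2.1⟩, fun h => ⟨h.1, h.2, hA0⟩⟩
    have hin : ∀ {s}, s ∈ (M' * A).primeFactors.erase p → s ∉ A.primeFactors →
        s.Prime ∧ s ≠ p ∧ s ∣ M' := fun {s} hs hsA => by
      rw [Finset.mem_erase, Nat.mem_primeFactors] at hs
      exact ⟨hs.2.1, hs.1, (hs.2.1.dvd_mul.mp hs.2.2.1).resolve_right
        fun h => hsA (hmemA.mpr ⟨hs.2.1, h⟩)⟩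
    refine hcore W p hp2 hΔ hW hirr (M' * A) A.primeFactors ⟨hsfA, hmodA, fun l hl => ?_,
      fun l hl => ?_, fun l hl => ?_, fun h3 => ?_, fun hpd hflat => ?_, fun s hs _ hsA => ?_,
      fun s hs hsur hsA => ?_, r, ?_, hur, fun h => ?_⟩
    · obtain ⟨hlp, hld⟩ := hmemA.mp hl
      exact Finset.mem_erase.mpr ⟨(hA.spec l hlp hld).1,
        Nat.mem_primeFactors.mpr ⟨hlp, hld.mul_left M', hsfA.ne_zero⟩⟩
    · obtain ⟨hlp, hld⟩ := hmemA.mp hl
      exact R59.modUnramified_of_good W hp hlp (hA.spec l hlp hld).1 (hA.spec l hlp hld).2.1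
    · exact (hA.spec l (hmemA.mp hl).1 (hmemA.mp hl).2).2
    · obtain ⟨l, hl, hld, hl2⟩ := hA.three h3
      exact ⟨l, hld.mul_left M', hl2, hl, Or.inl (hmemA.mpr ⟨hl, hld⟩)⟩
    · have hpM' : p ∣ M' := (hp.dvd_mul.mp hpd).resolve_right fun h => (hA.spec p hp h).1 rfl
      refine (hdiv p hp hpM').2 (hlow W p hp2 hΔ hirr
        (LLp.peuShape_of_flat hΔ hp2 (hW p hp) hflat) (M' * A) (Nat.pos_of_ne_zero hsfA.ne_zero) hpd
        (fun h => Nat.squarefree_iff_prime_squarefree.mp hsfA p hp (sq p ▸ h)) (fun h3 => ?_) hmodA)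
      obtain ⟨l, hl, hld, hl2⟩ := hA.three h3
      exact ⟨l, hl, hld.mul_left M', hl2⟩
    · obtain ⟨hs', -, hsd⟩ := hin hs hsA
      exact (hdiv s hs' hsd).2
    · obtain ⟨hs', hsp, hsd⟩ := hin hs hsA
      obtain ⟨he, hno⟩ := hdiv s hs' hsd
      have hback : M' / s * A * s = M' * A := by
        rw [← he, Nat.div_mul_cancel (hsd.mul_right A)]
      have hns : ¬ s ∣ M' / s * A := fun h =>
        Nat.squarefree_iff_prime_squarefree.mp hsfA s hs' (hback ▸ mul_dvd_mul_right h s)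
      obtain ⟨h1, h2⟩ := Mazur.frob_scalar_of_not_modular W hΔ hp2 hirr
        (fun h0 => hns (by rw [h0]; exact dvd_zero s)) hs' hsp hns
        (fun h3 => (hA.three h3).imp fun l h => ⟨h.1, h.2.1.mul_left _, h.2.2⟩)
        (hback ▸ hmodA) hsur (he ▸ hno)
      exact ⟨h1, fun B hB σ hσ => (h2 B hB σ hσ).imp id fun h => h.trans (neg_one_smul _ _).symm⟩
    · exact Finset.mem_erase.mpr
        ⟨hrp, Nat.mem_primeFactors.mpr ⟨hr, hrd.mul_right A, hsfA.ne_zero⟩⟩
    · exact hr.ne_one (Nat.eq_one_of_dvd_coprimes hcop hrd (hmemA.mp h).2)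
  refine ⟨M', hd, ?_, hram⟩
  rcases hA.prime_or_one with h1 | hAp
  · rwa [h1, mul_one] at hmodA
  · obtain ⟨h1, h2, -, h4⟩ := hA.spec A hAp dvd_rfl
    exact Mazur.isResiduallyModularOfLevel_of_harmless W hΔ hsf'.ne_zero hAp h1
      (hAp.coprime_iff_not_dvd.mp hcop.symm) h2 h4 hmodA

/-- The type of S38 from lowering at `p` and the impossibility of a hard prime at a minimal
level. -/
theorem stmt38_of (hcore : StmtNoHardLevel) (hlow : LLp.StmtLowerAtP) : R59.Stmt38 := by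
  intro p _ hp2 W hΔ hW hcard hker hirr M q hq hqp hqM _ hsf hunr hres
  obtain ⟨M', hd, hmod, hram⟩ := exists_dvd_ramified hcore hlow W hΔ hW hp2 hirr hsf hres
  have hqM' : ¬ q ∣ M' := fun h => hram q hq h hqp hunr
  refine Mazur.isResiduallyModularOfLevel_of_dvd W ?_
    (Nat.div_pos (Nat.le_of_dvd (Nat.pos_of_ne_zero hsf.ne_zero) hqM) hq.pos).ne' hmod
  exact ((hq.coprime_iff_not_dvd.mpr hqM').symm).dvd_of_dvd_mul_right
    ((Nat.div_mul_cancel hqM).symm ▸ hd)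

end Fermat.Agent.LL
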