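import Fermat.Agent.LL.Lowering
import Fermat.Agent.LL.OfStmt38
import Fermat.Agent.LLp.AssemblyInputs
import Fermat.Agent.LLp.Core.Main

/-!
# S38 from the absence of hard minimal levels alone
-/

set_option autoImplicit false

noncomputable section

namespace Fermat.Agent.LL

/-- Lowering at `p` is a theorem. -/
theorem stmtLowerAtP : LLp.StmtLowerAtP :=
  LLp.stmtLowerAtP_of_pushTrivial (LLp.stmtPushTrivial Mazur.residualAttachment)

/-- The type of S38 from the absence of hard minimal levels. -/
theorem stmt38_of_noHardLevel (hcore : StmtNoHardLevel) : R59.Stmt38 :=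
  stmt38_of hcore stmtLowerAtP

end Fermat.Agent.LL
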