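import Fermat.Agent.LL.Presentation

/-!
# Auxiliary primes with presentations over the local variables

`stmtPrimes` is the case of a level lowering setting of `exists_primes_presentation`.
-/

set_option autoImplicit false

noncomputable section

open IsLocalRing

namespace Fermat.Agent.LL

/-- Auxiliary primes with presentations. -/
theorem stmtPrimes : StmtPrimes := by
  classical
  intro U
  have hkind : U.kind ≠ .ord ∧
      atP U.kind U.p (GaloisRepAdic.ofResidualGaloisRep U.ρbar) := by
    rcases U.atP with ⟨h, -, hf⟩ | ⟨h, -, hs, -⟩ <;> rw [h]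
    · exact ⟨by decide, hf⟩
    · exact ⟨by decide, hs⟩
  obtain ⟨g, hg⟩ := exists_primes_presentation U.p U.two_ne_p U.p_mem U.ρbar U.absIrr U.detCyc
    U.split U.tw U.kind hkind.1 hkind.2 (insert U.p U.ram) (Finset.mem_insert_self _ _)
    (fun q hq hqp => by
      rw [← U.ramified_iff q hq hqp]
      simp [hqp])
    (fun q hq _ hqp => U.unipotent_of_mem hq hqp)
    (fun i : U.Idx => i.1) Subtype.val_injective U.hard_prime
    (fun i h => by
      rcases Finset.mem_insert.1 h with h | h
      · exact U.hard_ne_p i h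
      · exact U.hard_notMem_ram i h)
    U.place U.frob U.tame U.sign U.place_liesOver U.frob_spec U.tame_spec U.scalar
    (insert U.p (U.ram ∪ U.hard))
    (fun q => by
      simp only [Finset.mem_insert, Finset.mem_union, Subtype.exists, exists_prop]
      constructor
      · rintro (h | h | h)
        · exact Or.inl (Or.inl h)
        · exact Or.inl (Or.inr h)
        · exact Or.inr ⟨q, h, rfl⟩
      · rintro ((h | h) | ⟨r, h, rfl⟩)
        · exact Or.inl h
        · exact Or.inr (Or.inl h)
        · exact Or.inr (Or.inr h))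
  refine ⟨g, fun n => ?_⟩
  obtain ⟨qv, hinj, hprime, hnot, hdvd, hdist, hD⟩ := hg n
  refine ⟨qv, ⟨hinj, hprime, fun i h => ?_, hdvd, hdist⟩, hD⟩
  rcases Finset.mem_insert.1 h with h | h
  · exact hnot i (h ▸ Finset.mem_insert_self _ _)
  by_cases hp : qv i = U.p
  · exact hnot i (hp ▸ Finset.mem_insert_self _ _)
  have h' : qv i ∈ U.ram ∪ U.hard ∪ U.aux :=
    U.primeFactors_eq ▸ Finset.mem_erase.2 ⟨hp, h⟩
  rcases Finset.mem_union.1 h' with h' | h'
  · exact hnot i (Finset.mem_insert_of_mem h')
  · exact (U.aux_spec _ h').1 ((Nat.modEq_iff_dvd' (hprime i).one_le).2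
      ((dvd_pow_self U.p (Nat.succ_ne_zero n)).trans (hdvd i))).symm

end Fermat.Agent.LL
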