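import Fermat.Agent.LL.Setting
import Fermat.Agent.LL.Residual.SettingData
import Fermat.Agent.LL.Residual.LocalAtP
import Fermat.Agent.LL.Residual.TwAll
import Fermat.Agent.LL.Residual.FlatOfLevel
import Fermat.Agent.LL.Residual.RamifiedMult
import Fermat.Agent.LL.Residual.LevelHyp

/-!
# A setting from a level of a semistable curve

`exists_setting_core`, `exists_setting_of`: the data of `LevelHyp` give a `Setting` for
`E[p] ⊗ k`.
-/

set_option autoImplicit false
set_option linter.style.haveILetI false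

noncomputable section

open IsLocalRing Polynomial

namespace Fermat.Agent.LL

local notation "Γℚ" => (AlgebraicClosure ℚ ≃ₐ[ℚ] AlgebraicClosure ℚ)

open CondLevel (Tors rhoTors)

/-- A level of a semistable curve with a hard prime gives a setting, given irreducibility on
subgroups of index two and flatness at levels prime to `p`. -/
theorem exists_setting_core (h29 : CondLevel.ResidualAttachment) (W : WeierstrassCurve ℤ)
    (hΔ : W.Δ ≠ 0) (hss : W.IsSemistableModel) (p : ℕ) [Fact p.Prime] (hp2 : p ≠ 2)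
    (hirr : W.ModRepIsIrreducible p)
    (htw : ∀ {k : Type} [Field k] (ψ : ZMod p →+* k) (K : Type) [Field K] [Algebra k K]
      (G : Subgroup Γℚ), G.index = 2 → ∀ V : Submodule K ((curveRhoBar W p hΔ ψ).baseChange K).V,
        (∀ σ ∈ G, ∀ x ∈ V, ((curveRhoBar W p hΔ ψ).baseChange K).ρ σ x ∈ V) → V = ⊥ ∨ V = ⊤)
    (M : ℕ) [NeZero M] (aux : Finset ℕ) (h : LevelHyp W p M aux)
    (hflat : ¬ p ∣ M → FFG.HasFlatModel (GaloisRep.ratLocalizedAt p) ℚ (AlgebraicClosure ℚ)
      (M := Tors W p) (fun σ P => σ • P)) : Nonempty Setting := by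
  classical
  have hp : p.Prime := Fact.out
  obtain ⟨O, _, _, _, _, _, _, _, hpO, ⟨ζ, hζ⟩, ⟨w, hw⟩⟩ := exists_coeff p M
  set k := ResidueField O
  haveI hkp : CharP k p := by
    refine (CharP.charP_iff_prime_eq_zero hp).mpr ?_
    rw [← map_natCast (residue O)]
    exact (residue_eq_zero_iff _).mpr hpO
  set ψ : ZMod p →+* k := ZMod.castHom (dvd_refl p) k
  set ρbar := curveRhoBar W p hΔ ψ with hρbar
  have hunr : ∀ q : ℕ, ρbar.IsUnramifiedAt q ↔ R59.ModUnramified W p q := fun q =>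
    forall_congr' fun A => forall_congr' fun _ => forall_congr' fun σ => forall_congr' fun _ => by
      have := curveRhoBar_apply_eq_smul_one_iff W p hΔ ψ 1 σ
      rw [map_one, one_smul, one_smul] at this
      exact this
  set F := M.primeFactors.erase p with hF
  have hmemF : ∀ {r : ℕ}, r ∈ F ↔ r.Prime ∧ r ∣ M ∧ r ≠ p := fun {r} => by
    rw [hF, Finset.mem_erase, Nat.mem_primeFactors]
    exact ⟨fun hr => ⟨hr.2.1, hr.2.2.1, hr.1⟩, fun hr => ⟨hr.2.2, hr.1, hr.2.1, NeZero.ne M⟩⟩
  set H := F.filter fun r => R59.ModUnramified W p r ∧ r ∉ aux with hH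
  set Ram := F.filter fun r => ¬ R59.ModUnramified W p r with hRam
  have hramM : ∀ q : ℕ, q.Prime → q ≠ p → ¬ R59.ModUnramified W p q → q ∈ Ram :=
    fun q hq hqp hnu => Finset.mem_filter.mpr ⟨hmemF.mpr ⟨hq, by_contra fun hd =>
      hnu (modUnramified_of_not_dvd h29 W hΔ hss p hirr (NeZero.ne M) h.modular hq hqp hd), hqp⟩, hnu⟩
  have hHr : ∀ r ∈ H, (r.Prime ∧ r ∣ M ∧ r ≠ p) ∧ R59.ModUnramified W p r ∧ r ∉ aux ∧
      r ∈ M.primeFactors.erase p := fun r hr => by
    obtain ⟨h1, h2⟩ := Finset.mem_filter.mp hr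
    exact ⟨hmemF.mp h1, h2.1, h2.2, h1⟩
  obtain ⟨place, frob, tame, sign, hplace, hfrob, htame, hscalar⟩ :=
    exists_hard_data W p hΔ ψ H (fun r hr => ⟨(hHr r hr).1.1, (hHr r hr).1.2.2⟩)
      (fun r hr => (hHr r hr).2.1)
      (fun r hr => (h.hard r (hHr r hr).2.2.2 (hHr r hr).2.1 (hHr r hr).2.2.1).2)
  obtain ⟨θ, hθ⟩ := exists_residual_theta W p hΔ ψ h29 h.modular
  let K : R59.Kind := if p ∣ M then .strict else .flat
  refine ⟨{
    p := p
    two_lt := by have := hp.two_le; omega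
    O := O
    p_mem := hpO
    ρbar := ρbar
    absIrr := curveRhoBar_absIrr W p hΔ ψ hp2 hirr
    detCyc := curveRhoBar_detCyc W p hΔ ψ
    ram := Ram
    kind := K
    atP := ?_
    unipotent := fun l hl => ?_
    split := fun σ => ?_
    tw := htw ψ
    ramified_iff := fun l hl hlp => ?_
    M := M
    squarefree := h.squarefree
    hard := H
    aux := aux
    primeFactors_eq := ?_
    disjoint_ram_hard := ?_
    disjoint_aux := ?_
    hard_nonempty := ?_
    one_mod := fun r hr => (h.hard r (hHr r hr).2.2.2 (hHr r hr).2.1 (hHr r hr).2.2.1).1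
    aux_spec := fun l hl => ⟨(h.aux_harmless l hl).2.1, fun A hA σ hσ => ?_⟩
    three := fun hp3 => let ⟨l, h1, h2, h3, _⟩ := h.three hp3; ⟨l, h3, h1, h2⟩
    θ := θ
    θ_charpoly := hθ
    minimal := fun r M' _ hr hMr θ' => ?_
    zeta := fun r hr =>
      exists_primitiveRoot_padicValNat p (Nat.pos_of_neZero M) (hHr r hr).1.2.1 hζ
    place := place
    frob := frob
    tame := tame
    sign := sign
    place_liesOver := hplace
    frob_spec := hfrob
    tame_spec := htame
    scalar := hscalar }⟩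
  · obtain ⟨a, b, hab⟩ := exists_roots_quadratic ψ hw
      (LinearMap.trace (ZMod p) _ (rhoTors W p σ)) (LinearMap.det (rhoTors W p σ))
    exact ⟨a, b, by rw [hρbar, curveRhoBar_charpoly_eq, hab]⟩
  · rw [hunr]
    exact ⟨fun hl' => (Finset.mem_filter.mp hl').2, hramM l hl hlp⟩
  · -- unipotence
    obtain ⟨hl', hlp⟩ : l.Prime ∧ l ≠ p :=
      ⟨(hmemF.mp (Finset.mem_filter.mp hl).1).1, (hmemF.mp (Finset.mem_filter.mp hl).1).2.2⟩
    exact curveRhoBar_unipotent W p hΔ ψ hl' hlp (hss l hl')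
  · ext r
    simp only [← hF, Finset.mem_union, hRam, hH, Finset.mem_filter]
    constructor
    · intro hr
      by_cases hu : R59.ModUnramified W p r
      · by_cases ha : r ∈ aux
        · exact Or.inr ha
        · exact Or.inl (Or.inr ⟨hr, hu, ha⟩)
      · exact Or.inl (Or.inl ⟨hr, hu⟩)
    · rintro ((hr | hr) | hr)
      · exact hr.1
      · exact hr.1
      · exact h.aux_subset hr
  · rw [Finset.disjoint_left]
    exact fun r hr hr' => (Finset.mem_filter.mp hr).2 (Finset.mem_filter.mp hr').2.1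
  · rw [Finset.disjoint_left]
    intro r hr hr'
    rcases Finset.mem_union.mp hr with hr | hr
    · exact (Finset.mem_filter.mp hr).2 (h.aux_unramified r hr')
    · exact (Finset.mem_filter.mp hr).2.2 hr'
  · -- the condition at `p`
    by_cases hpM : p ∣ M
    · have hd : (p : ℤ) ∣ W.Δ := by_contra fun hg => h.not_flat hpM (by
        have := ECFormal.hasFlatModel_of_good W hp hg 1
        rwa [pow_one] at this)
      exact Or.inr ⟨if_pos hpM, hpM, curveRhoBar_isStrictOrdinaryAt W p hΔ ψ hp2 hd (hss p hp hd),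
        fun hfl => h.not_flat hpM (hasFlatModel_of_curveRhoBar_isFlatAt W p hΔ ψ hfl)⟩
    · exact Or.inl ⟨if_neg hpM, hpM, curveRhoBar_isFlatAt W p hΔ ψ (hflat hpM)⟩
  · obtain ⟨hl', -, hlp⟩ := hmemF.mp (h.aux_subset hl)
    obtain ⟨hgood, -, hne⟩ := h.aux_harmless l hl
    rw [hρbar, curveRhoBar_trace, (CondLevel.frobenius_trace_det W hΔ hl' hlp hgood hA hσ).1,
      ← map_natCast ψ, ← map_one ψ, ← map_add, ← map_pow, ← map_pow]
    exact ψ.injective.ne hne
  · obtain ⟨r, hr, hu, ha⟩ := h.exists_hard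
    exact ⟨r, Finset.mem_filter.mpr ⟨hr, hu, ha⟩⟩
  · -- minimality
    have hdiv : M / r = M' := by rw [← hMr, Nat.mul_div_cancel _ (hHr r hr).1.1.pos]
    exact exists_T_ne_of_not_modular W p hΔ ψ h29 θ hθ
      (hdiv ▸ h.minimal r (hHr r hr).2.2.2 (hHr r hr).2.1 (hHr r hr).2.2.1) θ'

/-- A level of a semistable curve with a hard prime gives a setting. -/
theorem exists_setting_of (h29 : CondLevel.ResidualAttachment) (hspec : R59.StmtSpec)
    (h32 : R59.Stmt32) (W : WeierstrassCurve ℤ) (hΔ : W.Δ ≠ 0) (hss : W.IsSemistableModel)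
    (p : ℕ) [Fact p.Prime] (hp2 : p ≠ 2) (hirr : W.ModRepIsIrreducible p)
    (M : ℕ) [NeZero M] (aux : Finset ℕ) (h : LevelHyp W p M aux) : Nonempty Setting := by
  refine exists_setting_core h29 W hΔ hss p hp2 hirr
    (fun ψ K _ _ G hG V hV => curveRhoBar_tw W p hΔ ψ hp2 hss hirr K G hG V hV) M aux h
    fun hpM => ?_
  obtain ⟨O, _, _, _, _, _, _, _, hpO, -, -⟩ := exists_coeff p M
  haveI : CharP (ResidueField O) p := by
    refine (CharP.charP_iff_prime_eq_zero Fact.out).mpr ?_
    rw [← map_natCast (residue O)]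
    exact (residue_eq_zero_iff _).mpr hpO
  exact hasFlatModel_of_curveRhoBar_isFlatAt W p hΔ (ZMod.castHom (dvd_refl p) (ResidueField O))
    (curveRhoBar_isFlatAt_of_level h29 hspec h32 W p hΔ hp2 hirr hpO _ hpM h.modular)

end Fermat.Agent.LL
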