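import Fermat.Agent.LL.LoweringInputs
import Fermat.Agent.LL.SettingExistsGeneral
import Fermat.Agent.LL.Glue
import Fermat.Agent.LL.Primes
import Fermat.Agent.S32
import Fermat.Agent.S37

/-!
# S38 and S43 from the congruent modules alone
-/

set_option autoImplicit false

noncomputable section

namespace Fermat.Agent.LL

/-- There is no minimal level with a hard prime, given the congruent modules. -/
theorem stmtNoHardLevel_of (hM : StmtPair) : StmtNoHardLevel := fun W p _ hp2 hΔ hW hirr M aux h => by
  have : NeZero M := ⟨h.squarefree.ne_zero⟩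
  obtain ⟨U⟩ := exists_setting_of Mazur.residualAttachment (fun N p _ hc => S37.result N p hc)
    (fun hp hp2 hp𝒪 hpN hpS hNS H => S32.result hp hp2 hp𝒪 hpN hpS hNS H)
    W hΔ hW p hp2 hirr M aux h
  exact false_of_setting stmtPrimes hM U

/-- The type of S38 from the congruent modules. -/
theorem stmt38_of_pair (hM : StmtPair) : R59.Stmt38 :=
  stmt38_of_noHardLevel (stmtNoHardLevel_of hM)

end Fermat.Agent.LL
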