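import Fermat.Agent.LL.Defs
import Fermat.Agent.Patching.Compact
import Mathlib.RingTheory.Finiteness.Defs
import Mathlib.LinearAlgebra.Matrix.NonsingularInverse
import Mathlib.RingTheory.Filtration

/-!
# Patching two congruent modules by compactness

Framed modules over `N/𝔞ₙ` with an action of `A = O⟦σ⟧`, congruent modulo `π`, have a limit: two
modules over `A`, free over `N = O⟦τ⟧`, congruent modulo `π`, inheriting every congruence that
holds at all finite levels.
-/

set_option autoImplicit false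

noncomputable section

namespace Fermat.Agent.LL

open IsLocalRing Matrix Filter
open Fermat.Agent.Patching (pfilter eventually_ge IsLim)

section Frame

variable {A N : Type} [CommRing A] [CommRing N] {d : ℕ} {M : Type} [AddCommGroup M] [Module A M]

/-- The combination of `b` with coefficients from `N` acting through `ψ`. -/
def comb (ψ : N →+* A) (b : Fin d → M) (f : Fin d → N) : M := ∑ j, ψ (f j) • b j

/-- `b` presents `M` as the free module of rank `d` over `N/𝔞`. -/
structure IsFrame (ψ : N →+* A) (𝔞 : Ideal N) (b : Fin d → M) : Prop where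
  surj : ∀ m, ∃ f, comb ψ b f = m
  ker : ∀ f, comb ψ b f = 0 ↔ ∀ j, f j ∈ 𝔞

/-- `Θ` is a matrix of `a` in the frame `b`. -/
def Acts (ψ : N →+* A) (b : Fin d → M) (a : A) (Θ : Matrix (Fin d) (Fin d) N) : Prop :=
  ∀ f, a • comb ψ b f = comb ψ b (Θ *ᵥ f)

variable {ψ : N →+* A} {𝔞 : Ideal N} {b : Fin d → M}

lemma comb_add (f g : Fin d → N) : comb ψ b (f + g) = comb ψ b f + comb ψ b g := by
  simp [comb, add_smul, Finset.sum_add_distrib]

lemma comb_sub (f g : Fin d → N) : comb ψ b (f - g) = comb ψ b f - comb ψ b g := by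
  rw [eq_sub_iff_add_eq, ← comb_add, sub_add_cancel]

lemma comb_smul (s : N) (f : Fin d → N) : comb ψ b (s • f) = ψ s • comb ψ b f := by
  simp [comb, Finset.smul_sum, mul_smul]

lemma comb_single (j : Fin d) : comb ψ b (Pi.single j 1) = b j := by
  rw [comb, Finset.sum_eq_single j (fun i _ hi => by simp [hi]) (by simp)]
  simp

lemma comb_sum {κ : Type*} (s : Finset κ) (f : κ → Fin d → N) :
    comb ψ b (∑ i ∈ s, f i) = ∑ i ∈ s, comb ψ b (f i) := by
  classical
  induction s using Finset.induction with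
  | empty => simp [comb]
  | insert i s hi ih => rw [Finset.sum_insert hi, Finset.sum_insert hi, comb_add, ih]

lemma eq_sum_single (f : Fin d → N) : f = ∑ j, f j • (Pi.single j 1 : Fin d → N) :=
  pi_eq_sum_univ' f

lemma IsFrame.exists_acts (hb : IsFrame ψ 𝔞 b) (a : A) : ∃ Θ, Acts ψ b a Θ := by
  choose g hg using fun j => hb.surj (a • b j)
  refine ⟨Matrix.of fun i j => g j i, fun f => ?_⟩
  have : (Matrix.of fun i j => g j i) *ᵥ f = ∑ j, f j • g j := by
    ext i; simp [Matrix.mulVec, dotProduct, mul_comm]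
  rw [this, comb_sum]
  conv_lhs => rw [eq_sum_single f, comb_sum]
  rw [Finset.smul_sum]
  refine Finset.sum_congr rfl fun j _ => ?_
  rw [comb_smul, comb_smul, comb_single, hg, smul_comm]

lemma Acts.mul {a a' : A} {Θ Θ' : Matrix (Fin d) (Fin d) N} (h : Acts ψ b a Θ)
    (h' : Acts ψ b a' Θ') : Acts ψ b (a * a') (Θ * Θ') := fun f => by
  rw [mul_smul, h' f, h, Matrix.mulVec_mulVec]

lemma Acts.add {a a' : A} {Θ Θ' : Matrix (Fin d) (Fin d) N} (h : Acts ψ b a Θ)
    (h' : Acts ψ b a' Θ') : Acts ψ b (a + a') (Θ + Θ') := fun f => by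
  rw [add_smul, h f, h' f, Matrix.add_mulVec, comb_add]

lemma acts_algebra (s : N) : Acts ψ b (ψ s) (s • 1) := fun f => by
  rw [Matrix.smul_mulVec, Matrix.one_mulVec, comb_smul]

lemma IsFrame.sub_mem (hb : IsFrame ψ 𝔞 b) {a : A} {Θ Θ' : Matrix (Fin d) (Fin d) N}
    (h : Acts ψ b a Θ) (h' : Acts ψ b a Θ') (i j : Fin d) : Θ i j - Θ' i j ∈ 𝔞 := by
  have h0 : comb ψ b ((Θ *ᵥ Pi.single j 1) - Θ' *ᵥ Pi.single j 1) = 0 := by
    rw [comb_sub, ← h, ← h', sub_self]
  simpa [Matrix.mulVec_single] using (hb.ker _).mp h0 i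

/-- Change of frame by an invertible matrix. -/
lemma IsFrame.mul_unit (hb : IsFrame ψ 𝔞 b) (C : Matrix (Fin d) (Fin d) N) (hC : IsUnit C.det)
    {b' : Fin d → M} (hb' : ∀ f, comb ψ b' f = comb ψ b (C *ᵥ f)) : IsFrame ψ 𝔞 b' := by
  have hCC : C * C⁻¹ = 1 := Matrix.mul_nonsing_inv C hC
  have hCC' : C⁻¹ * C = 1 := Matrix.nonsing_inv_mul C hC
  have hmem : ∀ (X : Matrix (Fin d) (Fin d) N) (f : Fin d → N), (∀ j, f j ∈ 𝔞) →
      ∀ j, (X *ᵥ f) j ∈ 𝔞 := fun X f hf j =>
    by simpa [Matrix.mulVec, dotProduct] using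
      Ideal.sum_mem 𝔞 fun l (_ : l ∈ Finset.univ) => Ideal.mul_mem_left 𝔞 (X j l) (hf l)
  refine ⟨fun m => ?_, fun f => ?_⟩
  · obtain ⟨f, rfl⟩ := hb.surj m
    exact ⟨C⁻¹ *ᵥ f, by rw [hb', Matrix.mulVec_mulVec, hCC, Matrix.one_mulVec]⟩
  · rw [hb', hb.ker]
    refine ⟨fun h => ?_, fun h => hmem C f h⟩
    have := hmem C⁻¹ _ h
    rwa [Matrix.mulVec_mulVec, hCC', Matrix.one_mulVec] at this

end Frame

section Limits

variable {N : Type} [CommRing N] [IsLocalRing N] [IsNoetherianRing N]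

lemma eq_of_sub_mem_sup_pow {J : Ideal N} {x : N} (h : ∀ k, x ∈ J ⊔ maximalIdeal N ^ k) :
    x ∈ J := by
  rcases eq_or_ne J ⊤ with rfl | hJ
  · trivial
  have : Nontrivial (N ⧸ J) := Ideal.Quotient.nontrivial_iff.mpr hJ
  have : IsLocalRing (N ⧸ J) := IsLocalRing.of_surjective' _ Ideal.Quotient.mk_surjective
  rw [← Ideal.Quotient.eq_zero_iff_mem]
  have hkey : Ideal.Quotient.mk J x ∈ ⨅ k, (maximalIdeal (N ⧸ J)) ^ k := by
    refine Ideal.mem_iInf.mpr fun k => ?_
    obtain ⟨j, hj, y, hy, rfl⟩ := Submodule.mem_sup.mp (h k)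
    rw [map_add, Ideal.Quotient.eq_zero_iff_mem.mpr hj, zero_add]
    have hloc : IsLocalHom (Ideal.Quotient.mk J) :=
      IsLocalHom.of_surjective _ Ideal.Quotient.mk_surjective
    have hmap : (maximalIdeal N).map (Ideal.Quotient.mk J) ≤ maximalIdeal (N ⧸ J) :=
      Ideal.map_le_iff_le_comap.mpr fun a ha =>
        Ideal.mem_comap.mpr (map_nonunit (Ideal.Quotient.mk J) a ha)
    have := Ideal.mem_map_of_mem (Ideal.Quotient.mk J) hy
    rw [Ideal.map_pow] at this
    exact Ideal.pow_right_mono hmap k this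
  rwa [Ideal.iInf_pow_eq_bot_of_isLocalRing _ (maximalIdeal.isMaximal _).ne_top,
    Ideal.mem_bot] at hkey

lemma isLim_unique {x : ℕ → N} {L L' : N} (h : IsLim x L) (h' : IsLim x L') : L = L' := by
  rw [← sub_eq_zero, ← Ideal.mem_bot]
  refine eq_of_sub_mem_sup_pow fun k => ?_
  obtain ⟨n, hn, hn'⟩ := ((h k).and (h' k)).exists
  refine Ideal.mem_sup_right ?_
  have := sub_mem hn' hn
  rwa [sub_sub_sub_cancel_left] at this

lemma isLim_congr {x y : ℕ → N} {L : N} {𝔞 : ℕ → Ideal N}
    (h𝔞 : ∀ n, 𝔞 n ≤ maximalIdeal N ^ (n + 1)) (hxy : ∀ n, x n - y n ∈ 𝔞 n) (h : IsLim y L) :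
    IsLim x L := fun k => by
  filter_upwards [h k, eventually_ge k] with n hn hk
  have : x n - y n ∈ maximalIdeal N ^ k := Ideal.pow_le_pow_right (by omega) (h𝔞 n (hxy n))
  have := add_mem this hn
  rwa [sub_add_sub_cancel] at this

lemma isLim_const (c : N) : IsLim (fun _ => c) c := fun k => Eventually.of_forall fun _ => by simp

lemma isLim_add {x y : ℕ → N} {L L' : N} (h : IsLim x L) (h' : IsLim y L') :
    IsLim (fun n => x n + y n) (L + L') := fun k => by
  filter_upwards [h k, h' k] with n hn hn'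
  rw [add_sub_add_comm]
  exact add_mem hn hn'

lemma isLim_mul {x y : ℕ → N} {L L' : N} (h : IsLim x L) (h' : IsLim y L') :
    IsLim (fun n => x n * y n) (L * L') := fun k => by
  filter_upwards [h k, h' k] with n hn hn'
  rw [show x n * y n - L * L' = (x n - L) * y n + L * (y n - L') by ring]
  exact add_mem (Ideal.mul_mem_right _ _ hn) (Ideal.mul_mem_left _ _ hn')

lemma isLim_sum {κ : Type*} (s : Finset κ) {x : κ → ℕ → N} {L : κ → N}
    (h : ∀ i ∈ s, IsLim (x i) (L i)) :
    IsLim (fun n => ∑ i ∈ s, x i n) (∑ i ∈ s, L i) := by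
  classical
  induction s using Finset.induction with
  | empty => simpa using isLim_const (0 : N)
  | insert i s hi ih =>
    simp only [Finset.sum_insert hi]
    exact isLim_add (h i (Finset.mem_insert_self i s))
      (ih fun j hj => h j (Finset.mem_insert_of_mem hj))

lemma isLim_mem {J : Ideal N} {x : ℕ → N} {L : N} {𝔞 : ℕ → Ideal N}
    (h𝔞 : ∀ n, 𝔞 n ≤ maximalIdeal N ^ (n + 1)) (hx : ∀ n, x n ∈ J ⊔ 𝔞 n) (h : IsLim x L) :
    L ∈ J := by
  refine eq_of_sub_mem_sup_pow fun k => ?_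
  obtain ⟨n, hn, hk⟩ := ((h k).and (eventually_ge k)).exists
  have h1 : x n ∈ J ⊔ maximalIdeal N ^ k :=
    sup_le_sup_left ((h𝔞 n).trans (Ideal.pow_le_pow_right (by omega))) J (hx n)
  have := sub_mem h1 (Ideal.mem_sup_right hn)
  rwa [sub_sub_cancel] at this

end Limits

variable (O : Type) [CommRing O] [IsDomain O] [IsDiscreteValuationRing O] (σ τ : Type) (d : ℕ)

/-- Two congruent framed modules at one level. -/
structure PatchLevel (𝔞 : Ideal (MvPowerSeries τ O)) : Type 1 where
  M₀ : Type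
  M₁ : Type
  [instAddCommGroup₀ : AddCommGroup M₀]
  [instAddCommGroup₁ : AddCommGroup M₁]
  [instModule₀ : Module (MvPowerSeries σ O) M₀]
  [instModule₁ : Module (MvPowerSeries σ O) M₁]
  /-- The parameters. -/
  ψ : MvPowerSeries τ O →ₐ[O] MvPowerSeries σ O
  b₀ : Fin d → M₀
  b₁ : Fin d → M₁
  frame₀ : IsFrame (ψ : MvPowerSeries τ O →+* MvPowerSeries σ O) 𝔞 b₀
  frame₁ : IsFrame (ψ : MvPowerSeries τ O →+* MvPowerSeries σ O) 𝔞 b₁
  congr : ∃ f : M₀ →ₗ[MvPowerSeries σ O] M₁ ⧸ ((maximalIdeal O).map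
      (algebraMap O (MvPowerSeries σ O)) • (⊤ : Submodule (MvPowerSeries σ O) M₁)),
    Function.Surjective f ∧
      LinearMap.ker f = (maximalIdeal O).map (algebraMap O (MvPowerSeries σ O)) • ⊤

attribute [instance] PatchLevel.instAddCommGroup₀ PatchLevel.instAddCommGroup₁
  PatchLevel.instModule₀ PatchLevel.instModule₁

variable {O} {σ τ} {d}

section Congr

variable {A N : Type} [CommRing A] [CommRing N] {M : Type} [AddCommGroup M] [Module A M]

lemma comb_mulVec (ψ : N →+* A) (b : Fin d → M) (C : Matrix (Fin d) (Fin d) N)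
    (f : Fin d → N) : comb ψ b (C *ᵥ f) = comb ψ (fun j => comb ψ b (Cᵀ j)) f := by
  have : C *ᵥ f = ∑ j, f j • Cᵀ j := by
    ext i; simp [Matrix.mulVec, dotProduct, mul_comm, Matrix.transpose_apply]
  rw [this, comb_sum]
  exact Finset.sum_congr rfl fun j _ => comb_smul _ _

end Congr

/-- The ideal of the uniformiser in `O⟦ν⟧`. -/
abbrev piIdeal (ν : Type) : Ideal (MvPowerSeries ν O) :=
  (maximalIdeal O).map (algebraMap O (MvPowerSeries ν O))

lemma piIdeal_le_maximalIdeal (ν : Type) : piIdeal (O := O) ν ≤ maximalIdeal (MvPowerSeries ν O) := by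
  refine Ideal.map_le_iff_le_comap.mpr fun c hc => ?_
  rw [Ideal.mem_comap, mem_maximalIdeal, mem_nonunits_iff, MvPowerSeries.isUnit_iff_constantCoeff,
    MvPowerSeries.algebraMap_apply, MvPowerSeries.constantCoeff_C]
  simpa using (mem_maximalIdeal c).mp hc

lemma mem_piIdeal_smul_top {M : Type} [AddCommGroup M] [Module (MvPowerSeries σ O) M]
    (ψ : MvPowerSeries τ O →ₐ[O] MvPowerSeries σ O) {𝔞 : Ideal (MvPowerSeries τ O)}
    {b : Fin d → M} (hb : IsFrame (ψ : MvPowerSeries τ O →+* MvPowerSeries σ O) 𝔞 b) (m : M) :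
    m ∈ piIdeal (O := O) σ • (⊤ : Submodule (MvPowerSeries σ O) M) ↔
      ∃ g : Fin d → MvPowerSeries τ O, (∀ j, g j ∈ piIdeal (O := O) τ) ∧
        comb (ψ : MvPowerSeries τ O →+* MvPowerSeries σ O) b g = m := by
  constructor
  · intro hm
    obtain ⟨ϖ, hϖ⟩ := IsDiscreteValuationRing.exists_irreducible O
    have hspan : piIdeal (O := O) σ = Ideal.span {algebraMap O _ ϖ} := by
      rw [piIdeal, hϖ.maximalIdeal_eq, Ideal.map_span, Set.image_singleton]
    refine Submodule.smul_induction_on hm (fun r hr m' _ => ?_) fun x y hx hy => ?_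
    · rw [hspan, Ideal.mem_span_singleton'] at hr
      obtain ⟨a, rfl⟩ := hr
      obtain ⟨g, hg⟩ := hb.surj (a • m')
      refine ⟨algebraMap O (MvPowerSeries τ O) ϖ • g, fun j => ?_, ?_⟩
      · exact Ideal.mul_mem_right _ _ (Ideal.mem_map_of_mem _
          ((mem_maximalIdeal ϖ).mpr hϖ.not_isUnit))
      · rw [comb_smul, hg, RingHom.coe_coe, AlgHom.commutes, mul_comm, mul_smul]
    · obtain ⟨g, hg, rfl⟩ := hx
      obtain ⟨g', hg', rfl⟩ := hy
      exact ⟨g + g', fun j => add_mem (hg j) (hg' j), comb_add _ _⟩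
  · rintro ⟨g, hg, rfl⟩
    refine sum_mem fun j _ => Submodule.smul_mem_smul ?_ trivial
    have := Ideal.mem_map_of_mem (ψ : MvPowerSeries τ O →+* MvPowerSeries σ O) (hg j)
    rwa [piIdeal, Ideal.map_map, AlgHom.comp_algebraMap] at this

/-- The frame of the second module can be chosen so that the actions are congruent modulo `π`. -/
lemma PatchLevel.exists_frame {𝔞 : Ideal (MvPowerSeries τ O)}
    (h𝔞 : 𝔞 ≤ maximalIdeal (MvPowerSeries τ O)) (L : PatchLevel O σ τ d 𝔞) :
    ∃ b : Fin d → L.M₁, IsFrame (L.ψ : MvPowerSeries τ O →+* MvPowerSeries σ O) 𝔞 b ∧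
      ∀ a Θ Θ', Acts (L.ψ : MvPowerSeries τ O →+* MvPowerSeries σ O) L.b₀ a Θ →
        Acts (L.ψ : MvPowerSeries τ O →+* MvPowerSeries σ O) b a Θ' →
        ∀ i j, Θ i j - Θ' i j ∈ piIdeal (O := O) τ ⊔ 𝔞 := by
  obtain ⟨f, hf, -⟩ := L.congr
  set ψ := (L.ψ : MvPowerSeries τ O →+* MvPowerSeries σ O)
  let mk := Submodule.mkQ (piIdeal (O := O) σ • (⊤ : Submodule (MvPowerSeries σ O) L.M₁))
  have hJ : piIdeal (O := O) τ ⊔ 𝔞 ≤ maximalIdeal _ := sup_le (piIdeal_le_maximalIdeal τ) h𝔞
  have hlift : ∀ j, ∃ g, mk (comb ψ L.b₁ g) = f (L.b₀ j) := fun j => by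
    obtain ⟨m, hm⟩ := Submodule.mkQ_surjective _ (f (L.b₀ j))
    obtain ⟨g, rfl⟩ := L.frame₁.surj m
    exact ⟨g, hm⟩
  choose g hg using hlift
  let C : Matrix (Fin d) (Fin d) (MvPowerSeries τ O) := Matrix.of fun i j => g j i
  have hC : ∀ v, f (comb ψ L.b₀ v) = mk (comb ψ L.b₁ (C *ᵥ v)) := by
    intro v
    rw [comb_mulVec]
    simp only [comb, map_sum, map_smul]
    refine Finset.sum_congr rfl fun j _ => ?_
    rw [← hg]
    simp only [comb, map_sum, map_smul]
    rfl
  have hmk : ∀ v w, mk (comb ψ L.b₁ v) = mk (comb ψ L.b₁ w) →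
      ∀ i, v i - w i ∈ piIdeal (O := O) τ ⊔ 𝔞 := by
    intro v w h i
    rw [Submodule.mkQ_apply, Submodule.mkQ_apply, Submodule.Quotient.eq, ← comb_sub] at h
    obtain ⟨u, hu, hu'⟩ := (mem_piIdeal_smul_top L.ψ L.frame₁ _).mp h
    rw [← sub_eq_zero, ← comb_sub, L.frame₁.ker] at hu'
    have := sub_mem (Ideal.mem_sup_left (T := 𝔞) (hu i))
      (Ideal.mem_sup_right (S := piIdeal (O := O) τ) (hu' i))
    simpa using this
  have hdet : IsUnit C.det := by
    have hv : ∀ i, ∃ v, f (comb ψ L.b₀ v) = mk (comb ψ L.b₁ (Pi.single i 1)) := fun i => by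
      obtain ⟨m, hm⟩ := hf (mk (comb ψ L.b₁ (Pi.single i 1)))
      obtain ⟨v, rfl⟩ := L.frame₀.surj m
      exact ⟨v, hm⟩
    choose v hv using hv
    let V : Matrix (Fin d) (Fin d) (MvPowerSeries τ O) := Matrix.of fun i j => v j i
    have hCV : (C * V).map (IsLocalRing.residue _) = 1 := by
      ext i j
      have h1 := hJ (hmk _ _ ((hC (v j)).symm.trans (hv j)) i)
      rw [← residue_eq_zero_iff, map_sub, sub_eq_zero] at h1
      rw [Matrix.map_apply, show (C * V) i j = (C *ᵥ v j) i from rfl, h1]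
      rcases eq_or_ne i j with rfl | hij
      · simp
      · simp [hij, Matrix.one_apply_ne hij]
    have h2 := congrArg Matrix.det hCV
    rw [← RingHom.mapMatrix_apply, ← RingHom.map_det, Matrix.det_one, Matrix.det_mul] at h2
    refine isUnit_of_mul_isUnit_left (y := V.det) ?_
    by_contra hu
    rw [← mem_nonunits_iff, ← mem_maximalIdeal, ← residue_eq_zero_iff, h2] at hu
    exact one_ne_zero hu
  refine ⟨fun j => comb ψ L.b₁ (Cᵀ j),
    L.frame₁.mul_unit C hdet (fun v => (comb_mulVec _ _ _ _).symm), ?_⟩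
  intro a Θ Θ' hΘ hΘ' i j
  have h1 := hC (Θ *ᵥ Pi.single j 1)
  rw [← hΘ, map_smul, hC, ← map_smul] at h1
  have h2 : a • comb ψ L.b₁ (C *ᵥ Pi.single j 1) = comb ψ L.b₁ (C *ᵥ (Θ' *ᵥ Pi.single j 1)) := by
    rw [comb_mulVec, comb_mulVec]; exact hΘ' _
  rw [h2] at h1
  have h3 := hmk _ _ h1
  have hCC : C⁻¹ * C = 1 := Matrix.nonsing_inv_mul C hdet
  have h4 : (Θ' *ᵥ Pi.single j 1 - Θ *ᵥ Pi.single j 1) =
      C⁻¹ *ᵥ (C *ᵥ (Θ' *ᵥ Pi.single j 1) - C *ᵥ (Θ *ᵥ Pi.single j 1)) := by
    rw [← Matrix.mulVec_sub, Matrix.mulVec_mulVec, hCC, Matrix.one_mulVec]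
  have h5 : (Θ' *ᵥ Pi.single j 1 - Θ *ᵥ Pi.single j 1) i ∈ piIdeal (O := O) τ ⊔ 𝔞 := by
    rw [h4, Matrix.mulVec, dotProduct]
    exact Ideal.sum_mem _ fun l _ => Ideal.mul_mem_left _ _ (h3 l)
  have h6 := neg_mem h5
  simpa [Matrix.mulVec_single] using h6

section Limit

variable [IsAdicComplete (maximalIdeal O) O] [Finite (ResidueField O)] [Finite σ] [Finite τ]

lemma finite_residueField : Finite (ResidueField (MvPowerSeries τ O)) := by
  have : IsLocalHom (algebraMap O (MvPowerSeries τ O)) := ⟨fun c hc => by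
    rw [MvPowerSeries.isUnit_iff_constantCoeff, MvPowerSeries.algebraMap_apply,
      MvPowerSeries.constantCoeff_C] at hc
    simpa using hc⟩
  refine Finite.of_surjective (ResidueField.map (algebraMap O (MvPowerSeries τ O))) fun x => ?_
  obtain ⟨f, rfl⟩ := residue_surjective x
  refine ⟨residue O (MvPowerSeries.constantCoeff f), ?_⟩
  rw [ResidueField.map_residue, ← sub_eq_zero, ← map_sub, residue_eq_zero_iff,
    mem_maximalIdeal, mem_nonunits_iff, MvPowerSeries.isUnit_iff_constantCoeff, map_sub,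
    MvPowerSeries.algebraMap_apply, MvPowerSeries.constantCoeff_C]
  simp

lemma sup_mul_sup_le {R : Type} [CommRing R] (I J K : Ideal R) :
    (I ⊔ K) * (J ⊔ K) ≤ I * J ⊔ K := by
  refine Ideal.mul_le.mpr fun x hx y hy => ?_
  obtain ⟨a, ha, c, hc, rfl⟩ := Submodule.mem_sup.mp hx
  obtain ⟨b, hb, c', hc', rfl⟩ := Submodule.mem_sup.mp hy
  rw [show (a + c) * (b + c') = a * b + (c * (b + c') + a * c') by ring]
  exact add_mem (Ideal.mem_sup_left (Ideal.mul_mem_mul ha hb))
    (Ideal.mem_sup_right (add_mem (Ideal.mul_mem_right _ _ hc) (Ideal.mul_mem_left _ _ hc')))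

/-- Elements deep in the maximal ideal act by small matrices. -/
lemma acts_small {𝔞 : Ideal (MvPowerSeries τ O)} (h𝔞 : 𝔞 ≤ maximalIdeal (MvPowerSeries τ O))
    {M : Type} [AddCommGroup M] [Module (MvPowerSeries σ O) M]
    {ψ : MvPowerSeries τ O →+* MvPowerSeries σ O} {b : Fin d → M} (hb : IsFrame ψ 𝔞 b) (k : ℕ)
    {a : MvPowerSeries σ O}
    (ha : a ∈ maximalIdeal (MvPowerSeries σ O) ^
      (Nat.card (Fin d → ResidueField (MvPowerSeries τ O)) * k))
    {Θ : Matrix (Fin d) (Fin d) (MvPowerSeries τ O)} (hΘ : Acts ψ b a Θ) (i j : Fin d) :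
    Θ i j ∈ maximalIdeal (MvPowerSeries τ O) ^ k ⊔ 𝔞 := by
  have := finite_residueField (O := O) (τ := τ)
  set K := Nat.card (Fin d → ResidueField (MvPowerSeries τ O))
  let T : ℕ → Ideal (MvPowerSeries σ O) := fun k =>
    { carrier := {a | ∀ Θ, Acts ψ b a Θ → ∀ i j, Θ i j ∈ maximalIdeal _ ^ k ⊔ 𝔞}
      add_mem' := fun {x y} hx hy Θ hΘ i j => by
        obtain ⟨X, hX⟩ := hb.exists_acts x
        obtain ⟨Y, hY⟩ := hb.exists_acts y
        have h := hb.sub_mem hΘ (hX.add hY) i j
        have := add_mem (Ideal.mem_sup_right (S := maximalIdeal _ ^ k) h)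
          (add_mem (hx X hX i j) (hy Y hY i j))
        simpa using this
      zero_mem' := fun Θ hΘ i j => by
        have hzero : Acts ψ b 0 0 := fun f => by simp [comb]
        simpa using Ideal.mem_sup_right (S := maximalIdeal _ ^ k) (hb.sub_mem hΘ hzero i j)
      smul_mem' := fun c x hx Θ hΘ i j => by
        obtain ⟨X, hX⟩ := hb.exists_acts x
        obtain ⟨C, hC⟩ := hb.exists_acts c
        have h := hb.sub_mem hΘ (hC.mul hX) i j
        have := add_mem (Ideal.mem_sup_right (S := maximalIdeal _ ^ k) h)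
          (show (C * X) i j ∈ _ by
            rw [Matrix.mul_apply]
            exact Ideal.sum_mem _ fun l _ => Ideal.mul_mem_left _ _ (hx X hX l j))
        simpa using this }
  suffices hmain : ∀ k, maximalIdeal (MvPowerSeries σ O) ^ (K * k) ≤ T k from
    hmain k ha Θ hΘ i j
  intro k
  induction k with
  | zero => intro x _ Θ _ i j; simp
  | succ k ih =>
    rw [Nat.mul_succ, pow_add]
    have h1 : maximalIdeal (MvPowerSeries σ O) ^ K ≤ T 1 := by
      let r := IsLocalRing.residue (MvPowerSeries τ O)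
      choose Act hAct using fun a => hb.exists_acts a
      have hwd : ∀ a Θ, Acts ψ b a Θ → Θ.map r = (Act a).map r := fun a Θ h => by
        ext i j
        rw [Matrix.map_apply, Matrix.map_apply, ← sub_eq_zero, ← map_sub, residue_eq_zero_iff]
        exact h𝔞 (hb.sub_mem h (hAct a) i j)
      let Λ : MvPowerSeries σ O →+* Matrix (Fin d) (Fin d) (ResidueField (MvPowerSeries τ O)) :=
        { toFun := fun a => (Act a).map r
          map_one' := by
            rw [← hwd 1 1 fun f => by rw [one_smul, Matrix.one_mulVec]]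
            simp
          map_mul' := fun x y => by
            rw [← hwd _ _ ((hAct x).mul (hAct y))]
            exact Matrix.map_mul
          map_zero' := by
            rw [← hwd 0 0 fun f => by simp [comb]]
            simp
          map_add' := fun x y => by
            rw [← hwd _ _ ((hAct x).add (hAct y))]
            exact Matrix.map_add r (map_add r) _ _ }
      let φ := (Matrix.toLinAlgEquiv' (R := ResidueField (MvPowerSeries τ O))
        (n := Fin d)).toRingEquiv.toRingHom.comp Λ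
      let : Module (MvPowerSeries σ O) (Fin d → ResidueField (MvPowerSeries τ O)) :=
        Module.compHom _ φ
      intro x hx Θ hΘ i j
      have h2 : x • (Pi.single j 1 : Fin d → ResidueField (MvPowerSeries τ O)) = 0 := by
        have h3 := Submodule.smul_mem_smul hx (Submodule.mem_top
          (x := (Pi.single j 1 : Fin d → ResidueField (MvPowerSeries τ O))))
        rwa [Fermat.Agent.Patching.maximalIdeal_pow_card_smul_top, Submodule.mem_bot] at h3
      have h4 : φ x (Pi.single j 1) = 0 := h2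
      have h5 := congrFun h4 i
      have h6 : r (Θ i j) = 0 := by
        have h7 : (Act x).map r i j = 0 := by simpa [φ, Λ, Matrix.mulVec_single] using h5
        rw [← hwd x Θ hΘ] at h7
        exact h7
      rw [pow_one]
      exact Ideal.mem_sup_left ((residue_eq_zero_iff _).mp h6)
    refine Ideal.mul_le.mpr fun x hx y hy Θ hΘ i j => ?_
    obtain ⟨X, hX⟩ := hb.exists_acts x
    obtain ⟨Y, hY⟩ := hb.exists_acts y
    have h := hb.sub_mem hΘ (hX.mul hY) i j
    have hXY : (X * Y) i j ∈ maximalIdeal _ ^ (k + 1) ⊔ 𝔞 := by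
      rw [Matrix.mul_apply]
      refine Ideal.sum_mem _ fun l _ => ?_
      have := Ideal.mul_mem_mul (ih hx X hX i l) (h1 hy Y hY l j)
      refine (?_ : (maximalIdeal (MvPowerSeries τ O) ^ k ⊔ 𝔞) *
        (maximalIdeal (MvPowerSeries τ O) ^ 1 ⊔ 𝔞) ≤ _) this
      exact (sup_mul_sup_le _ _ _).trans (sup_le_sup_right (pow_add _ k 1).ge _)
    have := add_mem (Ideal.mem_sup_right (S := maximalIdeal _ ^ (k + 1)) h) hXY
    simpa using this

variable (𝔞 : ℕ → Ideal (MvPowerSeries τ O))

/-- Limit of parameters. -/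
lemma exists_limHom (ψ : ℕ → MvPowerSeries τ O →ₐ[O] MvPowerSeries σ O) :
    ∃ Ψ : MvPowerSeries τ O →ₐ[O] MvPowerSeries σ O, ∀ s, IsLim (fun n => ψ n s) (Ψ s) := by
  choose Ψ hΨ using fun s => Fermat.Agent.Patching.exists_isLim (fun n => ψ n s)
  refine ⟨{ toFun := Ψ, map_one' := ?_, map_mul' := fun x y => ?_, map_zero' := ?_,
            map_add' := fun x y => ?_, commutes' := fun c => ?_ }, hΨ⟩
  · exact isLim_unique (hΨ 1) (by simpa using isLim_const (1 : MvPowerSeries σ O))
  · exact isLim_unique (hΨ _) (by simpa using isLim_mul (hΨ x) (hΨ y))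
  · exact isLim_unique (hΨ 0) (by simpa using isLim_const (0 : MvPowerSeries σ O))
  · exact isLim_unique (hΨ _) (by simpa using isLim_add (hΨ x) (hΨ y))
  · exact isLim_unique (hΨ _) (by simpa using isLim_const (algebraMap O (MvPowerSeries σ O) c))

/-- Limit of the actions on a sequence of framed modules, with transfer of congruences. -/
lemma exists_limAct (h𝔞 : ∀ n, 𝔞 n ≤ maximalIdeal (MvPowerSeries τ O) ^ (n + 1))
    (M : ℕ → Type) [∀ n, AddCommGroup (M n)] [∀ n, Module (MvPowerSeries σ O) (M n)]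
    (ψ : ℕ → MvPowerSeries τ O →ₐ[O] MvPowerSeries σ O) (b : ∀ n, Fin d → M n)
    (hb : ∀ n, IsFrame (ψ n : MvPowerSeries τ O →+* MvPowerSeries σ O) (𝔞 n) (b n))
    (Ψ : MvPowerSeries τ O →ₐ[O] MvPowerSeries σ O) (hΨ : ∀ s, IsLim (fun n => ψ n s) (Ψ s)) :
    ∃ Θ : MvPowerSeries σ O →+* Matrix (Fin d) (Fin d) (MvPowerSeries τ O),
      (∀ s, Θ (Ψ s) = s • 1) ∧
      (∀ a (X : ℕ → Matrix (Fin d) (Fin d) (MvPowerSeries τ O)), (∀ n, Acts (ψ n : MvPowerSeries τ O →+* MvPowerSeries σ O) (b n) a (X n)) →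
        ∀ i j, IsLim (fun n => X n i j) (Θ a i j)) ∧
      ∀ (J : Ideal (MvPowerSeries τ O)) (κ : Type) [Fintype κ] (a : MvPowerSeries σ O)
        (S : κ → MvPowerSeries σ O),
        (∀ n (m : M n), a • m ∈ Ideal.span (Set.range S) • (⊤ : Submodule (MvPowerSeries σ O) (M n)) ⊔
          J.map (ψ n : MvPowerSeries τ O →+* MvPowerSeries σ O) • (⊤ : Submodule (MvPowerSeries σ O) (M n))) →
        ∃ C : κ → Matrix (Fin d) (Fin d) (MvPowerSeries τ O),
          ∀ i j, (Θ a - ∑ s, Θ (S s) * C s) i j ∈ J := by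
  have h𝔞' : ∀ n, 𝔞 n ≤ maximalIdeal _ := fun n => (h𝔞 n).trans (Ideal.pow_le_self (by omega))
  choose Act hAct using fun n a => (hb n).exists_acts a
  choose T hT using fun a i j => Fermat.Agent.Patching.exists_isLim (fun n => Act n a i j)
  have hlim : ∀ a (X : ℕ → Matrix (Fin d) (Fin d) (MvPowerSeries τ O)), (∀ n, Acts (ψ n : MvPowerSeries τ O →+* MvPowerSeries σ O) (b n) a (X n)) →
      ∀ i j, IsLim (fun n => X n i j) (T a i j) := fun a X hX i j =>
    isLim_congr h𝔞 (fun n => (hb n).sub_mem (hX n) (hAct n a) i j) (hT a i j)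
  have huniq : ∀ a (X : ℕ → Matrix (Fin d) (Fin d) (MvPowerSeries τ O))
      (Y : Matrix (Fin d) (Fin d) (MvPowerSeries τ O)),
      (∀ n, Acts (ψ n : MvPowerSeries τ O →+* MvPowerSeries σ O) (b n) a (X n)) →
      (∀ i j, IsLim (fun n => X n i j) (Y i j)) → Matrix.of (T a) = Y := fun a X Y hX hY => by
    ext i j : 1
    exact isLim_unique (hlim a X hX i j) (hY i j)
  let Θ : MvPowerSeries σ O →+* Matrix (Fin d) (Fin d) (MvPowerSeries τ O) :=
    { toFun := fun a => Matrix.of (T a)
      map_one' := huniq 1 (fun _ => 1) 1 (fun n f => by rw [one_smul, Matrix.one_mulVec])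
        fun i j => isLim_const _
      map_mul' := fun x y => huniq _ (fun n => Act n x * Act n y) _
        (fun n => (hAct n x).mul (hAct n y)) fun i j => by
          simp only [Matrix.mul_apply]
          exact isLim_sum _ fun l _ => isLim_mul (hT x i l) (hT y l j)
      map_zero' := huniq 0 (fun _ => 0) 0 (fun n f => by simp [comb]) fun i j => isLim_const _
      map_add' := fun x y => huniq _ (fun n => Act n x + Act n y) _
        (fun n => (hAct n x).add (hAct n y)) fun i j => isLim_add (hT x i j) (hT y i j) }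
  refine ⟨Θ, fun s => ?_, hlim, fun J κ _ a S hmem => ?_⟩
  · ext i j : 1
    refine isLim_unique (hlim (Ψ s) (fun n => Act n (Ψ s)) (fun n => hAct n _) i j) fun k => ?_
    filter_upwards [hΨ s (Nat.card (Fin d → ResidueField (MvPowerSeries τ O)) * k),
      eventually_ge k] with n hn hk
    obtain ⟨D, hD⟩ := (hb n).exists_acts (ψ n s - Ψ s)
    have h1 := acts_small (h𝔞' n) (hb n) k hn hD i j
    have h2 := (hb n).sub_mem (acts_algebra s)
      (show Acts _ (b n) (ψ n s : MvPowerSeries σ O) (D + Act n (Ψ s)) by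
        simpa using hD.add (hAct n (Ψ s))) i j
    have hk' : maximalIdeal (MvPowerSeries τ O) ^ k ⊔ 𝔞 n ≤ maximalIdeal _ ^ k :=
      sup_le le_rfl ((h𝔞 n).trans (Ideal.pow_le_pow_right (by omega)))
    have := hk' (sub_mem (neg_mem h1) (Ideal.mem_sup_right (S := maximalIdeal _ ^ k) h2))
    convert this using 1
    simp
    ring
  · have hC : ∀ n, ∃ C : κ → Matrix (Fin d) (Fin d) (MvPowerSeries τ O),
        ∀ i j, (Act n a - ∑ s, Act n (S s) * C s) i j ∈ J ⊔ 𝔞 n := by
      intro n
      set ψn := (ψ n : MvPowerSeries τ O →+* MvPowerSeries σ O)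
      have hrep : ∀ m ∈ Ideal.span (Set.range S) • (⊤ : Submodule (MvPowerSeries σ O) (M n)) ⊔ J.map ψn • (⊤ : Submodule (MvPowerSeries σ O) (M n)),
          ∃ (c : κ → Fin d → MvPowerSeries τ O) (e : Fin d → MvPowerSeries τ O),
            (∀ i, e i ∈ J) ∧ m = comb ψn (b n) (∑ s, Act n (S s) *ᵥ c s + e) := by
        intro m hm
        obtain ⟨x, hx, y, hy, rfl⟩ := Submodule.mem_sup.mp hm
        obtain ⟨c, hc⟩ : ∃ c : κ → Fin d → MvPowerSeries τ O,
            x = comb ψn (b n) (∑ s, Act n (S s) *ᵥ c s) := by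
          have : ∃ v : κ → M n, x = ∑ s, S s • v s := by
            refine Submodule.smul_induction_on hx (fun r hr v _ => ?_) fun u w hu hw => ?_
            · obtain ⟨g, rfl⟩ := (Ideal.mem_span_range_iff_exists_fun).mp hr
              exact ⟨fun s => g s • v, by
                rw [Finset.sum_smul]
                exact Finset.sum_congr rfl fun s _ => by rw [mul_comm, mul_smul]⟩
            · obtain ⟨v, rfl⟩ := hu
              obtain ⟨v', rfl⟩ := hw
              exact ⟨v + v', by simp [smul_add, Finset.sum_add_distrib]⟩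
          obtain ⟨v, rfl⟩ := this
          choose c hc using fun s => (hb n).surj (v s)
          refine ⟨c, ?_⟩
          rw [comb_sum]
          exact Finset.sum_congr rfl fun s _ => by rw [← hc s]; exact hAct n (S s) _
        obtain ⟨e, he, hye⟩ : ∃ e : Fin d → MvPowerSeries τ O,
            (∀ i, e i ∈ J) ∧ y = comb ψn (b n) e := by
          refine Submodule.smul_induction_on hy (fun r hr v _ => ?_) fun u w hu hw => ?_
          · induction hr using Submodule.span_induction generalizing v with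
            | mem x hx =>
              obtain ⟨t, ht, rfl⟩ := hx
              obtain ⟨g, rfl⟩ := (hb n).surj v
              exact ⟨t • g, fun i => Ideal.mul_mem_right _ _ ht, (comb_smul t g).symm⟩
            | zero => exact ⟨0, fun i => zero_mem _, by simp [comb]⟩
            | add x x' _ _ hx hx' =>
              obtain ⟨e, he, h⟩ := hx v Submodule.mem_top
              obtain ⟨e', he', h'⟩ := hx' v Submodule.mem_top
              exact ⟨e + e', fun i => add_mem (he i) (he' i), by rw [add_smul, h, h', comb_add]⟩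
            | smul r' x _ hx =>
              obtain ⟨e, he, h⟩ := hx (r' • v) Submodule.mem_top
              exact ⟨e, he, by rw [smul_eq_mul, mul_comm, mul_smul, h]⟩
          · obtain ⟨e, he, rfl⟩ := hu
            obtain ⟨e', he', rfl⟩ := hw
            exact ⟨e + e', fun i => add_mem (he i) (he' i), (comb_add _ _).symm⟩
        exact ⟨c, e, he, by rw [comb_add, ← hc, ← hye]⟩
      have hcol : ∀ j, ∃ (c : κ → Fin d → MvPowerSeries τ O),
          ∀ i, ((Act n a *ᵥ Pi.single j 1) - ∑ s, Act n (S s) *ᵥ c s) i ∈ J ⊔ 𝔞 n := by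
        intro j
        obtain ⟨c, e, he, hce⟩ := hrep _ (hmem n (comb ψn (b n) (Pi.single j 1)))
        rw [hAct n a, ← sub_eq_zero, ← comb_sub, (hb n).ker] at hce
        refine ⟨c, fun i => ?_⟩
        have := add_mem (Ideal.mem_sup_right (S := J) (hce i))
          (Ideal.mem_sup_left (T := 𝔞 n) (he i))
        convert this using 1
        simp only [Pi.sub_apply, Pi.add_apply]
        ring
      choose c hc using hcol
      refine ⟨fun s => Matrix.of fun l j => c j s l, fun i j => ?_⟩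
      have h1 := hc j i
      simpa [Matrix.mulVec_single, Matrix.mulVec, dotProduct, Matrix.mul_apply,
        Finset.sum_apply, Matrix.sum_apply] using h1
    choose C hC using hC
    choose C' hC' using fun s i j => Fermat.Agent.Patching.exists_isLim (fun n => C n s i j)
    refine ⟨fun s => Matrix.of (C' s), fun i j => ?_⟩
    refine isLim_mem h𝔞 (fun n => hC n i j) ?_
    simp only [Matrix.sub_apply, Matrix.sum_apply, Matrix.mul_apply, Matrix.of_apply]
    refine fun k => ?_
    have h1 := hT a i j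
    have h2 : IsLim (fun n => ∑ s, ∑ l, Act n (S s) i l * C n s l j)
        (∑ s, ∑ l, T (S s) i l * C' s l j) :=
      isLim_sum _ fun s _ => isLim_sum _ fun l _ => isLim_mul (hT (S s) i l) (hC' s l j)
    filter_upwards [h1 k, h2 k] with n hn hn'
    have := sub_mem hn hn'
    rwa [sub_sub_sub_comm] at this

end Limit

end Fermat.Agent.LL
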