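import Fermat.Agent.LL.Setting
import Fermat.Agent.TW.Relaxed
import Fermat.Agent.TW.FlatLocal
import Fermat.Agent.Tangent.Relative

/-!
# Presentations of deformation rings over the local variables

`exists_primes_presentation`: for a residual representation that is flat or strictly ordinary at
`p` and unipotent at the other primes of `Smin`, auxiliary primes can be chosen so that every
deformation ring is a quotient of the power series ring in the entries of Frobenius and tame
inertia at finitely many further primes and `g` variables, `g` independent of the level.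
-/

set_option autoImplicit false
set_option linter.style.haveILetI false

noncomputable section

open IsLocalRing groupCohomology ExtCitation Polynomial Module

namespace Fermat.Agent.LL

local notation "Γℚ" => (AlgebraicClosure ℚ ≃ₐ[ℚ] AlgebraicClosure ℚ)

/-- The condition at `p` of a kind of deformation problem. -/
def atP (k : R59.Kind) (p : ℕ) :
    ∀ ⦃A : Type⦄ [CommRing A] [IsLocalRing A], GaloisRepAdic A → Prop :=
  fun _A _ _ ρ => match k with
    | .flat => ρ.IsFlatAt p
    | .strict => ρ.IsStrictOrdinaryAt p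
    | .ord => ρ.IsOrdinaryAt p

section Prime

variable {k : Type} [Field k] {ρbar : ResidualGaloisRep k} {r : ℕ}

theorem exists_rho_eq_smul (hr : r.Prime) (hur : ρbar.IsUnramifiedAt r) (s : k)
    (hscal : ∀ A : ValuationSubring (AlgebraicClosure ℚ), A.LiesOverPrime r →
      ∀ σ : Γℚ, A.IsFrobeniusAt σ r → ρbar.ρ σ = s • (1 : Module.End k ρbar.V))
    {P : ValuationSubring (AlgebraicClosure ℚ)} (hP : P.LiesOverPrime r) {σ : Γℚ}
    (hσ : σ ∈ P.decompositionSubgroup ℚ) : ∃ t : k, ρbar.ρ σ = t • 1 := by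
  obtain ⟨L, hL, hρ⟩ := ρbar.factorsThroughFiniteLevel
  haveI := hL
  obtain ⟨Φ, hΦ⟩ := Galois.exists_isFrobeniusAt hP hr
  obtain ⟨m, j, hj, hfix⟩ := Galois.exists_pow_inertia_fixing hP hr L hΦ hσ
  refine ⟨s ^ m, ?_⟩
  have h1 := hρ _ ((IntermediateField.mem_fixingSubgroup_iff _ _).1 hfix)
  have hσeq : σ = Φ ^ m * j * ((Φ ^ m * j)⁻¹ * σ) := by rw [mul_inv_cancel_left]
  rw [hσeq, map_mul, h1, mul_one, map_mul, map_pow, hscal P hP Φ hΦ, hur P hP j hj, mul_one,
    _root_.smul_pow, one_pow]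

theorem ad0_eq_one_of_scalar (hr : r.Prime) (hur : ρbar.IsUnramifiedAt r) (s : k)
    (hscal : ∀ A : ValuationSubring (AlgebraicClosure ℚ), A.LiesOverPrime r →
      ∀ σ : Γℚ, A.IsFrobeniusAt σ r → ρbar.ρ σ = s • (1 : Module.End k ρbar.V))
    {P : ValuationSubring (AlgebraicClosure ℚ)} (hP : P.LiesOverPrime r) {σ : Γℚ}
    (hσ : σ ∈ P.decompositionSubgroup ℚ) : (TW.ad0 ρbar).ρ σ = 1 := by
  obtain ⟨t, ht⟩ := exists_rho_eq_smul hr hur s hscal hP hσ
  refine LinearMap.ext fun X => Subtype.ext ?_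
  rw [TW.ad0_rho_coe]
  show ρbar.ρ σ * ((X : TW.adZeroSpace ρbar).1 * ρbar.ρ σ⁻¹) = (X : TW.adZeroSpace ρbar).1
  have h := TW.rhoMulInv ρbar σ
  rw [ht, smul_mul_assoc, one_mul] at h
  rw [ht, smul_mul_assoc, one_mul, ← mul_smul_comm, h, mul_one]

/-- A cocycle vanishing at a Frobenius and at a tame generator of a prime where `ρbar` is scalar
vanishes on every decomposition group over that prime. -/
theorem cocycle_eq_zero_of_scalar {p : ℕ} [CharP k p] (hr : r.Prime)
    (hur : ρbar.IsUnramifiedAt r) (s : k)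
    (hscal : ∀ A : ValuationSubring (AlgebraicClosure ℚ), A.LiesOverPrime r →
      ∀ σ : Γℚ, A.IsFrobeniusAt σ r → ρbar.ρ σ = s • (1 : Module.End k ρbar.V))
    {Q : ValuationSubring (AlgebraicClosure ℚ)} (hQ : Q.LiesOverPrime r) {φ τ : Γℚ}
    (hφ : Q.IsFrobeniusAt φ r) (hgenτ : IsTameGen p r Q φ τ) (c : cocycles₁ (TW.ad0 ρbar))
    (hc : IsLevelConstant₁ (MonoidHom.id Γℚ) c) (hΦ : c φ = 0) (hτ : c τ = 0)
    {P : ValuationSubring (AlgebraicClosure ℚ)} (hP : P.LiesOverPrime r) {σ : Γℚ}
    (hσ : σ ∈ P.decompositionSubgroup ℚ) : c σ = 0 := by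
  have hmul : ∀ a b, c (a * b) = (TW.ad0 ρbar).ρ a (c b) + c a := fun a b =>
    (mem_cocycles₁_iff c.1).1 c.2 a b
  have hadd : ∀ a ∈ Q.decompositionSubgroup ℚ, ∀ b, c (a * b) = c a + c b := fun a ha b => by
    rw [hmul, ad0_eq_one_of_scalar hr hur s hscal hQ ha, Module.End.one_apply, add_comm]
  obtain ⟨F, hF, hcF⟩ := hc
  haveI := hF
  have hfix : ∀ s, (∀ x ∈ F, s x = x) → c s = 0 := fun s hs => by
    have h := hcF 1 s ((IntermediateField.mem_fixingSubgroup_iff _ _).2 hs)
    rwa [one_mul, cocycles₁_map_one] at h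
  let f : Q.decompositionSubgroup ℚ →* Multiplicative (TW.ad0 ρbar) :=
    MonoidHom.mk' (fun a => Multiplicative.ofAdd (c a.1)) fun a b => by
      show Multiplicative.ofAdd (c (a.1 * b.1)) = _
      rw [hadd a.1 a.2]; rfl
  have hτmem := Galois.inertia_le_decomposition _ hgenτ.mem
  obtain ⟨hgen, -⟩ := hgenτ.gen _ f F hF
    (fun a ha => congrArg Multiplicative.ofAdd (hfix a.1 ha))
    (fun a _ => ⟨1, by
      rw [pow_one]
      show Multiplicative.ofAdd (p • c a.1) = 1
      rw [← ofAdd_zero]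
      refine congrArg Multiplicative.ofAdd ?_
      show p • c a.1 = 0
      rw [← Nat.cast_smul_eq_nsmul k, CharP.cast_eq_zero, zero_smul]⟩)
    ⟨τ, hτmem⟩ ⟨φ, hφ.mem_decompositionSubgroup⟩ rfl rfl
  have hin : ∀ a ∈ Q.inertiaSubgroupIn ℚ, c a = 0 := by
    intro a ha
    have h := hgen ⟨a, Galois.inertia_le_decomposition _ ha⟩ ha
    rw [show f ⟨τ, hτmem⟩ = 1 from congrArg Multiplicative.ofAdd hτ,
      Subgroup.zpowers_one_eq_bot, Subgroup.mem_bot] at h
    exact congrArg Multiplicative.toAdd h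
  have hpow : ∀ m : ℕ, c (φ ^ m) = 0 := by
    intro m
    induction m with
    | zero => rw [pow_zero, cocycles₁_map_one]
    | succ m ih =>
      rw [pow_succ, hadd _ (pow_mem hφ.mem_decompositionSubgroup m), ih, hΦ,
        add_zero]
  have hD : ∀ a ∈ Q.decompositionSubgroup ℚ, c a = 0 := by
    intro a ha
    obtain ⟨m, j, hj, hs⟩ := Galois.exists_pow_inertia_fixing hQ hr F hφ ha
    have hmem : φ ^ m * j ∈ Q.decompositionSubgroup ℚ :=
      mul_mem (pow_mem hφ.mem_decompositionSubgroup m)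
        (Galois.inertia_le_decomposition _ hj)
    have : a = φ ^ m * j * ((φ ^ m * j)⁻¹ * a) := by rw [mul_inv_cancel_left]
    rw [this, hadd _ hmem, hfix _ ((IntermediateField.mem_fixingSubgroup_iff _ _).1 hs), add_zero,
      hadd _ (pow_mem hφ.mem_decompositionSubgroup m), hpow, hin j hj, add_zero]
  obtain ⟨g, rfl⟩ := Galois.exists_smul_eq hQ hP hr
  have hd := Galois.mem_decomposition_smul_iff.1 hσ
  have e1 : c (g * (g⁻¹ * σ * g)) = c g := by
    rw [hmul, hD _ hd, map_zero, zero_add]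
  rw [show g * (g⁻¹ * σ * g) = σ * g by group, hmul, ad0_eq_one_of_scalar hr hur s hscal hP hσ,
    Module.End.one_apply] at e1
  exact add_eq_left.1 e1


end Prime

variable {O : Type} [CommRing O] [IsDomain O] [IsDiscreteValuationRing O]
  [IsAdicComplete (maximalIdeal O) O] [Finite (ResidueField O)]

set_option maxHeartbeats 800000 in
-- one long construction
theorem exists_primes_presentation (p : ℕ) [Fact p.Prime] (hp2 : p ≠ 2)
    (hp : (p : O) ∈ maximalIdeal O) (ρbar : ResidualGaloisRep (ResidueField O))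
    (habs : ρbar.IsAbsolutelyIrreducible)
    (hdet : (GaloisRepAdic.ofResidualGaloisRep ρbar).DetIsCyclotomic p)
    (hsplit : ∀ σ : Γℚ, ∃ a b : ResidueField O,
      LinearMap.charpoly (ρbar.ρ σ) = (X - C a) * (X - C b))
    (htw : ∀ (K : Type) [Field K] [Algebra (ResidueField O) K] (G : Subgroup Γℚ), G.index = 2 →
      ∀ V : Submodule K (ρbar.baseChange K).V,
        (∀ σ ∈ G, ∀ x ∈ V, (ρbar.baseChange K).ρ σ x ∈ V) → V = ⊥ ∨ V = ⊤)
    (k : R59.Kind) (hk : k ≠ .ord) (hbar : atP k p (GaloisRepAdic.ofResidualGaloisRep ρbar))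
    (Smin : Finset ℕ) (hpSmin : p ∈ Smin)
    (hmin : ∀ q : ℕ, q.Prime → q ≠ p → (q ∈ Smin ↔ ¬ ρbar.IsUnramifiedAt q))
    (huni : ∀ q ∈ Smin, q.Prime → q ≠ p →
      (GaloisRepAdic.ofResidualGaloisRep ρbar).IsUnipotentOnInertiaAt q)
    {ι : Type} [Fintype ι] (ell : ι → ℕ) (hinj : Function.Injective ell)
    (hell : ∀ i, (ell i).Prime) (hnot : ∀ i, ell i ∉ Smin)
    (place : ι → ValuationSubring (AlgebraicClosure ℚ)) (frob tame : ι → Γℚ) (sign : ι → ℤˣ)
    (hplace : ∀ i, (place i).LiesOverPrime (ell i))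
    (hfrob : ∀ i, (place i).IsFrobeniusAt (frob i) (ell i))
    (htame : ∀ i, IsTameGen p (ell i) (place i) (frob i) (tame i))
    (hscal : ∀ i, ∀ A : ValuationSubring (AlgebraicClosure ℚ), A.LiesOverPrime (ell i) →
      ∀ σ : Γℚ, A.IsFrobeniusAt σ (ell i) →
        ρbar.ρ σ = ((sign i : ℤ) : ResidueField O) • (1 : Module.End (ResidueField O) ρbar.V))
    (S : Finset ℕ) (hS : ∀ q, q ∈ S ↔ q ∈ Smin ∨ ∃ i, ell i = q) :
    ∃ g : ℕ, ∀ n : ℕ, ∃ qv : Fin (3 * Fintype.card ι + g) → ℕ,
      Function.Injective qv ∧ (∀ i, (qv i).Prime) ∧ (∀ i, qv i ∉ S) ∧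
      (∀ i, p ^ (n + 1) ∣ qv i - 1) ∧
      (∀ i, ∀ P : ValuationSubring (AlgebraicClosure ℚ), P.LiesOverPrime (qv i) →
        ∀ φ : Γℚ, P.IsFrobeniusAt φ (qv i) → ∃ α β : ResidueField O, α ≠ β ∧
          LinearMap.charpoly (ρbar.ρ φ) = (X - C α) * (X - C β)) ∧
      ∀ D : GaloisRep.DeformationRingData O ρbar
          (R59.cond k O p (S ∪ Finset.univ.image qv) Smin),
        ∃ γ : MvPowerSeries (LocVar ι (Fin g)) O →ₐ[O] D.R, Function.Surjective γ ∧
          ∀ i : ι, ∃ b : Module.Basis (Fin 2) D.R D.ρ.V,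
            (univPhi O i).map γ = ((sign i : ℤ) : D.R) • LinearMap.toMatrix b b (D.ρ.ρ (frob i)) ∧
            (univSig O i).map γ = LinearMap.toMatrix b b (D.ρ.ρ (tame i)) := by
  classical
  haveI := TW.charP_residueField (𝒪 := O) p hp
  set Sg : Finset ℕ := Finset.univ.image ell with hSgdef
  have hSg : ∀ {q}, q ∈ Sg ↔ ∃ i, ell i = q := fun {q} => by simp [hSgdef]
  have hur : ∀ i, ρbar.IsUnramifiedAt (ell i) := fun i =>
    not_not.mp (mt (hmin _ (hell i) fun h => hnot i (h ▸ hpSmin)).mpr (hnot i))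
  have had0 : ∀ i {P : ValuationSubring (AlgebraicClosure ℚ)}, P.LiesOverPrime (ell i) →
      ∀ {σ : Γℚ}, σ ∈ P.decompositionSubgroup ℚ → (TW.ad0 ρbar).ρ σ = 1 :=
    fun i _ hP _ hσ => ad0_eq_one_of_scalar (hell i) (hur i) _ (hscal i) hP hσ
  have hloc : atP k p (GaloisRepAdic.ofResidualGaloisRep ρbar) →
      ∃ L : Submodule (ResidueField O)
          (H1 (Rep.res (primeLocalToGlobal (pPrime p)) (TW.ad0 ρbar))),
        L ≤ continuousH1 (primeLocalToGlobal (pPrime p))
          (Rep.res (primeLocalToGlobal (pPrime p)) (TW.ad0 ρbar)) ∧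
        FiniteDimensional (ResidueField O) L ∧
        finrank (ResidueField O) L ≤ finrank (ResidueField O)
          (Rep.res (primeLocalToGlobal (pPrime p)) (TW.ad0 ρbar)).ρ.invariants + 1 ∧
        ∀ (c : cocycles₁ (TW.ad0 ρbar)) (hc : IsLevelConstant₁ (MonoidHom.id Γℚ) c),
          (TW.adLift ρbar c hc).DetIsCyclotomic p → atP k p (TW.adLift ρbar c hc) →
          TW.locPrime (pPrime p) (TW.ad0 ρbar) ((H1π (TW.ad0 ρbar)).hom c) ∈ L := by
    cases k with
    | flat => exact fun h => TW.exists_flat_local p hp2 ρbar hdet hsplit h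
    | strict => exact fun h => TW.exists_strictOrdinary_local p hp2 ρbar hdet h
    | ord => exact absurd rfl hk
  obtain ⟨r, hr3, hr⟩ := TW.exists_taylorWilesPrimes_relaxed p hp2 hp ρbar habs hdet hsplit htw
    S Smin hpSmin (fun x hx => (hS x).2 (Or.inl hx)) hmin Sg
    (fun x hx => (hS x).2 (Or.inr (hSg.1 hx)))
    (fun x hx => by obtain ⟨i, rfl⟩ := hSg.1 hx; exact hell i)
    (Finset.disjoint_left.2 fun x hx hx' => by obtain ⟨i, rfl⟩ := hSg.1 hx; exact hnot i hx')
    (fun q hq τ => by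
      obtain ⟨i, hi⟩ := hSg.1 hq
      exact had0 i (hi ▸ TW.primeLocalPlace_liesOverPrime q) (TW.primeLocalToGlobal_mem q τ))
    (atP k p) hloc
  have hcard : Sg.card = Fintype.card ι := by
    rw [hSgdef, Finset.card_image_of_injective _ hinj, Finset.card_univ]
  obtain ⟨g, rfl⟩ : ∃ g, r = 3 * Fintype.card ι + g := ⟨r - 3 * Fintype.card ι, by omega⟩
  refine ⟨g, fun n => ?_⟩
  obtain ⟨qv, hqinj, hgood, heig, hsel⟩ := hr n
  refine ⟨qv, hqinj, fun i => (hgood i).1, fun i => (hgood i).2.1, fun i => (hgood i).2.2, heig,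
    fun D => ?_⟩
  obtain ⟨Sel, hfin, hdim, hmem⟩ := hsel hbar huni
  have hg : finrank (ResidueField O) Sel ≤ g := by omega
  obtain ⟨hDbase, hDuni⟩ := D.isOfType
  have hsplitBase : ∀ {A : Type} [CommRing A] [IsLocalRing A] [Algebra O A] (ρ : GaloisRepAdic A),
      R59.baseCond k O p (S ∪ Finset.univ.image qv) ρ ↔ ρ.DetIsCyclotomic p ∧ atP k p ρ ∧
        ∀ q : ℕ, q.Prime → q ∉ S ∪ Finset.univ.image qv → ρ.IsUnramifiedAt q := fun ρ => by
    cases k <;> exact Iff.rfl
  obtain ⟨hDdet, hDp, hDur⟩ := (hsplitBase _).1 hDbase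
  have hPbase : ∀ {B : Type} [CommRing B] [IsLocalRing B] (φ : D.R →+* B) (hφ : IsLocalHom φ),
      Function.Surjective φ → ∀ {ρ : GaloisRepAdic D.R}, atP k p ρ →
        atP k p (ρ.baseChangeAlong φ hφ) := by
    intro B _ _ φ hφ hs ρ h
    cases k with
    | flat => exact Tangent.isFlatAt_baseChangeAlong φ hφ hs h
    | strict => exact Tangent.isStrictOrdinaryAt_baseChangeAlong φ hφ h
    | ord => exact absurd rfl hk
  have hPequiv : ∀ {A : Type} [CommRing A] [IsLocalRing A] {ρ ρ' : GaloisRepAdic A},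
      ρ.IsEquiv ρ' → atP k p ρ → atP k p ρ' := by
    intro A _ _ ρ ρ' he h
    cases k with
    | flat => exact Tangent.isFlatAt_of_isEquiv he h
    | strict => exact Tangent.isStrictOrdinaryAt_of_isEquiv he h
    | ord => exact absurd rfl hk
  obtain ⟨⟨rep, bas, basBar, hres0⟩, rfl⟩ :=
    Tangent.exists_framedLift D.residue_surjective ρbar D.ρ D.residual_isEquiv
  let F : Tangent.FramedLift O D.R D.residue_surjective ρbar := ⟨D.ρ, bas, basBar, hres0⟩
  have hF : F.rep = D.ρ := rfl
  have hd : F.DetConstant := TW.detConstant_of_detIsCyclotomic F p hp (hF ▸ hDdet)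
  have hbase : ∀ (φ : D.R →ₐ[O] DualNumber (ResidueField O))
      (hφ : IsLocalHom (φ : D.R →+* DualNumber (ResidueField O))), Function.Surjective φ →
      R59.cond k O p (S ∪ Finset.univ.image qv) Smin
        (D.ρ.baseChangeAlong (φ : D.R →+* DualNumber (ResidueField O)) hφ) :=
    fun φ hφ hs => ⟨(hsplitBase _).2 ⟨Tangent.detIsCyclotomic_baseChangeAlong _ hφ hDdet,
      hPbase _ hφ hs hDp,
      fun q h1 h2 => Tangent.isUnramifiedAt_baseChangeAlong _ hφ (hDur q h1 h2)⟩,
      fun q h1 h2 h3 => Tangent.isUnipotentOnInertiaAt_baseChangeAlong _ hφ (hDuni q h1 h2 h3)⟩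
  let sgn : ι → O := fun i => ((sign i : ℤ) : O)
  have hsgn : ∀ i, algebraMap O D.R (sgn i) = ((sign i : ℤ) : D.R) := fun i => map_intCast _ _
  let x : ι × Fin 8 → D.R := fun im =>
    ![((sign im.1 : ℤ) : D.R) * F.mat (frob im.1) 0 0 - 1,
      ((sign im.1 : ℤ) : D.R) * F.mat (frob im.1) 0 1,
      ((sign im.1 : ℤ) : D.R) * F.mat (frob im.1) 1 0,
      ((sign im.1 : ℤ) : D.R) * F.mat (frob im.1) 1 1 - 1,
      F.mat (tame im.1) 0 0 - 1, F.mat (tame im.1) 0 1,
      F.mat (tame im.1) 1 0, F.mat (tame im.1) 1 1 - 1] im.2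
  have hbarΦ : ∀ i, F.matBar (frob i) =
      ((sign i : ℤ) : ResidueField O) • (1 : Matrix (Fin 2) (Fin 2) (ResidueField O)) :=
    fun i => by
    rw [Tangent.FramedLift.matBar, hscal i _ (hplace i) _ (hfrob i), map_smul,
      LinearMap.toMatrix_one]
  have hbarτ : ∀ i, F.matBar (tame i) = 1 := fun i => by
    rw [Tangent.FramedLift.matBar, hur i _ (hplace i) _
      (htame i).mem, LinearMap.toMatrix_one]
  have hsq : ∀ i, ((sign i : ℤ) : ResidueField O) * ((sign i : ℤ) : ResidueField O) = 1 :=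
    fun i => by rw [← Int.cast_mul, ← Units.val_mul, Int.units_mul_self, Units.val_one, Int.cast_one]
  have hx : ∀ j, x j ∈ maximalIdeal D.R := by
    rintro ⟨i, m⟩
    rw [← Tangent.res0_eq_zero_iff O D.R D.residue_surjective]
    fin_cases m <;>
      simp [x, map_intCast, Tangent.FramedLift.res0_mat', hbarΦ, hbarτ, hsq]
  obtain ⟨γ, hγ, hγx⟩ := Tangent.exists_relative_presentation D F hF hd hbase x hx Sel
    (fun f hf hne => by
      have he := F.baseChangeAlong_equiv_adLift f hd
      rw [hF] at he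
      have hs := Tangent.dualHom_surjective O D.R D.residue_surjective hne
      obtain ⟨h123, h4⟩ := hbase _ (Tangent.isLocalHom_dualHom f) hs
      obtain ⟨h1, h2, h3⟩ := (hsplitBase _).1 h123
      refine hmem _ (F.isLevelConstant₁_cocycle f hd)
        (Tangent.detIsCyclotomic_of_isEquiv he h1) (hPequiv he h2)
        (fun q hq hqS => Tangent.isUnramifiedAt_of_isEquiv he (h3 q hq fun h => hqS ?_))
        (fun q ha hb hc => Tangent.isUnipotentOnInertiaAt_of_isEquiv he (h4 q ha hb hc))
        (fun q hq τ => ?_)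
      · rcases Finset.mem_union.1 h with h | h
        · refine Finset.mem_union_left _ ?_
          rcases (hS q).1 h with h | ⟨i, rfl⟩
          · exact Finset.mem_union_left _ h
          · exact Finset.mem_union_right _ (hSg.2 ⟨i, rfl⟩)
        · exact Finset.mem_union_right _ h
      · have hzero : ∀ j : ι, F.cocycle hd f (frob j) = 0 ∧ F.cocycle hd f (tame j) = 0 := by
          intro j
          have hm : ∀ m, Tangent.cotDer O D.R D.residue_surjective f (x (j, m)) = 0 :=
            fun m => hf (j, m)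
          have hsub : ∀ a : D.R, Tangent.cotDer O D.R D.residue_surjective f (a - 1) =
              Tangent.cotDer O D.R D.residue_surjective f a := fun a => by
            have := Tangent.cotPart_add O D.R D.residue_surjective (a - 1) 1
            rw [sub_add_cancel, Tangent.cotPart_one, add_zero] at this
            rw [Tangent.cotDer, Tangent.cotDer, this]
          have hne' : ((sign j : ℤ) : ResidueField O) ≠ 0 := left_ne_zero_of_mul_eq_one (hsq j)
          have hmulD : ∀ a : D.R, Tangent.cotDer O D.R D.residue_surjective f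
              (((sign j : ℤ) : D.R) * a) = 0 →
              Tangent.cotDer O D.R D.residue_surjective f a = 0 := fun a ha => by
            rw [← hsgn, Tangent.cotDer, Tangent.cotPart_mul, Tangent.cotPart_algebraMap, smul_zero,
              add_zero, Tangent.res0_algebraMap, map_smul, smul_eq_mul] at ha
            refine (mul_eq_zero.1 ha).resolve_left ?_
            rwa [show residue O (sgn j) = ((sign j : ℤ) : ResidueField O) from
              map_intCast _ _]
          have hΦ0 : F.matEps f (frob j) = 0 := by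
            ext a b
            fin_cases a <;> fin_cases b
            · exact hmulD _ ((hsub _).symm.trans (hm 0))
            · exact hmulD _ (hm 1)
            · exact hmulD _ (hm 2)
            · exact hmulD _ ((hsub _).symm.trans (hm 3))
          have hτ0 : F.matEps f (tame j) = 0 := by
            ext a b
            fin_cases a <;> fin_cases b
            · exact (hsub _).symm.trans (hm 4)
            · exact hm 5
            · exact hm 6
            · exact (hsub _).symm.trans (hm 7)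
          constructor <;> refine Subtype.ext ?_
          · show F.cochain f (frob j) = 0
            simp [Tangent.FramedLift.cochain, Tangent.FramedLift.epsEnd, hΦ0]
          · show F.cochain f (tame j) = 0
            simp [Tangent.FramedLift.cochain, Tangent.FramedLift.epsEnd, hτ0]
        obtain ⟨i, hi⟩ := hSg.1 hq
        exact cocycle_eq_zero_of_scalar (hell i) (hur i) _ (hscal i) (hplace i) (hfrob i) (htame i)
          _ (F.isLevelConstant₁_cocycle f hd) (hzero i).1 (hzero i).2
          (hi ▸ TW.primeLocalPlace_liesOverPrime q) (TW.primeLocalToGlobal_mem q τ))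
    g hg
  refine ⟨γ, hγ, fun i => ?_⟩
  refine ⟨F.basis, ?_, ?_⟩
  · ext a b
    fin_cases a <;> fin_cases b <;>
      simp [univPhi, locX, hγx, x, Matrix.map_apply, Tangent.FramedLift.mat, smul_eq_mul] <;> rfl
  · ext a b
    fin_cases a <;> fin_cases b <;>
      simp [univSig, locX, hγx, x, Matrix.map_apply, Tangent.FramedLift.mat] <;> rfl

end Fermat.Agent.LL
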