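import Fermat.Agent.LL.Glue

/-!
# Level lowering at an odd prime from its named pieces
-/

set_option autoImplicit false

noncomputable section

open WeierstrassCurve WeierstrassCurve.Affine WeierstrassCurve.Affine.Point
open FreyPackage

namespace Fermat.Agent.LL

/-- Level lowering at `p`, as stated in row 38. -/
def StmtLowerAtP : Prop :=
  ∀ (P : FreyPackage) {N : ℕ}, P.IsConductorLevel N → P.p ∣ N →
    GaloisRepIsIrreducible (K := AlgebraicClosure ℚ) ℚ P.freyCurve P.p →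
    P.ModularRepOfLevel N → ∃ M : ℕ, M ∣ N ∧ ¬ P.p ∣ M ∧ P.ModularRepOfLevel M

/-- Level lowering at an odd prime different from `p`. -/
theorem level_lowering_of (hp : StmtLowerAtP) (hS : StmtSetting) (hP : StmtPrimes) (hM : StmtPair)
    (P : FreyPackage) {N q : ℕ} (hcond : P.IsConductorLevel N) (hq : q.Prime) (hq2 : q ≠ 2)
    (hirr : GaloisRepIsIrreducible (K := AlgebraicClosure ℚ) ℚ P.freyCurve P.p)
    (hmod : P.ModularRepOfLevel N) :
    ∃ M : ℕ, M ∣ N ∧ ¬ q ∣ M ∧ P.ModularRepOfLevel M := by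
  classical
  have hex : ∃ M, M ∣ N ∧ P.ModularRepOfLevel M := ⟨N, dvd_rfl, hmod⟩
  obtain ⟨h1, h2⟩ := Nat.find_spec hex
  refine ⟨Nat.find hex, h1, fun hdvd => ?_, h2⟩
  have hpos : 0 < Nat.find hex := Nat.pos_of_dvd_of_pos h1 hcond.pos
  have hmin : ∀ M' : ℕ, M' ∣ Nat.find hex → M' < Nat.find hex → ¬ P.ModularRepOfLevel M' :=
    fun M' h3 h4 h5 => Nat.find_min hex h4 ⟨h3.trans h1, h5⟩
  have hnp : ¬ P.p ∣ Nat.find hex := fun h => by
    obtain ⟨M', h3, h4, h5⟩ := hp P (hcond.of_dvd h1 hpos) h hirr h2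
    rcases (Nat.le_of_dvd hpos h3).lt_or_eq with h6 | h6
    · exact hmin M' h3 h6 h5
    · exact h4 (h6 ▸ h)
  obtain ⟨U⟩ := hS P _ (hcond.of_dvd h1 hpos) hnp hirr h2 hmin ⟨q, hq, hq2, hdvd⟩
  exact false_of_setting hP hM U

end Fermat.Agent.LL
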