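import Fermat.Agent.LL.Setting
import Fermat.Agent.LL.Galois.TameGen
import Fermat.Agent.LL.Mazur.Consequences
import Fermat.Agent.LL.Residual.Coeff
import Fermat.Agent.LL.Residual.CurveRep
import Fermat.Agent.LL.Residual.Tw
import Fermat.Agent.LL.Residual.RamifiedMult
import Fermat.Agent.LL.Residual.ModularTrace
import Fermat.Agent.S05

/-!
# Existence of the setting at a minimal level

`stmtSetting_of`: a minimal level of a Frey package with an odd prime gives a `Setting`, from
the existence of residual representations attached to eigenforms.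
-/

set_option autoImplicit false
set_option linter.style.haveILetI false

noncomputable section

open IsLocalRing Polynomial
open WeierstrassCurve WeierstrassCurve.Affine WeierstrassCurve.Affine.Point

namespace Fermat.Agent.LL

local notation "Γℚ" => (AlgebraicClosure ℚ ≃ₐ[ℚ] AlgebraicClosure ℚ)

open CondLevel (Tors rhoTors)

variable (P : FreyPackage)

theorem freyCurveInt_modRepIsIrreducible
    (hirr : GaloisRepIsIrreducible (K := AlgebraicClosure ℚ) ℚ P.freyCurve P.p) :
    P.freyCurveInt.ModRepIsIrreducible P.p := by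
  unfold WeierstrassCurve.ModRepIsIrreducible
  rw [ECLocal.freyCurveInt_map]
  exact hirr

theorem frey_two_dvd_Δ : (2 : ℤ) ∣ P.freyCurveInt.Δ := by
  have h : (2 : ℤ) ∣ P.b := (ZMod.intCast_zmod_eq_zero_iff_dvd P.b 2).1 P.hb2
  exact_mod_cast (ECLocal.dvd_freyCurveInt_Δ_iff P Nat.prime_two).mpr
    (dvd_mul_of_dvd_left (dvd_mul_of_dvd_right h _) _)

theorem frey_not_dvd_padicValInt_two : ¬ P.p ∣ padicValInt 2 P.freyCurveInt.Δ := by
  haveI := Fact.mk Nat.prime_two
  have h := congrArg (padicValInt 2) (ECLocal.freyCurveInt_Δ P)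
  rw [padicValInt.mul (by norm_num) (ECLocal.freyCurveInt_Δ_ne_zero P)] at h
  have h8 : padicValInt 2 ((2 : ℤ) ^ 8) = 8 := by
    rw [padicValInt, Int.natAbs_pow]
    exact padicValNat.prime_pow 8
  rw [h8, ← pow_mul, padicValInt, padicValInt, Int.natAbs_pow, padicValNat.pow] at h
  intro hd
  have h1 : P.p ∣ 8 + padicValNat 2 P.freyCurveInt.Δ.natAbs :=
    h ▸ Dvd.dvd.mul_right (dvd_mul_right _ 2) _
  have h2 : P.p ∣ 2 ^ 3 := (Nat.dvd_add_left hd).mp h1
  have := Nat.le_of_dvd (by norm_num) (P.pp.dvd_of_dvd_pow h2)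
  have := P.hp5
  omega

/-- `E[p]` is ramified at `2`. -/
theorem frey_exists_inertia_two [Fact P.p.Prime] {A : ValuationSubring (AlgebraicClosure ℚ)}
    (hA : A.LiesOverPrime 2) :
    ∃ σ ∈ A.inertiaSubgroupIn ℚ, ∃ x : Tors P.freyCurveInt P.p, σ • x ≠ x :=
  exists_inertia_smul_ne P.freyCurveInt (ECLocal.freyCurveInt_Δ_ne_zero P) Nat.prime_two
    (by have := P.hp5; omega) (by have := P.hp5; omega)
    (frey_two_dvd_Δ P) (ECLocal.isSemistableModel_freyCurveInt P 2 Nat.prime_two (frey_two_dvd_Δ P))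
    (frey_not_dvd_padicValInt_two P) hA

/-- A level of modularity is even. -/
theorem two_dvd_of_modular (h29 : CondLevel.ResidualAttachment) [Fact P.p.Prime] {M : ℕ}
    (hM : M ≠ 0) (hirr : GaloisRepIsIrreducible (K := AlgebraicClosure ℚ) ℚ P.freyCurve P.p)
    (hmod : P.ModularRepOfLevel M) : 2 ∣ M := by
  by_contra h2
  obtain ⟨A, hA⟩ := Galois.exists_liesOverPrime (L := AlgebraicClosure ℚ) Nat.prime_two
  obtain ⟨τ, hτ, x, hx⟩ := frey_exists_inertia_two P hA
  have hp2 : 2 ≠ P.p := by have := P.hp5; omega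
  exact hx (LinearMap.congr_fun (modUnramified_of_not_dvd h29 P.freyCurveInt
    (ECLocal.freyCurveInt_Δ_ne_zero P) (ECLocal.isSemistableModel_freyCurveInt P) P.p
    (freyCurveInt_modRepIsIrreducible P hirr) hM
    (isResiduallyModularOfLevel_of_frey h29 P hM hmod) Nat.prime_two hp2 h2 A hA τ hτ) x)

/-- `E[p]` has a finite flat model at `p`. -/
theorem frey_hasFlatModel :
    FFG.HasFlatModel (GaloisRep.ratLocalizedAt P.p) ℚ (AlgebraicClosure ℚ)
      (M := Tors P.freyCurveInt P.p) (fun σ x => σ • x) := by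
  have hp2 : P.p ≠ 2 := by have := P.hp5; omega
  by_cases hd : (P.p : ℤ) ∣ P.freyCurveInt.Δ
  · exact ECFormal.hasFlatModel_of_mult P.freyCurveInt (ECLocal.freyCurveInt_Δ_ne_zero P) P.pp hp2
      hd (ECLocal.isSemistableModel_freyCurveInt P P.p P.pp hd)
      (by
        rw [ECLocal.padicValInt_freyCurveInt_Δ P P.pp hp2, mul_comm 2 P.p, mul_assoc]
        exact dvd_mul_right _ _)
  · have h := ECFormal.hasFlatModel_of_good P.freyCurveInt P.pp hd 1
    rwa [pow_one] at h

/-- A minimal level of a Frey package with an odd prime gives a setting. -/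
theorem stmtSetting_of (h29 : CondLevel.ResidualAttachment) : StmtSetting := by
  classical
  intro P M hcond hpM hirr hmod hmin hodd
  haveI : Fact P.p.Prime := ⟨P.pp⟩
  haveI : NeZero M := ⟨hcond.pos.ne'⟩
  have hp5 : 5 ≤ P.p := P.hp5
  have hp2 : P.p ≠ 2 := by omega
  set W := P.freyCurveInt with hW
  have hΔ : W.Δ ≠ 0 := ECLocal.freyCurveInt_Δ_ne_zero P
  have hss : W.IsSemistableModel := ECLocal.isSemistableModel_freyCurveInt P
  have hirrW : W.ModRepIsIrreducible P.p := freyCurveInt_modRepIsIrreducible P hirr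
  obtain ⟨O, _, _, _, _, _, _, _, hpO, ⟨ζ, hζ⟩, ⟨w, hw⟩⟩ := exists_coeff P.p M
  set k := ResidueField O
  haveI hkp : CharP k P.p := by
    refine (CharP.charP_iff_prime_eq_zero P.pp).mpr ?_
    rw [← map_natCast (residue O)]
    exact (residue_eq_zero_iff _).mpr hpO
  set ψ : ZMod P.p →+* k := ZMod.castHom (dvd_refl P.p) k
  set ρbar := curveRhoBar W P.p hΔ ψ with hρbar
  -- the hard primes
  set H := M.primeFactors.erase 2 with hH
  have hmem : ∀ r ∈ H, r.Prime ∧ r ≠ 2 ∧ r ∣ M ∧ r ≠ P.p := fun r hr => by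
    rw [hH, Finset.mem_erase, Nat.mem_primeFactors] at hr
    exact ⟨hr.2.1, hr.1, hr.2.2.1, fun e => hpM (e ▸ hr.2.2.1)⟩
  have hunr : ∀ r : ℕ, r.Prime → r ≠ 2 → r ≠ P.p → ρbar.IsUnramifiedAt r := by
    intro r hr hr2 hrp
    rw [hρbar, curveRhoBar_isUnramifiedAt_iff, hW, ECLocal.freyCurveInt_map]
    exact S05.result P hr hr2 hrp
  have hG2a : ∀ r ∈ H, r ≡ 1 [MOD P.p] ∧ ∀ A : ValuationSubring (AlgebraicClosure ℚ),
      A.LiesOverPrime r → ∀ σ : Γℚ, A.IsFrobeniusAt σ r →
        ρbar.ρ σ = 1 ∨ ρbar.ρ σ = (-1 : k) • 1 := by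
    intro r hr
    obtain ⟨hrp', hr2, hrM, hrp⟩ := hmem r hr
    have hMM : M = M / r * r := (Nat.div_mul_cancel hrM).symm
    haveI : NeZero (M / r) := ⟨fun h0 => NeZero.ne M (by rw [hMM, h0, zero_mul])⟩
    have hlt : M / r < M := Nat.div_lt_self (Nat.pos_of_neZero M) hrp'.one_lt
    have hnd : ¬ r ∣ M / r := fun h => hcond.sq_not_dvd hrp'
      (by rw [sq, hMM]; exact mul_dvd_mul_right h r)
    obtain ⟨h1, h2⟩ := Mazur.frob_scalar_of_not_modularRepOfLevel P hrp' hr2 hrp hnd
      (hMM ▸ hcond.squarefree) hirr (hMM ▸ hmod) (S05.result P hrp' hr2 hrp)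
      (hmin _ (Nat.div_dvd_of_dvd hrM) hlt)
    refine ⟨h1, fun A hA σ hσ => ?_⟩
    have h2' := h2 A hA σ hσ
    rw [← ECLocal.freyCurveInt_map] at h2'
    rcases h2' with h | h
    · exact Or.inl ((curveRhoBar_apply_eq_one_iff W P.p hΔ ψ σ).mpr h)
    · refine Or.inr ?_
      have e : rhoTors W P.p σ = (-1 : ZMod P.p) • 1 := LinearMap.ext fun x => by
        rw [LinearMap.smul_apply, Module.End.one_apply, neg_one_smul]
        exact h x
      have := (curveRhoBar_apply_eq_smul_one_iff W P.p hΔ ψ (-1) σ).mpr e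
      rwa [map_neg, map_one] at this
  -- places, Frobenius, tame generators, signs
  choose place frob hplace hfrob using fun r : {r // r ∈ H} =>
    Galois.exists_place_isFrobeniusAt (q := r.1) (hmem r.1 r.2).1
  choose tame htame using fun r : {r // r ∈ H} =>
    exists_isTameGen P.pp (hmem r.1 r.2).1 (hmem r.1 r.2).2.2.2 (hplace r) (hfrob r)
  let sign : {r // r ∈ H} → ℤˣ := fun r => if ρbar.ρ (frob r) = 1 then 1 else -1
  have hsign : ∀ r, ρbar.ρ (frob r) = ((sign r : ℤ) : k) • (1 : Module.End k ρbar.V) := by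
    intro r
    by_cases h : ρbar.ρ (frob r) = 1
    · simp only [sign, if_pos h, Units.val_one, Int.cast_one, one_smul, h]
    · simp only [sign, if_neg h, Units.val_neg, Units.val_one, Int.cast_neg, Int.cast_one]
      exact ((hG2a r.1 r.2).2 _ (hplace r) _ (hfrob r)).resolve_left h
  have hscalar : ∀ (r : {r // r ∈ H}) (A : ValuationSubring (AlgebraicClosure ℚ)),
      A.LiesOverPrime r.1 → ∀ σ : Γℚ, A.IsFrobeniusAt σ r.1 →
        ρbar.ρ σ = ((sign r : ℤ) : k) • (1 : Module.End k ρbar.V) := by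
    intro r A hA σ hσ
    obtain ⟨hr, hr2, -, hrp⟩ := hmem r.1 r.2
    obtain ⟨g, hg⟩ := Galois.exists_smul_eq (hplace r) hA hr
    have hconj := Galois.isFrobeniusAt_conj (hfrob r) g
    rw [hg] at hconj
    have hI := hunr r.1 hr hr2 hrp A hA _ (Galois.isFrobeniusAt_inv_mul_mem_inertia hconj hσ)
    have e : ρbar.ρ σ = ρbar.ρ (g * frob r * g⁻¹) := by
      calc ρbar.ρ σ
          = ρbar.ρ (g * frob r * g⁻¹) * ρbar.ρ ((g * frob r * g⁻¹)⁻¹ * σ) := by
            rw [← map_mul, mul_inv_cancel_left]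
        _ = ρbar.ρ (g * frob r * g⁻¹) := by rw [hI, mul_one]
    rw [e, map_mul, map_mul, hsign r, mul_smul_comm, mul_one, smul_mul_assoc, ← map_mul,
      mul_inv_cancel, map_one]
  -- the Hecke character
  obtain ⟨θ, hθ⟩ := exists_heckeHom h29 P hmod ψ
  have h2M : 2 ∣ M := two_dvd_of_modular P h29 (NeZero.ne M) hirr hmod
  obtain ⟨A₂, hA₂⟩ := Galois.exists_liesOverPrime (L := AlgebraicClosure ℚ) Nat.prime_two
  obtain ⟨τ, hτ, x, hx⟩ := frey_exists_inertia_two P hA₂
  have hτ1 : ρbar.ρ τ ≠ 1 := fun h => hx ((curveRhoBar_apply_eq_one_iff W P.p hΔ ψ τ).mp h x)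
  have hunip2 := curveRhoBar_unipotent W P.p hΔ ψ Nat.prime_two (by omega) (hss 2 Nat.prime_two)
  have h2k : (2 : k) ≠ 0 := Ring.two_ne_zero (by rw [ringChar.eq k P.p]; exact hp2)
  refine ⟨{
    p := P.p
    two_lt := by omega
    O := O
    p_mem := hpO
    ρbar := ρbar
    absIrr := curveRhoBar_absIrr W P.p hΔ ψ hp2 hirrW
    detCyc := curveRhoBar_detCyc W P.p hΔ ψ
    ram := {2}
    hard := H
    aux := ∅
    kind := .flat
    unipotent := fun l hl => Finset.mem_singleton.mp hl ▸ hunip2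
    atP := Or.inl ⟨rfl, hpM, curveRhoBar_isFlatAt W P.p hΔ ψ (frey_hasFlatModel P)⟩
    primeFactors_eq := ?_
    disjoint_ram_hard := Finset.disjoint_singleton_left.mpr (Finset.notMem_erase _ _)
    disjoint_aux := Finset.disjoint_empty_right _
    aux_spec := fun q hq => absurd hq (Finset.notMem_empty q)
    three := fun h => by omega
    split := fun σ => ?_
    tw := fun K _ _ G hG V hV => ?_
    ramified_iff := fun l hl hlp => ?_
    M := M
    squarefree := hcond.squarefree
    hard_nonempty := ?_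
    one_mod := fun r hr => (hG2a r hr).1
    θ := θ
    θ_charpoly := fun l hl hlM hlS A hA σ hσ => ?_
    minimal := fun r M' _ hr hMr θ' => ?_
    zeta := fun r hr => ?_
    place := place
    frob := frob
    tame := tame
    sign := sign
    place_liesOver := hplace
    frob_spec := hfrob
    tame_spec := htame
    scalar := hscalar }⟩
  · -- split
    obtain ⟨a, b, hab⟩ := exists_roots_quadratic ψ hw
      (LinearMap.trace (ZMod P.p) _ (rhoTors W P.p σ)) (LinearMap.det (rhoTors W P.p σ))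
    exact ⟨a, b, by rw [hρbar, curveRhoBar_charpoly_eq, hab]⟩
  · -- tw
    have := CondLevel.moduleFinite_tors W hΔ P.p
    refine residual_tw_of_unipotent h2k ρbar K (fun U hU => ?_) hτ1 (hunip2 A₂ hA₂ τ hτ) G hG V hV
    refine CondLevel.irreducible_of_trace_det (K := K) ?_ ((algebraMap k K).comp ψ)
      (CondLevel.finrank_tors W hΔ P.p) (rhoTors W P.p)
      (fun N hN => hirrW.2 N fun s y hy => hN s y hy) complexConjugation
      complexConjugation_mul_self (CondLevel.det_rhoTors_involution W hΔ P.p hp2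
        complexConjugation_mul_self CondLevel.complexConjugation_ne_one)
      (ρbar.baseChange K).finrank_eq (ρbar.baseChange K).ρ (fun s => ?_) (fun s => ?_) U hU
    · intro h
      exact h2k ((algebraMap k K).injective (by rw [map_ofNat, _root_.map_zero, h]))
    · exact (LinearMap.trace_baseChange (ρbar.ρ s) K).trans
        (congrArg (algebraMap k K) (curveRhoBar_trace W P.p hΔ ψ s))
    · exact (LinearMap.det_baseChange (A := K) (ρbar.ρ s)).trans
        (congrArg (algebraMap k K) (curveRhoBar_det W P.p hΔ ψ s))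
  · -- ramified exactly at two
    refine ⟨?_, fun h => Finset.mem_singleton.mpr (by_contra fun h2 => h (hunr l hl h2 hlp))⟩
    rintro h2 h
    obtain rfl := Finset.mem_singleton.mp h2
    exact hτ1 (h A₂ hA₂ τ hτ)
  · -- the primes of the level
    rw [Finset.union_empty, hH, Finset.erase_eq_of_notMem
      (fun h => hpM (Nat.dvd_of_mem_primeFactors h)), Finset.singleton_union, Finset.insert_erase]
    exact Nat.mem_primeFactors.mpr ⟨Nat.prime_two, h2M, NeZero.ne M⟩
  · obtain ⟨q, hq, hq2, hqM⟩ := hodd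
    exact ⟨q, Finset.mem_erase.mpr ⟨hq2, Nat.mem_primeFactors.mpr ⟨hq, hqM, NeZero.ne M⟩⟩⟩
  · -- Frobenius polynomials
    have hlp : l ≠ P.p := fun e => hlS (e ▸ Finset.mem_insert_self _ _)
    rw [hρbar, curveRhoBar_charpoly_eq, hθ l hl hlM hlS A hA σ hσ, CondLevel.det_rhoTors W hΔ P.p,
      CondLevel.cycChar_frobenius P.p hl
        (fun hd => hlp ((Nat.prime_dvd_prime_iff_eq hl P.pp).mp hd)) hA hσ, map_natCast]
  · -- minimality
    by_contra hall
    push Not at hall
    obtain ⟨hr', hr2, hrM, hrp⟩ := hmem r hr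
    obtain ⟨g, hg, 𝔪, h𝔪, hp𝔪, hcong⟩ := exists_eigenform_of_heckeHom P.pp θ'
    have hM'0 : M' ≠ 0 := NeZero.ne M'
    refine hmin M' ⟨r, hMr.symm⟩ (hMr ▸ lt_mul_of_one_lt_right (Nat.pos_of_ne_zero hM'0) hr'.one_lt)
      ⟨g, W, 𝔪, hg, freyCurveInt_isIntegralModelOf P, h𝔪, hp𝔪, fun l hl hgood hlM' hlp => ?_⟩
    have hlr : l ≠ r := fun e => hgood (e ▸
      (ECLocal.dvd_freyCurveInt_Δ_iff P hr').mpr (hcond.support r hr' hrM))
    have hlM : ¬ l ∣ M := fun hd => (hl.dvd_mul.mp (hMr ▸ hd : l ∣ M' * r)).elim hlM'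
      fun h => hlr ((Nat.prime_dvd_prime_iff_eq hl hr').mp h)
    have hlS : l ∉ (↑(insert P.p M.primeFactors) : Set ℕ) := by
      intro h
      rcases Finset.mem_insert.mp h with h | h
      · exact hlp h
      · exact hlM (Nat.dvd_of_mem_primeFactors h)
    obtain ⟨A, σ, hA, hσ⟩ := Galois.exists_place_isFrobeniusAt hl
    refine hcong l hl hlM' hlS _ ?_
    rw [hall l hl hlM' hlM hlS, hθ l hl hlM hlS A hA σ hσ,
      (CondLevel.frobenius_trace_det W hΔ hl hlp hgood hA hσ).1, map_intCast]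
  · -- roots of unity
    obtain ⟨hr', -, hrM, -⟩ := hmem r hr
    have hle : padicValNat P.p (r - 1) ≤ M :=
      (padicValNat_le_nat_log _).trans ((Nat.log_le_self _ _).trans
        ((Nat.sub_le r 1).trans (Nat.le_of_dvd (Nat.pos_of_neZero M) hrM)))
    exact ⟨_, hζ.pow (pow_pos P.pp.pos M) (a := P.p ^ (M - padicValNat P.p (r - 1)))
      (by rw [← pow_add, Nat.sub_add_cancel hle])⟩

end Fermat.Agent.LL
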